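import Mathlib.FieldTheory.IsAlgClosed.Classification
import Mathlib.FieldTheory.Galois.Infinite
import Mathlib.FieldTheory.AlgebraicClosure
import Mathlib.RingTheory.AlgebraicIndependent.Transcendental
import Mathlib.RingTheory.AlgebraicIndependent.TranscendenceBasis
import Mathlib.Analysis.Complex.Polynomial.Basic
import Mathlib.Analysis.Complex.Cardinality

set_option autoImplicit false

namespace Fermat.Agent.S23

open scoped Cardinal

/-- An automorphism `τ` of a subfield `F` and a permutation `π` of a transcendence basis of an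
algebraically closed field `K` over `F` extend simultaneously to an automorphism of `K`. -/
theorem exists_ringEquiv_extending {F K : Type*} [Field F] [Field K] [Algebra F K]
    [IsAlgClosed K] {ι : Type*} (v : ι → K) (hv : IsTranscendenceBasis F v) (τ : F ≃+* F)
    (π : ι ≃ ι) :
    ∃ σ : K ≃+* K, (∀ a : F, σ (algebraMap F K a) = algebraMap F K (τ a)) ∧
      ∀ i, σ (v i) = v (π i) := by
  have hcl := IsAlgClosed.isAlgClosure_of_transcendence_basis v hv
  let e₀ : MvPolynomial ι F ≃+* MvPolynomial ι F :=
    (MvPolynomial.mapEquiv ι τ).trans (MvPolynomial.renameEquiv F π).toRingEquiv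
  let e : Algebra.adjoin F (Set.range v) ≃+* Algebra.adjoin F (Set.range v) :=
    hv.1.aevalEquiv.symm.toRingEquiv.trans (e₀.trans hv.1.aevalEquiv.toRingEquiv)
  refine ⟨IsAlgClosure.equivOfEquiv K K e, ?_, ?_⟩
  · intro a
    have h1 : algebraMap F K a =
        algebraMap (Algebra.adjoin F (Set.range v)) K (hv.1.aevalEquiv (MvPolynomial.C a)) := by
      rw [hv.1.algebraMap_aevalEquiv]
      simp
    have h2 : algebraMap F K (τ a) =
        algebraMap (Algebra.adjoin F (Set.range v)) K
          (hv.1.aevalEquiv (MvPolynomial.C (τ a))) := by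
      rw [hv.1.algebraMap_aevalEquiv]
      simp
    rw [h1, h2, IsAlgClosure.equivOfEquiv_algebraMap]
    congr 1
    simp [e, e₀]
  · intro i
    have h1 : ∀ j, v j =
        algebraMap (Algebra.adjoin F (Set.range v)) K (hv.1.aevalEquiv (MvPolynomial.X j)) := by
      intro j
      rw [hv.1.algebraMap_aevalEquiv]
      simp
    rw [h1 i, h1 (π i), IsAlgClosure.equivOfEquiv_algebraMap]
    congr 1
    simp [e, e₀]


section General

universe u

variable {k K : Type u} [Field k] [Field K] [Algebra k K] [IsAlgClosed K]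

/-- An algebraic element outside the base field (of characteristic zero) is moved by some
automorphism of the algebraically closed field `K`. -/
theorem exists_ringEquiv_apply_ne_of_isAlgebraic [CharZero k] (x : K)
    (hx : x ∉ Set.range (algebraMap k K)) (hxalg : IsAlgebraic k x) :
    ∃ σ : K ≃+* K, σ x ≠ x := by
  have hxA : x ∈ algebraicClosure k K := (mem_algebraicClosure_iff).mpr hxalg
  have hgal : IsGalois k (algebraicClosure k K) := IsAlgClosure.isGalois k _
  have hnot : (⟨x, hxA⟩ : algebraicClosure k K) ∉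
      (⊥ : IntermediateField k (algebraicClosure k K)) := by
    intro h
    rw [IntermediateField.mem_bot] at h
    obtain ⟨q, hq⟩ := h
    apply hx
    refine ⟨q, ?_⟩
    have := congrArg (fun z : algebraicClosure k K => (z : K)) hq
    simpa using this
  rw [InfiniteGalois.mem_bot_iff_fixed] at hnot
  push Not at hnot
  obtain ⟨τ, hτ⟩ := hnot
  obtain ⟨s, hs⟩ := exists_isTranscendenceBasis (algebraicClosure k K) K
  obtain ⟨σ, hσ, -⟩ := exists_ringEquiv_extending ((↑) : s → K) hs τ.toRingEquiv (Equiv.refl _)
  refine ⟨σ, ?_⟩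
  have h1 := hσ ⟨x, hxA⟩
  intro h2
  apply hτ
  apply Subtype.ext
  have h3 : algebraMap (algebraicClosure k K) K (⟨x, hxA⟩ : algebraicClosure k K) = x := rfl
  rw [h3, h2] at h1
  exact h1.symm

/-- A transcendental element of an uncountable algebraically closed field over a countable
field is moved by some automorphism. -/
theorem exists_ringEquiv_apply_ne_of_transcendental (hk : #k ≤ ℵ₀) (hK : ℵ₀ < #K) (x : K)
    (hx : Transcendental k x) : ∃ σ : K ≃+* K, σ x ≠ x := by
  classical
  have hind : AlgebraicIndepOn k id ({x} : Set K) :=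
    algebraicIndependent_unique_type_iff.mpr hx
  obtain ⟨t, hxt, ht⟩ := exists_isTranscendenceBasis_superset hind
  have hxt' : x ∈ t := hxt rfl
  have hcard : #K = #t :=
    IsAlgClosed.cardinal_eq_cardinal_transcendence_basis_of_aleph0_lt' ((↑) : t → K) ht hk hK
  have hinf : Infinite t := by
    rw [Cardinal.infinite_iff, ← hcard]
    exact hK.le
  obtain ⟨y, hy⟩ := exists_ne (⟨x, hxt'⟩ : t)
  obtain ⟨σ, -, hσ⟩ := exists_ringEquiv_extending ((↑) : t → K) ht (RingEquiv.refl k)
    (Equiv.swap ⟨x, hxt'⟩ y)
  refine ⟨σ, ?_⟩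
  have h1 := hσ ⟨x, hxt'⟩
  rw [Equiv.swap_apply_left] at h1
  intro h2
  apply hy
  apply Subtype.ext
  change (y : K) = x
  rw [← h1]
  exact h2

end General

/-- Every non-rational complex number is moved by some ring automorphism of `ℂ`. -/
theorem exists_ringEquiv_apply_ne (x : ℂ) (hx : x ∉ Set.range ((↑) : ℚ → ℂ)) :
    ∃ σ : ℂ ≃+* ℂ, σ x ≠ x := by
  have hx' : x ∉ Set.range (algebraMap ℚ ℂ) := by
    rintro ⟨q, hq⟩
    exact hx ⟨q, by rw [← hq, eq_ratCast]⟩
  by_cases hxalg : IsAlgebraic ℚ x
  · exact exists_ringEquiv_apply_ne_of_isAlgebraic x hx' hxalg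
  · exact exists_ringEquiv_apply_ne_of_transcendental Cardinal.mk_le_aleph0
      (by rw [Cardinal.mk_complex]; exact Cardinal.aleph0_lt_continuum) x hxalg

end Fermat.Agent.S23
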