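import Fermat.Agent.S23.Defs

set_option autoImplicit false

open UpperHalfPlane ModularForm
open scoped MatrixGroups ModularForm Manifold

namespace Fermat.Agent.S23

variable {Γ : Subgroup (GL (Fin 2) ℝ)} {k k₁ k₂ : ℤ} {f g : ℍ → ℂ}

lemma ModularForm.isMF (F : ModularForm Γ k) : IsMF Γ k F := ⟨F, rfl⟩

lemma CuspForm.isCF (F : CuspForm Γ k) : IsCF Γ k F := ⟨F, rfl⟩

lemma IsCF.isMF (hf : IsCF Γ k f) : IsMF Γ k f := by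
  obtain ⟨F, rfl⟩ := hf
  exact ⟨ModularFormClass.modularForm F, rfl⟩

lemma IsMF.congr_weight (hf : IsMF Γ k₁ f) (h : k₁ = k₂) : IsMF Γ k₂ f := h ▸ hf

lemma IsMF.mdiff (hf : IsMF Γ k f) : MDiff f := by
  obtain ⟨F, rfl⟩ := hf
  exact F.holo'

lemma IsMF.slash_eq (hf : IsMF Γ k f) {γ : GL (Fin 2) ℝ} (hγ : γ ∈ Γ) : f ∣[k] γ = f := by
  obtain ⟨F, rfl⟩ := hf
  exact F.slash_action_eq' γ hγ

lemma IsMF.zero : IsMF Γ k 0 := ⟨0, rfl⟩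

lemma IsMF.add (hf : IsMF Γ k f) (hg : IsMF Γ k g) : IsMF Γ k (f + g) := by
  obtain ⟨F, rfl⟩ := hf
  obtain ⟨G, rfl⟩ := hg
  exact ⟨F + G, rfl⟩

lemma IsMF.neg (hf : IsMF Γ k f) : IsMF Γ k (-f) := by
  obtain ⟨F, rfl⟩ := hf
  exact ⟨-F, rfl⟩

lemma IsMF.sub (hf : IsMF Γ k f) (hg : IsMF Γ k g) : IsMF Γ k (f - g) := by
  obtain ⟨F, rfl⟩ := hf
  obtain ⟨G, rfl⟩ := hg
  exact ⟨F - G, rfl⟩

lemma IsMF.smul [Γ.HasDetOne] (c : ℂ) (hf : IsMF Γ k f) : IsMF Γ k (c • f) := by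
  obtain ⟨F, rfl⟩ := hf
  exact ⟨c • F, rfl⟩

lemma IsMF.const [Γ.HasDetOne] (c : ℂ) : IsMF Γ 0 (fun _ => c) :=
  ⟨ModularForm.const c, rfl⟩

lemma IsMF.one [Γ.HasDetOne] : IsMF Γ 0 1 := IsMF.const 1

lemma IsMF.mul [Γ.HasDetPlusMinusOne] (hf : IsMF Γ k₁ f) (hg : IsMF Γ k₂ g) :
    IsMF Γ (k₁ + k₂) (f * g) := by
  obtain ⟨F, rfl⟩ := hf
  obtain ⟨G, rfl⟩ := hg
  exact ⟨F.mul G, rfl⟩

lemma IsMF.pow [Γ.HasDetPlusMinusOne] (hf : IsMF Γ k f) (n : ℕ) : IsMF Γ (n * k) (f ^ n) := by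
  obtain ⟨F, rfl⟩ := hf
  exact ⟨F.pow n, ModularForm.coe_pow F n⟩

lemma IsMF.sum {ι : Type*} (s : Finset ι) {F : ι → ℍ → ℂ} (h : ∀ i ∈ s, IsMF Γ k (F i)) :
    IsMF Γ k (∑ i ∈ s, F i) := by
  classical
  induction s using Finset.induction_on with
  | empty => simpa using IsMF.zero
  | insert i t hi IH =>
    rw [Finset.sum_insert hi]
    exact (h i (Finset.mem_insert_self i t)).add
      (IH fun j hj => h j (Finset.mem_insert_of_mem hj))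

lemma IsMF.mono {Γ' : Subgroup (GL (Fin 2) ℝ)} (hΓ : Γ' ≤ Γ) (hf : IsMF Γ k f) : IsMF Γ' k f := by
  obtain ⟨F, rfl⟩ := hf
  exact ⟨{ toFun := F
           slash_action_eq' := fun γ hγ => F.slash_action_eq' γ (hΓ hγ)
           holo' := F.holo'
           bdd_at_cusps' := fun hc => F.bdd_at_cusps' (hc.mono hΓ) }, rfl⟩

lemma IsMF.isBoundedAtImInfty [Γ.IsArithmetic] (hf : IsMF Γ k f) : IsBoundedAtImInfty f := by
  obtain ⟨F, rfl⟩ := hf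
  exact ModularFormClass.bdd_at_infty F

lemma IsMF.isBoundedAtImInfty_slash [Γ.IsArithmetic] (hf : IsMF Γ k f) (γ : SL(2, ℤ)) :
    IsBoundedAtImInfty (f ∣[k] γ) := by
  obtain ⟨F, rfl⟩ := hf
  exact ModularFormClass.bdd_at_infty_slash F γ

lemma IsCF.isZeroAtImInfty [Γ.IsArithmetic] (hf : IsCF Γ k f) : IsZeroAtImInfty f := by
  obtain ⟨F, rfl⟩ := hf
  exact CuspFormClass.zero_at_infty F

lemma IsCF.isZeroAtImInfty_slash [Γ.IsArithmetic] (hf : IsCF Γ k f) (γ : SL(2, ℤ)) :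
    IsZeroAtImInfty (f ∣[k] γ) := by
  obtain ⟨F, rfl⟩ := hf
  exact CuspFormClass.zero_at_infty_slash F γ

end Fermat.Agent.S23
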