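import Mathlib.NumberTheory.ModularForms.QExpansion
import Mathlib.NumberTheory.ModularForms.CongruenceSubgroups
import Mathlib.NumberTheory.ModularForms.LevelOne.Basic
import Mathlib.NumberTheory.ModularForms.CuspFormSubmodule
import Fermat.Prelude.Thm_CongruenceSubgroup_one_mem_strictPeriods_Gamma0
import Fermat.Agent.S23.Basic

set_option autoImplicit false

open UpperHalfPlane ModularForm
open scoped MatrixGroups ModularForm Manifold

namespace Fermat.Agent.S23

variable {Γ : Subgroup (GL (Fin 2) ℝ)} {k a b c : ℤ} {F G : ℍ → ℂ}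

/-! ### Closure properties of `IsMF` -/

theorem IsMF.cast (h : a = b) (hF : IsMF Γ a F) : IsMF Γ b F := h ▸ hF

theorem IsMF.mul_cast [Γ.HasDetPlusMinusOne] (hF : IsMF Γ a F) (hG : IsMF Γ b G) (h : a + b = c) :
    IsMF Γ c (F * G) := by
  obtain ⟨F', rfl⟩ := hF
  obtain ⟨G', rfl⟩ := hG
  subst h
  exact ⟨F'.mul G', rfl⟩

theorem IsMF.pow_cast [Γ.HasDetOne] (hF : IsMF Γ a F) (n : ℕ) (h : a * n = c) :
    IsMF Γ c (F ^ n) := by
  subst h
  induction n with
  | zero => simpa using (IsMF.one (Γ := Γ))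
  | succ n ih =>
    rw [pow_succ]
    exact ih.mul_cast hF (by push_cast; ring)

/-! ### Closure properties of `IsCF` -/

theorem IsCF.cast (h : a = b) (hF : IsCF Γ a F) : IsCF Γ b F := h ▸ hF

theorem IsCF.zero : IsCF Γ k (0 : ℍ → ℂ) := ⟨0, rfl⟩

theorem IsCF.add (hF : IsCF Γ k F) (hG : IsCF Γ k G) : IsCF Γ k (F + G) := by
  obtain ⟨F', rfl⟩ := hF
  obtain ⟨G', rfl⟩ := hG
  exact ⟨F' + G', rfl⟩

theorem IsCF.neg (hF : IsCF Γ k F) : IsCF Γ k (-F) := by
  obtain ⟨F', rfl⟩ := hF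
  exact ⟨-F', rfl⟩

theorem IsCF.smul [Γ.HasDetOne] (x : ℂ) (hF : IsCF Γ k F) : IsCF Γ k (x • F) := by
  obtain ⟨F', rfl⟩ := hF
  exact ⟨x • F', rfl⟩

theorem IsCF.sum {ι : Type*} (s : Finset ι) {F : ι → ℍ → ℂ} (h : ∀ i ∈ s, IsCF Γ k (F i)) :
    IsCF Γ k (∑ i ∈ s, F i) := by
  classical
  induction s using Finset.induction_on with
  | empty => simpa using IsCF.zero
  | insert i s hi ih =>
    rw [Finset.sum_insert hi]
    exact (h i (Finset.mem_insert_self i s)).add
      (ih fun j hj => h j (Finset.mem_insert_of_mem hj))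

theorem IsCF.mul_isMF [Γ.HasDetPlusMinusOne] (hF : IsCF Γ a F) (hG : IsMF Γ b G)
    (h : a + b = c) : IsCF Γ c (F * G) := by
  obtain ⟨F', rfl⟩ := hF
  obtain ⟨G', rfl⟩ := hG
  subst h
  exact ⟨F'.mulModularForm G', rfl⟩

theorem IsMF.mul_isCF [Γ.HasDetPlusMinusOne] (hF : IsMF Γ a F) (hG : IsCF Γ b G)
    (h : a + b = c) : IsCF Γ c (F * G) := by
  rw [mul_comm]
  exact hG.mul_isMF hF (by rw [add_comm]; exact h)

/-! ### Change of level -/

theorem G0_le_SL (N : ℕ) : G0 N ≤ 𝒮ℒ := Subgroup.map_le_range _ _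

theorem IsCF.mono {Γ' : Subgroup (GL (Fin 2) ℝ)} (h : Γ' ≤ Γ) (hF : IsCF Γ k F) :
    IsCF Γ' k F := by
  obtain ⟨F', rfl⟩ := hF
  exact ⟨⟨⟨F', fun γ hγ => F'.slash_action_eq' γ (h hγ)⟩, F'.holo',
    fun hc => F'.zero_at_cusps' (hc.mono h)⟩, rfl⟩

theorem IsMF.levelOne_to_G0 {N : ℕ} (hF : IsMF 𝒮ℒ k F) : IsMF (G0 N) k F := hF.mono (G0_le_SL N)

theorem IsCF.levelOne_to_G0 {N : ℕ} (hF : IsCF 𝒮ℒ k F) : IsCF (G0 N) k F := hF.mono (G0_le_SL N)

/-! ### `q`-expansions -/

/-- The cusp function (for period `1`) of `F` is analytic at `0`. -/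
def Nice (F : ℍ → ℂ) : Prop := AnalyticAt ℂ (cuspFunction 1 F) 0

theorem one_mem_strictPeriods_G0 (N : ℕ) : (1 : ℝ) ∈ (G0 N).strictPeriods :=
  CongruenceSubgroup.one_mem_strictPeriods_Gamma0 N

theorem IsMF.nice {N : ℕ} (hF : IsMF (G0 N) k F) : Nice F := by
  obtain ⟨F', rfl⟩ := hF
  exact ModularFormClass.analyticAt_cuspFunction_zero F' one_pos (one_mem_strictPeriods_G0 N)

theorem IsMF.nice_levelOne (hF : IsMF 𝒮ℒ k F) : Nice F := by
  obtain ⟨F', rfl⟩ := hF
  exact ModularFormClass.analyticAt_cuspFunction_zero F' one_pos one_mem_strictPeriods_SL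

theorem Nice.add (hF : Nice F) (hG : Nice G) : Nice (F + G) := by
  unfold Nice at *
  rw [cuspFunction_add hF.continuousAt hG.continuousAt]
  exact hF.add hG

theorem Nice.mul (hF : Nice F) (hG : Nice G) : Nice (F * G) := by
  unfold Nice at *
  rw [cuspFunction_mul hF.continuousAt hG.continuousAt]
  exact hF.mul hG

theorem Nice.smul (x : ℂ) (hF : Nice F) : Nice (x • F) := by
  unfold Nice at *
  rw [cuspFunction_smul hF.continuousAt]
  exact hF.const_smul

theorem Nice.neg (hF : Nice F) : Nice (-F) := by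
  unfold Nice at *
  rw [cuspFunction_neg hF.continuousAt]
  exact hF.neg

theorem Nice.sub (hF : Nice F) (hG : Nice G) : Nice (F - G) := by
  rw [sub_eq_add_neg]
  exact hF.add hG.neg

theorem Nice.zero : Nice (0 : ℍ → ℂ) := by
  have h := IsMF.nice_levelOne (k := 0) (IsMF.zero (Γ := 𝒮ℒ))
  exact h

theorem Nice.one : Nice (1 : ℍ → ℂ) := by
  have h := IsMF.nice_levelOne (IsMF.one (Γ := 𝒮ℒ))
  exact h

theorem Nice.pow (hF : Nice F) (n : ℕ) : Nice (F ^ n) := by
  induction n with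
  | zero => simpa using Nice.one
  | succ n ih => rw [pow_succ]; exact ih.mul hF

theorem Nice.sum {ι : Type*} (s : Finset ι) {F : ι → ℍ → ℂ} (h : ∀ i ∈ s, Nice (F i)) :
    Nice (∑ i ∈ s, F i) := by
  classical
  induction s using Finset.induction_on with
  | empty => simpa using Nice.zero
  | insert i s hi ih =>
    rw [Finset.sum_insert hi]
    exact (h i (Finset.mem_insert_self i s)).add
      (ih fun j hj => h j (Finset.mem_insert_of_mem hj))

theorem qExp_add (hF : Nice F) (hG : Nice G) :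
    qExpansion 1 (F + G) = qExpansion 1 F + qExpansion 1 G := qExpansion_add hF hG

theorem qExp_mul (hF : Nice F) (hG : Nice G) :
    qExpansion 1 (F * G) = qExpansion 1 F * qExpansion 1 G := qExpansion_mul hF hG

theorem qExp_smul (x : ℂ) (hF : Nice F) :
    qExpansion 1 (x • F) = x • qExpansion 1 F := qExpansion_smul hF x

theorem qExp_neg (hF : Nice F) : qExpansion 1 (-F) = -qExpansion 1 F := qExpansion_neg hF

theorem qExp_sub (hF : Nice F) (hG : Nice G) :
    qExpansion 1 (F - G) = qExpansion 1 F - qExpansion 1 G := qExpansion_sub hF hG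

theorem qExp_zero : qExpansion 1 (0 : ℍ → ℂ) = 0 := qExpansion_zero 1

theorem qExp_one : qExpansion 1 (1 : ℍ → ℂ) = 1 := qExpansion_one 1

theorem qExp_pow (hF : Nice F) (n : ℕ) : qExpansion 1 (F ^ n) = qExpansion 1 F ^ n := by
  induction n with
  | zero => simpa using qExp_one
  | succ n ih => rw [pow_succ, qExp_mul (hF.pow n) hF, ih, pow_succ]

theorem qExp_sum {ι : Type*} (s : Finset ι) {F : ι → ℍ → ℂ} (h : ∀ i ∈ s, Nice (F i)) :
    qExpansion 1 (∑ i ∈ s, F i) = ∑ i ∈ s, qExpansion 1 (F i) := by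
  classical
  induction s using Finset.induction_on with
  | empty => simpa using qExp_zero
  | insert i s hi ih =>
    rw [Finset.sum_insert hi, Finset.sum_insert hi,
      qExp_add (h i (Finset.mem_insert_self i s))
        (Nice.sum s fun j hj => h j (Finset.mem_insert_of_mem hj)),
      ih fun j hj => h j (Finset.mem_insert_of_mem hj)]

theorem IsMF.eq_zero_of_qExpansion_eq_zero {N : ℕ} (hF : IsMF (G0 N) k F)
    (h : qExpansion 1 F = 0) : F = 0 := by
  obtain ⟨F', rfl⟩ := hF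
  have := (ModularForm.qExpansion_eq_zero_iff one_pos (one_mem_strictPeriods_G0 N) F').1 h
  rw [this]
  rfl

theorem IsMF.qExpansion_ne_zero {N : ℕ} (hF : IsMF (G0 N) k F) (h : ∃ τ, F τ ≠ 0) :
    qExpansion 1 F ≠ 0 := by
  intro h0
  obtain ⟨τ, hτ⟩ := h
  exact hτ (by rw [hF.eq_zero_of_qExpansion_eq_zero h0]; rfl)

/-! ### `IsConj` -/

variable {σ : ℂ ≃+* ℂ} {F' G' : ℍ → ℂ}

theorem IsConj.add (hF : Nice F) (hG : Nice G) (hF' : Nice F') (hG' : Nice G')
    (h1 : IsConj σ F F') (h2 : IsConj σ G G') : IsConj σ (F + G) (F' + G') := by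
  unfold IsConj at *
  rw [qExp_add hF hG, qExp_add hF' hG', map_add, h1, h2]

theorem IsConj.mul (hF : Nice F) (hG : Nice G) (hF' : Nice F') (hG' : Nice G')
    (h1 : IsConj σ F F') (h2 : IsConj σ G G') : IsConj σ (F * G) (F' * G') := by
  unfold IsConj at *
  rw [qExp_mul hF hG, qExp_mul hF' hG', map_mul, h1, h2]

theorem IsConj.pow (hF : Nice F) (hF' : Nice F') (h1 : IsConj σ F F') (n : ℕ) :
    IsConj σ (F ^ n) (F' ^ n) := by
  unfold IsConj at *
  rw [qExp_pow hF, qExp_pow hF', map_pow, h1]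

theorem IsConj.zero : IsConj σ (0 : ℍ → ℂ) 0 := by
  unfold IsConj
  rw [qExp_zero, map_zero]

theorem IsConj.sum {ι : Type*} (s : Finset ι) {F F' : ι → ℍ → ℂ}
    (hF : ∀ i ∈ s, Nice (F i)) (hF' : ∀ i ∈ s, Nice (F' i))
    (h : ∀ i ∈ s, IsConj σ (F i) (F' i)) : IsConj σ (∑ i ∈ s, F i) (∑ i ∈ s, F' i) := by
  unfold IsConj at *
  rw [qExp_sum s hF, qExp_sum s hF', map_sum]
  exact Finset.sum_congr rfl fun i hi => h i hi

theorem IsConj.smul (x : ℂ) (hF : Nice F) (hF' : Nice F') (h1 : IsConj σ F F') :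
    IsConj σ (x • F) (σ x • F') := by
  unfold IsConj at *
  rw [qExp_smul x hF, qExp_smul (σ x) hF', h1]
  ext n
  simp

/-- A function with rational `q`-expansion coefficients is its own conjugate. -/
theorem IsConj.of_rational (h : ∀ n, ∃ r : ℚ, (qExpansion 1 F).coeff n = (r : ℂ)) :
    IsConj σ F F := by
  unfold IsConj
  ext n
  obtain ⟨r, hr⟩ := h n
  simp [hr]

theorem IsConj.coeff (h : IsConj σ F F') (n : ℕ) :
    (qExpansion 1 F').coeff n = σ ((qExpansion 1 F).coeff n) := by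
  unfold IsConj at h
  rw [h]
  simp

end Fermat.Agent.S23
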