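import Mathlib.NumberTheory.ModularForms.QExpansion
import Mathlib.NumberTheory.ModularForms.NormTrace
import Mathlib.NumberTheory.ModularForms.CongruenceSubgroups
import Mathlib.NumberTheory.ModularForms.LevelOne.Basic
import Mathlib.RingTheory.PowerSeries.Basic

set_option autoImplicit false

open UpperHalfPlane ModularForm
open scoped MatrixGroups ModularForm Manifold

namespace Fermat.Agent.S23

/-- The image of `Γ₀(N)` in `GL(2, ℝ)`: the level group of
`CuspForm (CongruenceSubgroup.Gamma0 N) k`. -/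
abbrev G0 (N : ℕ) : Subgroup (GL (Fin 2) ℝ) :=
  Subgroup.map (Matrix.SpecialLinearGroup.mapGL ℝ) (CongruenceSubgroup.Gamma0 N)

/-- `g` is the underlying function of a modular form of weight `k` and level `Γ`. -/
def IsMF (Γ : Subgroup (GL (Fin 2) ℝ)) (k : ℤ) (g : ℍ → ℂ) : Prop :=
  ∃ F : ModularForm Γ k, (F : ℍ → ℂ) = g

/-- `g` is the underlying function of a cusp form of weight `k` and level `Γ`. -/
def IsCF (Γ : Subgroup (GL (Fin 2) ℝ)) (k : ℤ) (g : ℍ → ℂ) : Prop :=
  ∃ F : CuspForm Γ k, (F : ℍ → ℂ) = g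

/-- Coefficientwise action of a ring endomorphism of `ℂ` on `q`-expansions. -/
noncomputable abbrev conjPS (σ : ℂ →+* ℂ) (p : PowerSeries ℂ) : PowerSeries ℂ :=
  PowerSeries.map σ p

/-- `F'` has the `q`-expansion of `F` with `σ` applied to every coefficient. -/
def IsConj (σ : ℂ ≃+* ℂ) (F F' : ℍ → ℂ) : Prop :=
  qExpansion 1 F' = (qExpansion 1 F).map (σ : ℂ →+* ℂ)

end Fermat.Agent.S23
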