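import Mathlib.Analysis.Complex.RemovableSingularity
import Mathlib.Analysis.Complex.UpperHalfPlane.Manifold
import Fermat.Agent.S23.Defs

set_option autoImplicit false

open UpperHalfPlane ModularForm
open scoped MatrixGroups ModularForm Manifold

namespace Fermat.Agent.S23

namespace Analytic

/-- Root bound: a root of a monic polynomial is bounded by `max 1 (Σ |coefficients|)`. -/
theorem norm_le_of_monic_root {μ : ℕ} (a : ℕ → ℂ) (x : ℂ) (ha0 : a 0 = 1)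
    (h : ∑ j ∈ Finset.range (μ + 1), a j * x ^ (μ - j) = 0) :
    ‖x‖ ≤ max 1 (∑ j ∈ Finset.range μ, ‖a (j + 1)‖) := by
  rcases le_or_gt ‖x‖ 1 with hx | hx
  · exact le_max_of_le_left hx
  · refine le_max_of_le_right ?_
    rw [Finset.sum_range_succ', ha0, one_mul, Nat.sub_zero] at h
    have hxμ : x ^ μ = -∑ j ∈ Finset.range μ, a (j + 1) * x ^ (μ - (j + 1)) := by
      rw [eq_neg_iff_add_eq_zero, add_comm]; exact h
    have hμ : μ ≠ 0 := by
      rintro rfl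
      simp at hxμ
    obtain ⟨ν, rfl⟩ := Nat.exists_eq_succ_of_ne_zero hμ
    have hpos : 0 < ‖x‖ ^ ν := pow_pos (lt_trans one_pos hx) ν
    have h1 : ‖x‖ ^ (ν + 1) ≤ (∑ j ∈ Finset.range (ν + 1), ‖a (j + 1)‖) * ‖x‖ ^ ν := by
      calc ‖x‖ ^ (ν + 1) = ‖x ^ (ν + 1)‖ := (norm_pow _ _).symm
        _ = ‖∑ j ∈ Finset.range (ν + 1), a (j + 1) * x ^ (ν + 1 - (j + 1))‖ := by
            rw [hxμ, norm_neg]
        _ ≤ ∑ j ∈ Finset.range (ν + 1), ‖a (j + 1) * x ^ (ν + 1 - (j + 1))‖ := norm_sum_le _ _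
        _ ≤ ∑ j ∈ Finset.range (ν + 1), ‖a (j + 1)‖ * ‖x‖ ^ ν := by
            refine Finset.sum_le_sum fun j _ => ?_
            rw [norm_mul, norm_pow]
            refine mul_le_mul_of_nonneg_left ?_ (norm_nonneg _)
            exact pow_le_pow_right₀ hx.le (by omega)
        _ = (∑ j ∈ Finset.range (ν + 1), ‖a (j + 1)‖) * ‖x‖ ^ ν := by rw [Finset.sum_mul]
    rw [pow_succ'] at h1
    exact le_of_mul_le_mul_right (by linarith [h1]) hpos

/-- Root bound, small case: a root of norm `≤ 1` of a monic polynomial of degree `μ` satisfies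
`|x|^μ ≤ Σ |coefficients|`. -/
theorem norm_pow_le_of_monic_root {μ : ℕ} (a : ℕ → ℂ) (x : ℂ) (ha0 : a 0 = 1)
    (h : ∑ j ∈ Finset.range (μ + 1), a j * x ^ (μ - j) = 0) (hx : ‖x‖ ≤ 1) :
    ‖x‖ ^ μ ≤ ∑ j ∈ Finset.range μ, ‖a (j + 1)‖ := by
  rw [Finset.sum_range_succ', ha0, one_mul, Nat.sub_zero] at h
  have hxμ : x ^ μ = -∑ j ∈ Finset.range μ, a (j + 1) * x ^ (μ - (j + 1)) := by
    rw [eq_neg_iff_add_eq_zero, add_comm]; exact h
  calc ‖x‖ ^ μ = ‖x ^ μ‖ := (norm_pow _ _).symm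
    _ = ‖∑ j ∈ Finset.range μ, a (j + 1) * x ^ (μ - (j + 1))‖ := by rw [hxμ, norm_neg]
    _ ≤ ∑ j ∈ Finset.range μ, ‖a (j + 1) * x ^ (μ - (j + 1))‖ := norm_sum_le _ _
    _ ≤ ∑ j ∈ Finset.range μ, ‖a (j + 1)‖ := by
        refine Finset.sum_le_sum fun j _ => ?_
        rw [norm_mul, norm_pow]
        exact mul_le_of_le_one_right (norm_nonneg _) (pow_le_one₀ (norm_nonneg _) hx)

open Filter Topology in
/-- The quotient `n / d` of two functions on `ℍ`, as a function on `ℂ`. -/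
noncomputable def ratio (n d : ℍ → ℂ) (z : ℂ) : ℂ := n (ofComplex z) / d (ofComplex z)

open Filter Topology in
/-- The quotient `n / d` extended through removable singularities, as a function on `ℂ`. -/
noncomputable def extRatio (n d : ℍ → ℂ) (z : ℂ) : ℂ := limUnder (𝓝[≠] z) (ratio n d)

/-- The quotient `n / d` extended through removable singularities, as a function on `ℍ`. -/
noncomputable def quot (n d : ℍ → ℂ) (τ : ℍ) : ℂ := extRatio n d (τ : ℂ)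

open Filter Topology in
theorem extRatio_eq {n d : ℍ → ℂ} (hn : MDiff n) (hd : MDiff d) (τ : ℍ) (hτ : d τ ≠ 0) :
    extRatio n d (τ : ℂ) = n τ / d τ := by
  have hn' : ContinuousAt (n ∘ ofComplex) (τ : ℂ) :=
    (mdifferentiableAt_iff.mp (hn τ)).continuousAt
  have hd' : ContinuousAt (d ∘ ofComplex) (τ : ℂ) :=
    (mdifferentiableAt_iff.mp (hd τ)).continuousAt
  have hd0 : (d ∘ ofComplex) (τ : ℂ) ≠ 0 := by simpa [ofComplex_apply] using hτ
  have hc : ContinuousAt (ratio n d) (τ : ℂ) := hn'.div hd' hd0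
  have hlim : Tendsto (ratio n d) (𝓝[≠] (τ : ℂ)) (𝓝 (ratio n d (τ : ℂ))) :=
    hc.tendsto.mono_left nhdsWithin_le_nhds
  rw [extRatio, hlim.limUnder_eq, ratio, ofComplex_apply]

theorem quot_eq {n d : ℍ → ℂ} (hn : MDiff n) (hd : MDiff d) (τ : ℍ) (hτ : d τ ≠ 0) :
    quot n d τ = n τ / d τ := extRatio_eq hn hd τ hτ

open Filter Topology in
theorem differentiableAt_extRatio {n d : ℍ → ℂ} (hn : MDiff n) (hd : MDiff d) (hd0 : d ≠ 0)
    (B : ℍ → ℝ) (hB : Continuous B) (hbound : ∀ τ, d τ ≠ 0 → ‖n τ / d τ‖ ≤ B τ) (τ : ℍ) :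
    DifferentiableAt ℂ (extRatio n d) (τ : ℂ) := by
  set s : Set ℂ := {z | 0 < z.im ∧ (z ≠ (τ : ℂ) → d (ofComplex z) ≠ 0) ∧
    B (ofComplex z) < B τ + 1} with hs
  have h1 : ∀ᶠ z in 𝓝 (τ : ℂ), 0 < z.im := isOpen_upperHalfPlaneSet.mem_nhds τ.2
  have h2 : ∀ᶠ z in 𝓝 (τ : ℂ), z ≠ (τ : ℂ) → d (ofComplex z) ≠ 0 := by
    have h := mt (eq_zero_of_frequently (τ := τ) hd) hd0
    rw [not_frequently, eventually_nhdsWithin_iff] at h
    rw [← isOpenEmbedding_coe.map_nhds_eq, eventually_map]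
    filter_upwards [h] with w hw hne
    rw [ofComplex_apply]
    exact hw (fun h' => hne (by rw [Set.mem_singleton_iff.mp h']))
  have h3 : ∀ᶠ z in 𝓝 (τ : ℂ), B (ofComplex z) < B τ + 1 := by
    rw [← isOpenEmbedding_coe.map_nhds_eq, eventually_map]
    filter_upwards [(hB.tendsto τ).eventually (gt_mem_nhds (lt_add_one (B τ)))] with w hw
    rwa [ofComplex_apply]
  have hsmem : s ∈ 𝓝 (τ : ℂ) := by
    filter_upwards [h1, h2, h3] with z hz1 hz2 hz3 using ⟨hz1, hz2, hz3⟩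
  have hdiff : DifferentiableOn ℂ (ratio n d) (s \ {(τ : ℂ)}) := by
    rintro z ⟨⟨hz1, hz2, -⟩, hzτ⟩
    have hzτ' : z ≠ (τ : ℂ) := hzτ
    have hnz : DifferentiableAt ℂ (n ∘ ofComplex) z := by
      simpa using mdifferentiableAt_iff.mp (hn ⟨z, hz1⟩)
    have hdz : DifferentiableAt ℂ (d ∘ ofComplex) z := by
      simpa using mdifferentiableAt_iff.mp (hd ⟨z, hz1⟩)
    exact (hnz.div hdz (hz2 hzτ')).differentiableWithinAt
  have hbdd : BddAbove (norm ∘ ratio n d '' (s \ {(τ : ℂ)})) := by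
    refine ⟨B τ + 1, ?_⟩
    rintro _ ⟨z, ⟨⟨-, hz2, hz3⟩, hzτ⟩, rfl⟩
    have hzτ' : z ≠ (τ : ℂ) := hzτ
    exact ((hbound _ (hz2 hzτ')).trans_lt hz3).le
  have hupd := Complex.differentiableOn_update_limUnder_of_bddAbove hsmem hdiff hbdd
  have hat := hupd.differentiableAt hsmem
  refine hat.congr_of_eventuallyEq ?_
  filter_upwards [hsmem] with z hz
  obtain ⟨hz1, hz2, -⟩ := hz
  by_cases hzτ : z = (τ : ℂ)
  · subst hzτ
    simp [extRatio]
  · rw [Function.update_of_ne hzτ]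
    have := extRatio_eq hn hd ⟨z, hz1⟩ (by simpa [ofComplex_apply_of_im_pos hz1] using hz2 hzτ)
    simpa [ratio, ofComplex_apply_of_im_pos hz1] using this

theorem mdiff_quot {n d : ℍ → ℂ} (hn : MDiff n) (hd : MDiff d) (hd0 : d ≠ 0)
    (B : ℍ → ℝ) (hB : Continuous B) (hbound : ∀ τ, d τ ≠ 0 → ‖n τ / d τ‖ ≤ B τ) :
    MDiff (quot n d) := by
  rw [mdifferentiable_iff]
  intro z hz
  have h := differentiableAt_extRatio hn hd hd0 B hB hbound ⟨z, hz⟩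
  refine (h.differentiableWithinAt).congr_of_eventuallyEq ?_ ?_
  · filter_upwards [self_mem_nhdsWithin] with w hw
    simp [quot, ofComplex_apply_of_im_pos hw]
  · simp [quot, ofComplex_apply_of_im_pos hz]

theorem quot_mul {n d : ℍ → ℂ} (hn : MDiff n) (hd : MDiff d) (hd0 : d ≠ 0)
    (hG : MDiff (quot n d)) : quot n d * d = n := by
  have h : (quot n d * d - n) * d = 0 := by
    ext τ
    by_cases hτ : d τ = 0
    · simp [hτ]
    · simp only [Pi.mul_apply, Pi.sub_apply, Pi.zero_apply]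
      rw [quot_eq hn hd τ hτ, div_mul_cancel₀ _ hτ, sub_self, zero_mul]
  rcases (UpperHalfPlane.mul_eq_zero_iff ((hG.mul hd).sub hn) hd).mp h with h | h
  · exact sub_eq_zero.mp h
  · exact absurd h hd0

/-- Pointwise monic relation for the quotient `x = 𝒩 τ / 𝒟 τ`. -/
theorem relation_div {μ : ℕ} {𝒩 𝒟 : ℍ → ℂ} (c : ℕ → ℍ → ℂ)
    (hrel : ∑ j ∈ Finset.range (μ + 1), c j * 𝒩 ^ (μ - j) * 𝒟 ^ j = 0) (τ : ℍ) (hτ : 𝒟 τ ≠ 0) :
    ∑ j ∈ Finset.range (μ + 1), c j τ * (𝒩 τ / 𝒟 τ) ^ (μ - j) = 0 := by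
  have h := congrFun hrel τ
  simp only [Finset.sum_apply, Pi.mul_apply, Pi.pow_apply, Pi.zero_apply] at h
  have hμ : 𝒟 τ ^ μ ≠ 0 := pow_ne_zero _ hτ
  have : ∑ j ∈ Finset.range (μ + 1), c j τ * (𝒩 τ / 𝒟 τ) ^ (μ - j) =
      (∑ j ∈ Finset.range (μ + 1), c j τ * 𝒩 τ ^ (μ - j) * 𝒟 τ ^ j) / 𝒟 τ ^ μ := by
    rw [Finset.sum_div]
    refine Finset.sum_congr rfl fun j hj => ?_
    have hj' : j ≤ μ := Nat.lt_succ_iff.mp (Finset.mem_range.mp hj)
    have hsplit : 𝒟 τ ^ μ = 𝒟 τ ^ (μ - j) * 𝒟 τ ^ j := by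
      rw [← pow_add, Nat.sub_add_cancel hj']
    rw [hsplit, div_pow]
    field_simp
  rw [this, h, zero_div]

/-- The monic relation for the extended quotient `G`, everywhere on `ℍ`. -/
theorem relation_quot {μ : ℕ} {G 𝒩 𝒟 : ℍ → ℂ} (c : ℕ → ℍ → ℂ) (hcmd : ∀ j, MDiff (c j))
    (hG : MDiff G) (h𝒟 : MDiff 𝒟) (h𝒟0 : 𝒟 ≠ 0) (hGD : G * 𝒟 = 𝒩)
    (hrel : ∑ j ∈ Finset.range (μ + 1), c j * 𝒩 ^ (μ - j) * 𝒟 ^ j = 0) (τ : ℍ) :
    ∑ j ∈ Finset.range (μ + 1), c j τ * G τ ^ (μ - j) = 0 := by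
  have hR : MDiff (∑ j ∈ Finset.range (μ + 1), c j * G ^ (μ - j)) := by
    have : ∀ s : Finset ℕ, MDiff (∑ j ∈ s, c j * G ^ (μ - j)) := by
      intro s
      induction s using Finset.induction_on with
      | empty =>
        rw [Finset.sum_empty]
        exact (mdifferentiable_const : MDiff fun _ : ℍ => (0 : ℂ))
      | insert a s ha ih =>
        rw [Finset.sum_insert ha]
        exact ((hcmd a).mul (hG.pow _)).add ih
    exact this _
  have hmul : (∑ j ∈ Finset.range (μ + 1), c j * G ^ (μ - j)) * 𝒟 ^ μ = 0 := by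
    rw [← hrel, ← hGD, Finset.sum_mul]
    refine Finset.sum_congr rfl fun j hj => ?_
    have hj' : j ≤ μ := Nat.lt_succ_iff.mp (Finset.mem_range.mp hj)
    have hsplit : 𝒟 ^ μ = 𝒟 ^ (μ - j) * 𝒟 ^ j := by
      rw [← pow_add, Nat.sub_add_cancel hj']
    rw [hsplit, mul_pow]
    ring
  rcases (UpperHalfPlane.mul_eq_zero_iff hR (h𝒟.pow μ)).mp hmul with h | h
  · have := congrFun h τ
    simpa only [Finset.sum_apply, Pi.mul_apply, Pi.pow_apply, Pi.zero_apply] using this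
  · exfalso
    apply h𝒟0
    ext z
    have := congrFun h z
    simp only [Pi.pow_apply, Pi.zero_apply] at this
    exact eq_zero_of_pow_eq_zero this

/-- The monic relation is inherited by every `SL(2, ℤ)`-translate of `G`. -/
theorem relation_slash {μ : ℕ} {k : ℤ} {G : ℍ → ℂ} (c : ℕ → ℍ → ℂ)
    (hc : ∀ j : ℕ, IsMF 𝒮ℒ ((j : ℤ) * k) (c j))
    (hrelG : ∀ τ : ℍ, ∑ j ∈ Finset.range (μ + 1), c j τ * G τ ^ (μ - j) = 0)
    (δ : SL(2, ℤ)) (τ : ℍ) :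
    ∑ j ∈ Finset.range (μ + 1), c j τ * ((G ∣[k] δ) τ) ^ (μ - j) = 0 := by
  set u : ℂ := denom δ τ with hu
  have hu0 : u ≠ 0 := denom_ne_zero _ τ
  have hcj : ∀ j : ℕ, c j τ = c j (δ • τ) * u ^ (-((j : ℤ) * k)) := by
    intro j
    obtain ⟨F, hF⟩ := hc j
    have h1 : (⇑F : ℍ → ℂ) ∣[(j : ℤ) * k] δ = ⇑F :=
      SlashInvariantFormClass.slash_action_eq F _ ⟨δ, rfl⟩
    have h2 := congrFun h1 τ
    rw [ModularForm.SL_slash_apply, hF] at h2
    exact h2.symm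
  have hterm : ∀ j ∈ Finset.range (μ + 1), c j τ * ((G ∣[k] δ) τ) ^ (μ - j) =
      (c j (δ • τ) * G (δ • τ) ^ (μ - j)) * u ^ (-(k * μ)) := by
    intro j hj
    have hj' : j ≤ μ := Nat.lt_succ_iff.mp (Finset.mem_range.mp hj)
    rw [hcj j, ModularForm.SL_slash_apply, mul_pow, ← hu, ← zpow_natCast (u ^ (-k)), ← zpow_mul]
    have hexp : u ^ (-(k * (μ : ℤ))) = u ^ (-((j : ℤ) * k)) * u ^ (-k * ((μ - j : ℕ) : ℤ)) := by
      rw [← zpow_add₀ hu0]
      congr 1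
      push_cast [Nat.cast_sub hj']
      ring
    rw [hexp]
    ring
  rw [Finset.sum_congr rfl hterm, ← Finset.sum_mul, hrelG (δ • τ), zero_mul]

open Filter Topology Asymptotics in
/-- A function satisfying pointwise a monic relation whose coefficients are bounded at `i∞` is
bounded at `i∞`. -/
theorem isBoundedAtImInfty_of_relation {μ : ℕ} (a : ℕ → ℍ → ℂ) (x : ℍ → ℂ) (ha0 : a 0 = 1)
    (ha : ∀ j, IsBoundedAtImInfty (a j))
    (h : ∀ τ, ∑ j ∈ Finset.range (μ + 1), a j τ * x τ ^ (μ - j) = 0) :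
    IsBoundedAtImInfty x := by
  have hS : (fun z : ℍ => ∑ j ∈ Finset.range μ, ‖a (j + 1) z‖) =O[atImInfty] (1 : ℍ → ℝ) := by
    exact IsBigO.fun_sum (s := Finset.range μ) (l := atImInfty) (g := (1 : ℍ → ℝ))
      (A := fun j z => ‖a (j + 1) z‖) fun j _ => (ha (j + 1)).norm_left
  have h1 : (fun z : ℍ => (1 : ℝ) + ∑ j ∈ Finset.range μ, ‖a (j + 1) z‖) =O[atImInfty]
      (1 : ℍ → ℝ) := (isBigO_refl (1 : ℍ → ℝ) atImInfty).add hS
  refine IsBigO.trans (isBigO_of_le _ fun z => ?_) h1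
  have hS0 : 0 ≤ ∑ j ∈ Finset.range μ, ‖a (j + 1) z‖ :=
    Finset.sum_nonneg fun _ _ => norm_nonneg _
  have hx := norm_le_of_monic_root (fun j => a j z) (x z) (by simp [ha0]) (h z)
  rw [Real.norm_of_nonneg (by positivity)]
  exact hx.trans (max_le (by linarith) (by linarith))

open Filter Topology in
/-- A function satisfying pointwise a monic relation whose non-leading coefficients vanish at
`i∞` vanishes at `i∞`. -/
theorem isZeroAtImInfty_of_relation {μ : ℕ} (a : ℕ → ℍ → ℂ) (x : ℍ → ℂ) (ha0 : a 0 = 1)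
    (ha : ∀ j, 1 ≤ j → IsZeroAtImInfty (a j))
    (h : ∀ τ, ∑ j ∈ Finset.range (μ + 1), a j τ * x τ ^ (μ - j) = 0) :
    IsZeroAtImInfty x := by
  have hμ : μ ≠ 0 := by
    rintro rfl
    have := h UpperHalfPlane.I
    simp [ha0] at this
  have hS : Tendsto (fun z : ℍ => ∑ j ∈ Finset.range μ, ‖a (j + 1) z‖) atImInfty (𝓝 0) := by
    have : Tendsto (fun z : ℍ => ∑ j ∈ Finset.range μ, ‖a (j + 1) z‖) atImInfty
        (𝓝 (∑ _j ∈ Finset.range μ, (0 : ℝ))) :=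
      tendsto_finsetSum _ fun j _ => by
        simpa using (ha (j + 1) (Nat.le_add_left 1 j)).norm
    simpa using this
  rw [isZeroAtImInfty_iff]
  intro ε hε
  have hη : 0 < min 1 (ε ^ μ) := lt_min one_pos (pow_pos hε μ)
  have hev : ∀ᶠ z in atImInfty, ∑ j ∈ Finset.range μ, ‖a (j + 1) z‖ < min 1 (ε ^ μ) :=
    hS.eventually (gt_mem_nhds hη)
  obtain ⟨A, hA⟩ := (atImInfty_mem _).mp hev
  refine ⟨A, fun z hz => ?_⟩
  have hSz : ∑ j ∈ Finset.range μ, ‖a (j + 1) z‖ < min 1 (ε ^ μ) := hA z hz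
  have hx1 : ‖x z‖ ≤ 1 := by
    have := norm_le_of_monic_root (fun j => a j z) (x z) (by simp [ha0]) (h z)
    exact this.trans (max_le le_rfl (hSz.trans_le (min_le_left _ _)).le)
  have hxμ := norm_pow_le_of_monic_root (fun j => a j z) (x z) (by simp [ha0]) (h z) hx1
  have : ‖x z‖ ^ μ < ε ^ μ := hxμ.trans_lt (hSz.trans_le (min_le_right _ _))
  exact (lt_of_pow_lt_pow_left₀ μ hε.le this).le

end Analytic

open Analytic in
/-- **Analytic lemma** (T23 task AN): a quotient of modular forms which is integral over the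
ring of level-one forms is a modular form, and a cusp form if the coefficients of the integrality
relation vanish at `i∞`. -/
theorem exists_div_of_integral {Γ : Subgroup (GL (Fin 2) ℝ)} [Γ.IsArithmetic] [Γ.HasDetOne]
    {k w : ℤ} {μ : ℕ} {𝒩 𝒟 : ℍ → ℂ} (h𝒩 : IsMF Γ (k + w) 𝒩) (h𝒟 : IsMF Γ w 𝒟) (h𝒟0 : 𝒟 ≠ 0)
    (c : ℕ → ℍ → ℂ) (hc0 : c 0 = 1) (hc : ∀ j : ℕ, IsMF 𝒮ℒ ((j : ℤ) * k) (c j))
    (hrel : ∑ j ∈ Finset.range (μ + 1), c j * 𝒩 ^ (μ - j) * 𝒟 ^ j = 0) :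
    ∃ G, IsMF Γ k G ∧ G * 𝒟 = 𝒩 ∧ ((∀ j, 1 ≤ j → IsZeroAtImInfty (c j)) → IsCF Γ k G) := by
  obtain ⟨F𝒩, hF𝒩⟩ := h𝒩
  obtain ⟨F𝒟, hF𝒟⟩ := h𝒟
  have h𝒩md : MDiff 𝒩 := hF𝒩 ▸ F𝒩.holo'
  have h𝒟md : MDiff 𝒟 := hF𝒟 ▸ F𝒟.holo'
  have hcmd : ∀ j, MDiff (c j) := fun j => by
    obtain ⟨F, hF⟩ := hc j
    exact hF ▸ F.holo'
  have hcbdd : ∀ j, IsBoundedAtImInfty (c j) := fun j => by
    obtain ⟨F, hF⟩ := hc j
    exact hF ▸ ModularFormClass.bdd_at_infty F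
  -- the local bound
  let B : ℍ → ℝ := fun τ => max 1 (∑ j ∈ Finset.range μ, ‖c (j + 1) τ‖)
  have hB : Continuous B := by
    refine continuous_const.max (continuous_finsetSum _ fun j _ => ?_)
    exact (hcmd (j + 1)).continuous.norm
  have hbound : ∀ τ, 𝒟 τ ≠ 0 → ‖𝒩 τ / 𝒟 τ‖ ≤ B τ := fun τ hτ =>
    norm_le_of_monic_root (fun j => c j τ) _ (by simp [hc0]) (relation_div c hrel τ hτ)
  -- the quotient
  set G : ℍ → ℂ := quot 𝒩 𝒟 with hGdef
  have hG : MDiff G := mdiff_quot h𝒩md h𝒟md h𝒟0 B hB hbound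
  have hGD : G * 𝒟 = 𝒩 := quot_mul h𝒩md h𝒟md h𝒟0 hG
  have hrelG := relation_quot c hcmd hG h𝒟md h𝒟0 hGD hrel
  -- slash invariance
  have hinv : ∀ γ ∈ Γ, G ∣[k] γ = G := by
    intro γ hγ
    have hdet : |(γ.det : ℝ)| = 1 := by
      rw [Subgroup.HasDetOne.det_eq hγ]; simp
    have h1 : (G * 𝒟) ∣[k + w] γ = G ∣[k] γ * 𝒟 ∣[w] γ := by
      rw [ModularForm.mul_slash, hdet, one_smul]
    have h2 : 𝒟 ∣[w] γ = 𝒟 := hF𝒟 ▸ SlashInvariantFormClass.slash_action_eq F𝒟 γ hγ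
    have h3 : 𝒩 ∣[k + w] γ = 𝒩 := hF𝒩 ▸ SlashInvariantFormClass.slash_action_eq F𝒩 γ hγ
    rw [hGD, h3, h2] at h1
    have h4 : (G ∣[k] γ - G) * 𝒟 = 0 := by
      rw [sub_mul, ← h1, hGD, sub_self]
    rcases (UpperHalfPlane.mul_eq_zero_iff ((hG.slash k γ).sub hG) h𝒟md).mp h4 with h | h
    · exact sub_eq_zero.mp h
    · exact absurd h h𝒟0
  -- cusps
  have hbdd : ∀ δ : SL(2, ℤ), IsBoundedAtImInfty (G ∣[k] δ) := fun δ =>
    isBoundedAtImInfty_of_relation c _ hc0 hcbdd (relation_slash c hc hrelG δ)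
  refine ⟨G, ⟨{ toFun := G
                slash_action_eq' := hinv
                holo' := hG
                bdd_at_cusps' := fun {cusp} hcusp => ?_ }, rfl⟩, hGD, fun hzero => ?_⟩
  · have hc' := (Subgroup.IsArithmetic.isCusp_iff_isCusp_SL2Z Γ).mp hcusp
    rw [OnePoint.isBoundedAt_iff_forall_SL2Z hc']
    exact fun δ _ => hbdd δ
  · have hz : ∀ δ : SL(2, ℤ), IsZeroAtImInfty (G ∣[k] δ) := fun δ =>
      isZeroAtImInfty_of_relation c _ hc0 hzero (relation_slash c hc hrelG δ)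
    refine ⟨{ toFun := G
              slash_action_eq' := hinv
              holo' := hG
              zero_at_cusps' := fun {cusp} hcusp => ?_ }, rfl⟩
    have hc' := (Subgroup.IsArithmetic.isCusp_iff_isCusp_SL2Z Γ).mp hcusp
    rw [OnePoint.isZeroAt_iff_forall_SL2Z hc']
    exact fun δ _ => hz δ

end Fermat.Agent.S23
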