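import Mathlib.NumberTheory.ModularForms.CuspFormSubmodule
import Fermat.Agent.S23.Unbundled

set_option autoImplicit false

open UpperHalfPlane ModularForm
open scoped MatrixGroups ModularForm Manifold

namespace Fermat.Agent.S23

/-! ### Two small facts about the constant coefficient -/

theorem coeff_zero_of_isZeroAtImInfty {c : ℍ → ℂ} (hc : IsZeroAtImInfty c) :
    (qExpansion 1 c).coeff 0 = 0 := by
  simp [qExpansion_coeff, hc.cuspFunction_apply_zero one_pos]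

theorem isZeroAtImInfty_of_coeff_zero_levelOne {k : ℤ} {c : ℍ → ℂ} (hc : IsMF 𝒮ℒ k c)
    (h0 : (qExpansion 1 c).coeff 0 = 0) : IsZeroAtImInfty c := by
  obtain ⟨c', rfl⟩ := hc
  have h := ModularForm.isZeroAt_of_coeffZero_eq_zero c' h0
    (c := OnePoint.infty) (Subgroup.isCusp_of_mem_strictPeriods one_pos one_mem_strictPeriods_SL)
  exact OnePoint.isZeroAt_infty_iff.mp h

theorem map_injective (σ : ℂ →+* ℂ) : Function.Injective (PowerSeries.map σ) := by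
  intro p q h
  ext n
  have := congrArg (PowerSeries.coeff n) h
  simpa using σ.injective this

theorem map_eq_self_of_rational (σ : ℂ →+* ℂ) {p : PowerSeries ℂ}
    (h : ∀ n, ∃ r : ℚ, p.coeff n = (r : ℂ)) : p.map σ = p := by
  ext n
  obtain ⟨r, hr⟩ := h n
  simp [hr]

/-! ### The main assembly: conjugating a cusp form, from the interface statements -/

section Main

variable {N : ℕ} [NeZero N] {k : ℤ} (σ : ℂ →+* ℂ)

/-- Interface L1: level-one forms are stable under `σ`. -/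
def L1Statement (σ : ℂ →+* ℂ) : Prop :=
  ∀ {k : ℤ} {g : ℍ → ℂ}, IsMF 𝒮ℒ k g →
    ∃ g', IsMF 𝒮ℒ k g' ∧ qExpansion 1 g' = (qExpansion 1 g).map σ

/-- Interface AN for the group `G0 N`. -/
def ANStatement (N : ℕ) : Prop :=
  ∀ {k w : ℤ} {μ : ℕ} {𝒩 𝒟 : ℍ → ℂ}, IsMF (G0 N) (k + w) 𝒩 → IsMF (G0 N) w 𝒟 → 𝒟 ≠ 0 →
    ∀ (c : ℕ → ℍ → ℂ), c 0 = 1 → (∀ j : ℕ, IsMF 𝒮ℒ ((j : ℤ) * k) (c j)) →
    (∑ j ∈ Finset.range (μ + 1), c j * 𝒩 ^ (μ - j) * 𝒟 ^ j = 0) →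
    ∃ G, IsMF (G0 N) k G ∧ G * 𝒟 = 𝒩 ∧ ((∀ j, 1 ≤ j → IsZeroAtImInfty (c j)) → IsCF (G0 N) k G)

theorem cuspForm_conj_of (hL1 : L1Statement σ) (hAN : ANStatement N)
    {f : ℍ → ℂ} (hf : IsCF (G0 N) k f)
    -- the form `T`
    {w₀ : ℤ} {T : ℍ → ℂ} (hT : IsMF (G0 N) w₀ T)
    (hTrat : ∀ n, ∃ r : ℚ, PowerSeries.coeff n (qExpansion 1 T) = (r : ℂ))
    -- output of LAG
    {m : ℕ} {b a : ℕ → ℍ → ℂ}
    (hb : ∀ i, i ≤ m → IsMF 𝒮ℒ (((m - i : ℕ) : ℤ) * w₀) (b i))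
    (hb0 : ∑ i ∈ Finset.range (m + 1), b i * T ^ i ≠ 0)
    (ha : ∀ i, i ≤ m → IsMF 𝒮ℒ (k + ((m - i : ℕ) : ℤ) * w₀) (a i))
    (hfa : f * ∑ i ∈ Finset.range (m + 1), b i * T ^ i = ∑ i ∈ Finset.range (m + 1), a i * T ^ i)
    -- output of SYM
    {μ : ℕ} {c : ℕ → ℍ → ℂ} (hc0 : c 0 = 1) (hc : ∀ j : ℕ, IsMF 𝒮ℒ ((j : ℤ) * k) (c j))
    (hrel : ∑ j ∈ Finset.range (μ + 1), c j * f ^ (μ - j) = 0)
    (hcz : ∀ j, 1 ≤ j → IsZeroAtImInfty (c j)) :
    ∃ g : ℍ → ℂ, IsCF (G0 N) k g ∧ qExpansion 1 g = (qExpansion 1 f).map σ := by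
  classical
  have hfMF : IsMF (G0 N) k f := hf.isMF
  -- conjugates of the level-one coefficients
  choose! b' hb'MF hb'q using fun i (hi : i ≤ m) => hL1 (hb i hi)
  choose! a' ha'MF ha'q using fun i (hi : i ≤ m) => hL1 (ha i hi)
  choose c₁ hc₁MF hc₁q using fun j => hL1 (hc j)
  set c' : ℕ → ℍ → ℂ := fun j => if j = 0 then 1 else c₁ j with hc'
  have hc'0 : c' 0 = 1 := by simp [hc']
  have hc'MF : ∀ j : ℕ, IsMF 𝒮ℒ ((j : ℤ) * k) (c' j) := by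
    intro j
    by_cases hj : j = 0
    · subst hj
      simp only [hc', if_true]
      simpa using (IsMF.one (Γ := 𝒮ℒ))
    · simp only [hc', if_neg hj]
      exact hc₁MF j
  have hc'q : ∀ j : ℕ, qExpansion 1 (c' j) = (qExpansion 1 (c j)).map σ := by
    intro j
    by_cases hj : j = 0
    · subst hj
      simp only [hc', if_true, hc0]
      rw [qExp_one, map_one]
    · simp only [hc', if_neg hj]
      exact hc₁q j
  -- Nice-ness
  have nT : Nice T := hT.nice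
  have nf : Nice f := hfMF.nice
  have nb : ∀ i ∈ Finset.range (m + 1), Nice (b i * T ^ i) := fun i hi =>
    (hb i (by simpa [Nat.lt_succ_iff] using hi)).nice_levelOne.mul (nT.pow i)
  have nb' : ∀ i ∈ Finset.range (m + 1), Nice (b' i * T ^ i) := fun i hi =>
    (hb'MF i (by simpa [Nat.lt_succ_iff] using hi)).nice_levelOne.mul (nT.pow i)
  have na : ∀ i ∈ Finset.range (m + 1), Nice (a i * T ^ i) := fun i hi =>
    (ha i (by simpa [Nat.lt_succ_iff] using hi)).nice_levelOne.mul (nT.pow i)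
  have na' : ∀ i ∈ Finset.range (m + 1), Nice (a' i * T ^ i) := fun i hi =>
    (ha'MF i (by simpa [Nat.lt_succ_iff] using hi)).nice_levelOne.mul (nT.pow i)
  have hTσ : (qExpansion 1 T).map σ = qExpansion 1 T := map_eq_self_of_rational σ hTrat
  set B : ℍ → ℂ := ∑ i ∈ Finset.range (m + 1), b i * T ^ i with hB
  set A : ℍ → ℂ := ∑ i ∈ Finset.range (m + 1), a i * T ^ i with hA
  set 𝒟 : ℍ → ℂ := ∑ i ∈ Finset.range (m + 1), b' i * T ^ i with h𝒟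
  set 𝒩 : ℍ → ℂ := ∑ i ∈ Finset.range (m + 1), a' i * T ^ i with h𝒩
  -- weights
  have hBMF : IsMF (G0 N) ((m : ℤ) * w₀) B := by
    refine IsMF.sum _ fun i hi => ?_
    have hi' : i ≤ m := by simpa [Nat.lt_succ_iff] using hi
    refine (hb i hi').levelOne_to_G0.mul_cast (hT.pow_cast i rfl) ?_
    rw [Nat.cast_sub hi']; ring
  have h𝒟MF : IsMF (G0 N) ((m : ℤ) * w₀) 𝒟 := by
    refine IsMF.sum _ fun i hi => ?_
    have hi' : i ≤ m := by simpa [Nat.lt_succ_iff] using hi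
    refine (hb'MF i hi').levelOne_to_G0.mul_cast (hT.pow_cast i rfl) ?_
    rw [Nat.cast_sub hi']; ring
  have h𝒩MF : IsMF (G0 N) (k + (m : ℤ) * w₀) 𝒩 := by
    refine IsMF.sum _ fun i hi => ?_
    have hi' : i ≤ m := by simpa [Nat.lt_succ_iff] using hi
    refine (ha'MF i hi').levelOne_to_G0.mul_cast (hT.pow_cast i rfl) ?_
    rw [Nat.cast_sub hi']; ring
  -- q-expansions
  have hq𝒟 : qExpansion 1 𝒟 = (qExpansion 1 B).map σ := by
    rw [h𝒟, hB, qExp_sum _ nb', qExp_sum _ nb, map_sum]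
    refine Finset.sum_congr rfl fun i hi => ?_
    have hi' : i ≤ m := by simpa [Nat.lt_succ_iff] using hi
    rw [qExp_mul (hb'MF i hi').nice_levelOne (nT.pow i), qExp_mul (hb i hi').nice_levelOne
      (nT.pow i), qExp_pow nT, map_mul, map_pow, hTσ, hb'q i hi']
  have hq𝒩 : qExpansion 1 𝒩 = (qExpansion 1 A).map σ := by
    rw [h𝒩, hA, qExp_sum _ na', qExp_sum _ na, map_sum]
    refine Finset.sum_congr rfl fun i hi => ?_
    have hi' : i ≤ m := by simpa [Nat.lt_succ_iff] using hi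
    rw [qExp_mul (ha'MF i hi').nice_levelOne (nT.pow i), qExp_mul (ha i hi').nice_levelOne
      (nT.pow i), qExp_pow nT, map_mul, map_pow, hTσ, ha'q i hi']
  have nB : Nice B := hBMF.nice
  have hqA : qExpansion 1 A = qExpansion 1 f * qExpansion 1 B := by
    rw [← hfa, qExp_mul nf nB]
  have hq𝒩' : qExpansion 1 𝒩 = (qExpansion 1 f).map σ * qExpansion 1 𝒟 := by
    rw [hq𝒩, hqA, map_mul, hq𝒟]
  -- nonvanishing
  have hqB0 : qExpansion 1 B ≠ 0 := fun h0 => hb0 (hBMF.eq_zero_of_qExpansion_eq_zero h0)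
  have hq𝒟0 : qExpansion 1 𝒟 ≠ 0 := by
    rw [hq𝒟]
    intro h0
    exact hqB0 (map_injective σ (by rw [h0, map_zero]))
  have h𝒟0 : 𝒟 ≠ 0 := by
    intro h0
    apply hq𝒟0
    rw [h0, qExp_zero]
  -- the relation
  have n𝒟 : Nice 𝒟 := h𝒟MF.nice
  have n𝒩 : Nice 𝒩 := h𝒩MF.nice
  have nrel : ∀ j ∈ Finset.range (μ + 1), Nice (c' j * 𝒩 ^ (μ - j) * 𝒟 ^ j) := fun j _ =>
    ((hc'MF j).nice_levelOne.mul (n𝒩.pow _)).mul (n𝒟.pow _)
  have nrel₀ : ∀ j ∈ Finset.range (μ + 1), Nice (c j * f ^ (μ - j)) := fun j _ =>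
    (hc j).nice_levelOne.mul (nf.pow _)
  have hrelMF : IsMF (G0 N) ((μ : ℤ) * (k + (m : ℤ) * w₀))
      (∑ j ∈ Finset.range (μ + 1), c' j * 𝒩 ^ (μ - j) * 𝒟 ^ j) := by
    refine IsMF.sum _ fun j hj => ?_
    have hj' : j ≤ μ := by simpa [Nat.lt_succ_iff] using hj
    refine ((hc'MF j).levelOne_to_G0.mul_cast (h𝒩MF.pow_cast (μ - j) rfl) rfl).mul_cast (h𝒟MF.pow_cast j rfl) ?_
    rw [Nat.cast_sub hj']; ring
  have hrelq : qExpansion 1 (∑ j ∈ Finset.range (μ + 1), c' j * 𝒩 ^ (μ - j) * 𝒟 ^ j) = 0 := by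
    have h1 : qExpansion 1 (∑ j ∈ Finset.range (μ + 1), c' j * 𝒩 ^ (μ - j) * 𝒟 ^ j) =
        qExpansion 1 𝒟 ^ μ *
          (qExpansion 1 (∑ j ∈ Finset.range (μ + 1), c j * f ^ (μ - j))).map σ := by
      rw [qExp_sum _ nrel, qExp_sum _ nrel₀, map_sum, Finset.mul_sum]
      refine Finset.sum_congr rfl fun j hj => ?_
      have hj' : j ≤ μ := by simpa [Nat.lt_succ_iff] using hj
      rw [qExp_mul ((hc'MF j).nice_levelOne.mul (n𝒩.pow _)) (n𝒟.pow _),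
        qExp_mul (hc'MF j).nice_levelOne (n𝒩.pow _), qExp_pow n𝒩, qExp_pow n𝒟,
        qExp_mul (hc j).nice_levelOne (nf.pow _), qExp_pow nf, map_mul, map_pow, hc'q j, hq𝒩']
      have hμ : qExpansion 1 𝒟 ^ μ = qExpansion 1 𝒟 ^ (μ - j) * qExpansion 1 𝒟 ^ j := by
        rw [← pow_add, Nat.sub_add_cancel hj']
      rw [hμ, mul_pow]
      ring
    rw [h1, hrel, qExp_zero, map_zero, mul_zero]
  have hrel' : ∑ j ∈ Finset.range (μ + 1), c' j * 𝒩 ^ (μ - j) * 𝒟 ^ j = 0 :=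
    hrelMF.eq_zero_of_qExpansion_eq_zero hrelq
  -- apply AN
  obtain ⟨G, hGMF, hG𝒟, hGCF⟩ := hAN h𝒩MF h𝒟MF h𝒟0 c' hc'0 hc'MF hrel'
  have hc'z : ∀ j, 1 ≤ j → IsZeroAtImInfty (c' j) := by
    intro j hj
    refine isZeroAtImInfty_of_coeff_zero_levelOne (hc'MF j) ?_
    rw [hc'q j]
    simp [coeff_zero_of_isZeroAtImInfty (hcz j hj)]
  refine ⟨G, hGCF hc'z, ?_⟩
  have h2 : qExpansion 1 G * qExpansion 1 𝒟 = (qExpansion 1 f).map σ * qExpansion 1 𝒟 := by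
    rw [← qExp_mul hGMF.nice n𝒟, hG𝒟, hq𝒩']
  exact mul_right_cancel₀ hq𝒟0 h2

end Main

end Fermat.Agent.S23
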