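import Mathlib.RingTheory.Polynomial.Vieta
import Mathlib.Algebra.Polynomial.Div
import Mathlib.Algebra.Polynomial.Derivative

set_option autoImplicit false
set_option linter.unusedSectionVars false

open Polynomial Finset

namespace Fermat.Agent.S23

section LagAlg

variable {R : Type*} [CommRing R] [Nontrivial R] {ι : Type*} [Fintype ι] [DecidableEq ι]

/-- the monic polynomial with roots `x i`. -/
noncomputable def rootPoly (x : ι → R) : R[X] := ∏ i, (X - C (x i))

/-- the cofactor polynomial `∏_{i' ≠ i} (X - x i')`. -/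
noncomputable def cofPoly (x : ι → R) (i : ι) : R[X] := ∏ i' ∈ univ.erase i, (X - C (x i'))

lemma rootPoly_eq_mul_cofPoly (x : ι → R) (i : ι) :
    rootPoly x = (X - C (x i)) * cofPoly x i := by
  rw [rootPoly, cofPoly, Finset.mul_prod_erase univ (fun i => X - C (x i)) (mem_univ i)]

lemma rootPoly_monic (x : ι → R) : (rootPoly x).Monic :=
  monic_prod_of_monic _ _ fun i _ => monic_X_sub_C (x i)

lemma cofPoly_monic (x : ι → R) (i : ι) : (cofPoly x i).Monic :=
  monic_prod_of_monic _ _ fun i _ => monic_X_sub_C (x i)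

lemma natDegree_rootPoly (x : ι → R) : (rootPoly x).natDegree = Fintype.card ι := by
  rw [rootPoly, natDegree_prod_of_monic _ _ fun i _ => monic_X_sub_C (x i)]
  simp

lemma natDegree_cofPoly (x : ι → R) (i : ι) : (cofPoly x i).natDegree = Fintype.card ι - 1 := by
  rw [cofPoly, natDegree_prod_of_monic _ _ fun i _ => monic_X_sub_C (x i)]
  simp [Finset.card_erase_of_mem]

lemma cofPoly_eq_divByMonic (x : ι → R) (i : ι) :
    cofPoly x i = rootPoly x /ₘ (X - C (x i)) := by
  rw [rootPoly_eq_mul_cofPoly x i, mul_divByMonic_cancel_left _ (monic_X_sub_C (x i))]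

lemma coeff_cofPoly (x : ι → R) (i : ι) (a : ℕ) :
    (cofPoly x i).coeff a =
      ∑ l ∈ Icc (a + 1) (Fintype.card ι), (x i) ^ (l - (a + 1)) * (rootPoly x).coeff l := by
  rw [cofPoly_eq_divByMonic, coeff_divByMonic_X_sub_C, natDegree_rootPoly]

lemma eval_cofPoly_of_ne (x : ι → R) {i i₀ : ι} (h : i ≠ i₀) :
    (cofPoly x i).eval (x i₀) = 0 := by
  rw [cofPoly, eval_prod]
  exact Finset.prod_eq_zero (mem_erase.mpr ⟨h.symm, mem_univ _⟩) (by simp)

lemma derivative_rootPoly (x : ι → R) : derivative (rootPoly x) = ∑ i, cofPoly x i := by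
  rw [rootPoly, derivative_prod_finset]
  simp [cofPoly]

lemma eval_derivative_rootPoly (x : ι → R) (i₀ : ι) :
    (derivative (rootPoly x)).eval (x i₀) = (cofPoly x i₀).eval (x i₀) := by
  rw [derivative_rootPoly, eval_finsetSum, Finset.sum_eq_single i₀]
  · intro i _ hi
    exact eval_cofPoly_of_ne x hi
  · intro h
    exact absurd (mem_univ _) h

lemma eval_cofPoly_self (x : ι → R) (i₀ : ι) :
    (cofPoly x i₀).eval (x i₀) = ∏ i ∈ univ.erase i₀, (x i₀ - x i) := by
  simp [cofPoly, eval_prod]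

/-- The Lagrange polynomial (numerator). -/
noncomputable def lagPoly (x y : ι → R) : R[X] := ∑ i, C (y i) * cofPoly x i

lemma eval_lagPoly (x y : ι → R) (i₀ : ι) :
    (lagPoly x y).eval (x i₀) = y i₀ * (derivative (rootPoly x)).eval (x i₀) := by
  rw [lagPoly, eval_finsetSum, Finset.sum_eq_single i₀, eval_derivative_rootPoly]
  · simp
  · intro i _ hi
    simp [eval_cofPoly_of_ne x hi]
  · intro h
    exact absurd (mem_univ _) h

lemma coeff_lagPoly (x y : ι → R) (a : ℕ) :
    (lagPoly x y).coeff a =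
      ∑ l ∈ Icc (a + 1) (Fintype.card ι),
        (rootPoly x).coeff l * ∑ i, y i * (x i) ^ (l - (a + 1)) := by
  rw [lagPoly, finsetSum_coeff]
  simp_rw [coeff_C_mul, coeff_cofPoly, Finset.mul_sum]
  rw [Finset.sum_comm]
  refine Finset.sum_congr rfl fun l _ => Finset.sum_congr rfl fun i _ => ?_
  ring

lemma natDegree_lagPoly_lt (x y : ι → R) (i₀ : ι) :
    (lagPoly x y).natDegree < Fintype.card ι := by
  have hpos : 0 < Fintype.card ι := Fintype.card_pos_iff.mpr ⟨i₀⟩
  refine lt_of_le_of_lt (natDegree_sum_le_of_forall_le _ _ (n := Fintype.card ι - 1) ?_) (by omega)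
  intro i _
  exact (natDegree_C_mul_le _ _).trans (natDegree_cofPoly x i).le

/-- Lagrange interpolation identity. -/
theorem lagrange_identity (x y : ι → R) (i₀ : ι) :
    y i₀ * ∑ a ∈ range (Fintype.card ι),
        (((a + 1 : ℕ) : R) * (rootPoly x).coeff (a + 1)) * (x i₀) ^ a =
      ∑ a ∈ range (Fintype.card ι),
        (∑ l ∈ Icc (a + 1) (Fintype.card ι),
          (rootPoly x).coeff l * ∑ i, y i * (x i) ^ (l - (a + 1))) * (x i₀) ^ a := by
  have hpos : 0 < Fintype.card ι := Fintype.card_pos_iff.mpr ⟨i₀⟩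
  have h1 : (derivative (rootPoly x)).eval (x i₀) = ∑ a ∈ range (Fintype.card ι),
      (((a + 1 : ℕ) : R) * (rootPoly x).coeff (a + 1)) * (x i₀) ^ a := by
    rw [eval_eq_sum_range' (n := Fintype.card ι)]
    · refine Finset.sum_congr rfl fun a _ => ?_
      rw [coeff_derivative]
      push_cast
      ring
    · refine lt_of_le_of_lt (natDegree_derivative_le _) ?_
      rw [natDegree_rootPoly]
      omega
  rw [← h1, ← eval_lagPoly, eval_eq_sum_range' (natDegree_lagPoly_lt x y i₀)]
  simp_rw [coeff_lagPoly]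

theorem prod_erase_eq_sum (x : ι → R) (i₀ : ι) :
    ∏ i ∈ univ.erase i₀, (x i₀ - x i) = ∑ a ∈ range (Fintype.card ι),
      (((a + 1 : ℕ) : R) * (rootPoly x).coeff (a + 1)) * (x i₀) ^ a := by
  have hpos : 0 < Fintype.card ι := Fintype.card_pos_iff.mpr ⟨i₀⟩
  rw [← eval_cofPoly_self, ← eval_derivative_rootPoly, eval_eq_sum_range' (n := Fintype.card ι)]
  · refine Finset.sum_congr rfl fun a _ => ?_
    rw [coeff_derivative]
    push_cast
    ring
  · refine lt_of_le_of_lt (natDegree_derivative_le _) ?_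
    rw [natDegree_rootPoly]
    omega

lemma coeff_rootPoly (x : ι → R) {l : ℕ} (hl : l ≤ Fintype.card ι) :
    (rootPoly x).coeff l = (-1) ^ (Fintype.card ι - l) *
      ∑ S ∈ powersetCard (Fintype.card ι - l) (univ : Finset ι), ∏ i ∈ S, x i := by
  have h := Multiset.prod_X_sub_C_coeff ((univ : Finset ι).val.map x) (k := l) (by simpa using hl)
  rw [Finset.esymm_map_val] at h
  simpa [rootPoly] using h

end LagAlg

end Fermat.Agent.S23
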