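import Fermat.Agent.S23.Symm
import Fermat.Agent.S23.LagAlg

set_option autoImplicit false
set_option linter.unusedSectionVars false

open UpperHalfPlane ModularForm SlashInvariantForm
open scoped MatrixGroups ModularForm Manifold

namespace Fermat.Agent.S23

variable {Γ : Subgroup (GL (Fin 2) ℝ)} [Γ.IsArithmetic] {k w₀ : ℤ}

local notation "𝒬" => 𝒮ℒ ⧸ (Γ.subgroupOf 𝒮ℒ)

noncomputable local instance : Fintype 𝒬 := Fintype.ofFinite 𝒬

noncomputable local instance : DecidableEq 𝒬 := Classical.decEq _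

lemma pow_slash_of_mem {h : GL (Fin 2) ℝ} (hh : h ∈ 𝒮ℒ) (f : ℍ → ℂ) (w : ℤ) (b : ℕ) :
    (f ^ b) ∣[(b : ℤ) * w] h = (f ∣[w] h) ^ b := by
  have := ModularForm.prod_slash (k := w) (g := h) (f := fun _ : ℕ => f) (s := Finset.range b)
  simp only [Finset.prod_const, Finset.card_range] at this
  rw [mul_comm, this, Subgroup.HasDetPlusMinusOne.abs_det hh, one_zpow, one_smul]

lemma mul_slash_of_mem {h : GL (Fin 2) ℝ} (hh : h ∈ 𝒮ℒ) (f g : ℍ → ℂ) (k₁ k₂ : ℤ) :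
    (f * g) ∣[k₁ + k₂] h = (f ∣[k₁] h) * (g ∣[k₂] h) := by
  rw [ModularForm.mul_slash, Subgroup.HasDetPlusMinusOne.abs_det hh, one_smul]

/-- The mixed power trace `∑_q F_q T_q^b`. -/
noncomputable def trFun (F : ModularForm Γ k) (T : ModularForm Γ w₀) (b : ℕ) : ℍ → ℂ :=
  ∑ q : 𝒬, quotientFunc F q * (quotientFunc T q) ^ b

lemma trFun_slash (F : ModularForm Γ k) (T : ModularForm Γ w₀) (b : ℕ) {h : GL (Fin 2) ℝ}
    (hh : h ∈ 𝒮ℒ) : trFun F T b ∣[k + (b : ℤ) * w₀] h = trFun F T b := by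
  unfold trFun
  rw [SlashAction.sum_slash]
  have key : ∀ q : 𝒬, (quotientFunc F q * (quotientFunc T q) ^ b) ∣[k + (b : ℤ) * w₀] h =
      (fun q' => quotientFunc F q' * (quotientFunc T q') ^ b)
        ((MulAction.toPerm (⟨h, hh⟩⁻¹ : 𝒮ℒ) : Equiv.Perm 𝒬) q) := by
    intro q
    rw [mul_slash_of_mem hh, pow_slash_of_mem hh, quotientFunc_smul F hh, quotientFunc_smul T hh]
    rfl
  rw [Finset.sum_congr rfl fun q _ => key q]
  exact Equiv.sum_comp (MulAction.toPerm (⟨h, hh⟩⁻¹ : 𝒮ℒ) : Equiv.Perm 𝒬)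
    (fun q' => quotientFunc F q' * (quotientFunc T q') ^ b)

lemma bdd_quotientFunc (F : ModularForm Γ k) (q : 𝒬) :
    Filter.BoundedAtFilter atImInfty (quotientFunc F q) := by
  have := isBoundedAtImInfty_quotientFunc_slash F q 1
  simpa [IsBoundedAtImInfty] using this

/-- The mixed power trace as a level one modular form. -/
noncomputable def trMF (F : ModularForm Γ k) (T : ModularForm Γ w₀) (b : ℕ) :
    ModularForm 𝒮ℒ (k + (b : ℤ) * w₀) where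
  toFun := trFun F T b
  slash_action_eq' h hh := trFun_slash F T b hh
  holo' := by
    unfold trFun
    exact MDifferentiable.sum fun q _ =>
      (mdiff_quotientFunc F q).mul ((mdiff_quotientFunc T q).pow b)
  bdd_at_cusps' {c} hc := by
    rw [OnePoint.isBoundedAt_iff_forall_SL2Z hc]
    intro γ _
    rw [ModularForm.SL_slash, trFun_slash F T b (⟨γ, rfl⟩ : (γ : GL (Fin 2) ℝ) ∈ 𝒮ℒ)]
    unfold trFun
    refine (Filter.boundedFilterSubalgebra ℂ atImInfty).sum_mem fun q _ => ?_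
    exact (Filter.boundedFilterSubalgebra ℂ atImInfty).mul_mem (bdd_quotientFunc F q)
      ((Filter.boundedFilterSubalgebra ℂ atImInfty).pow_mem (bdd_quotientFunc T q) b)

lemma isMF_trFun (F : ModularForm Γ k) (T : ModularForm Γ w₀) (b : ℕ) :
    IsMF 𝒮ℒ (k + (b : ℤ) * w₀) (trFun F T b) := ⟨trMF F T b, rfl⟩


lemma trFun_apply (F : ModularForm Γ k) (T : ModularForm Γ w₀) (b : ℕ) (z : ℍ) :
    trFun F T b z = ∑ q : 𝒬, quotientFunc F q z * (quotientFunc T q z) ^ b := by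
  simp [trFun, Finset.sum_apply]

/-- The coefficient functions of the characteristic polynomial of `T`. -/
noncomputable def sFun (T : ModularForm Γ w₀) (l : ℕ) : ℍ → ℂ :=
  fun z => (rootPoly fun q : 𝒬 => quotientFunc T q z).coeff l

lemma sFun_eq (T : ModularForm Γ w₀) {l : ℕ} (hl : l ≤ Fintype.card 𝒬) :
    sFun T l = (-1 : ℂ) ^ (Fintype.card 𝒬 - l) • esymmFun T (Fintype.card 𝒬 - l) := by
  funext z
  rw [sFun, coeff_rootPoly _ hl]
  simp [esymmFun, Finset.sum_apply, Finset.prod_apply]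

lemma isMF_sFun (T : ModularForm Γ w₀) {l : ℕ} (hl : l ≤ Fintype.card 𝒬) :
    IsMF 𝒮ℒ (((Fintype.card 𝒬 - l : ℕ) : ℤ) * w₀) (sFun T l) := by
  rw [sFun_eq T hl]
  exact (isMF_esymmFun T _).smul _

lemma quotientFunc_ne_of_ne (T : ModularForm Γ w₀)
    (hdist : ∀ γ ∈ 𝒮ℒ, γ ∉ Γ → (T : ℍ → ℂ) ∣[w₀] γ ≠ T) {q : 𝒬} (hq : q ≠ ((1 : 𝒮ℒ) : 𝒬)) :
    quotientFunc T q ≠ T := by
  induction q using Quotient.inductionOn with
  | h r =>
    rw [quotientFunc_mk]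
    refine hdist _ (inv_mem r.2) fun hmem => hq ?_
    refine (QuotientGroup.eq (s := Γ.subgroupOf 𝒮ℒ)).mpr ?_
    simpa [Subgroup.mem_subgroupOf] using hmem


lemma card_pos : 0 < Fintype.card 𝒬 := Fintype.card_pos_iff.mpr ⟨((1 : 𝒮ℒ) : 𝒬)⟩

/-- `b`-coefficients: the coefficients of the derivative of the characteristic polynomial. -/
noncomputable def bFun (T : ModularForm Γ w₀) (i : ℕ) : ℍ → ℂ :=
  (((i + 1 : ℕ) : ℂ)) • sFun T (i + 1)

/-- `a`-coefficients. -/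
noncomputable def aFun (F : ModularForm Γ k) (T : ModularForm Γ w₀) (i : ℕ) : ℍ → ℂ :=
  ∑ l ∈ Finset.Icc (i + 1) (Fintype.card 𝒬), sFun T l * trFun F T (l - (i + 1))

lemma isMF_bFun (T : ModularForm Γ w₀) {i : ℕ} (hi : i ≤ Fintype.card 𝒬 - 1) :
    IsMF 𝒮ℒ (((Fintype.card 𝒬 - 1 - i : ℕ) : ℤ) * w₀) (bFun T i) := by
  have hpos := card_pos (Γ := Γ)
  have h := (isMF_sFun T (l := i + 1) (by omega)).smul (((i + 1 : ℕ) : ℂ))
  refine h.congr_weight ?_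
  congr 2
  omega

lemma isMF_aFun (F : ModularForm Γ k) (T : ModularForm Γ w₀) {i : ℕ}
    (hi : i ≤ Fintype.card 𝒬 - 1) :
    IsMF 𝒮ℒ (k + ((Fintype.card 𝒬 - 1 - i : ℕ) : ℤ) * w₀) (aFun F T i) := by
  have hpos := card_pos (Γ := Γ)
  unfold aFun
  refine IsMF.sum _ fun l hl => ?_
  obtain ⟨hl1, hl2⟩ := Finset.mem_Icc.mp hl
  refine ((isMF_sFun T hl2).mul (isMF_trFun F T (l - (i + 1)))).congr_weight ?_
  have e1 : ((Fintype.card 𝒬 - l : ℕ) : ℤ) = (Fintype.card 𝒬 : ℤ) - l := by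
    rw [Nat.cast_sub hl2]
  have e2 : ((l - (i + 1) : ℕ) : ℤ) = (l : ℤ) - (i + 1) := by
    rw [Nat.cast_sub hl1]; push_cast; ring
  have e3 : ((Fintype.card 𝒬 - 1 - i : ℕ) : ℤ) = (Fintype.card 𝒬 : ℤ) - 1 - i := by
    rw [Nat.cast_sub hi, Nat.cast_sub hpos]; push_cast; ring
  rw [e1, e2, e3]
  ring

lemma lagrange_fun (F : ModularForm Γ k) (T : ModularForm Γ w₀) :
    (F : ℍ → ℂ) * ∑ i ∈ Finset.range (Fintype.card 𝒬), bFun T i * (T : ℍ → ℂ) ^ i =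
      ∑ i ∈ Finset.range (Fintype.card 𝒬), aFun F T i * (T : ℍ → ℂ) ^ i := by
  funext z
  have h := lagrange_identity (fun q : 𝒬 => quotientFunc T q z) (fun q : 𝒬 => quotientFunc F q z)
    ((1 : 𝒮ℒ) : 𝒬)
  simp only [quotientFunc_one] at h
  simp only [Pi.mul_apply, Finset.sum_apply, Pi.pow_apply, bFun, aFun, Pi.smul_apply, smul_eq_mul,
    trFun_apply]
  exact h

lemma bsum_eq_prod (T : ModularForm Γ w₀) :
    ∑ i ∈ Finset.range (Fintype.card 𝒬), bFun T i * (T : ℍ → ℂ) ^ i =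
      ∏ q ∈ (Finset.univ : Finset 𝒬).erase ((1 : 𝒮ℒ) : 𝒬), ((T : ℍ → ℂ) - quotientFunc T q) := by
  funext z
  have h := prod_erase_eq_sum (fun q : 𝒬 => quotientFunc T q z) ((1 : 𝒮ℒ) : 𝒬)
  simp only [quotientFunc_one] at h
  simp only [Pi.mul_apply, Finset.sum_apply, Finset.prod_apply, Pi.pow_apply, bFun, Pi.smul_apply,
    smul_eq_mul, Pi.sub_apply]
  exact h.symm

lemma bsum_ne_zero (T : ModularForm Γ w₀)
    (hdist : ∀ γ ∈ 𝒮ℒ, γ ∉ Γ → (T : ℍ → ℂ) ∣[w₀] γ ≠ T) :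
    ∑ i ∈ Finset.range (Fintype.card 𝒬), bFun T i * (T : ℍ → ℂ) ^ i ≠ 0 := by
  rw [bsum_eq_prod, Ne, UpperHalfPlane.prod_eq_zero_iff]
  · rintro ⟨q, hq, h0⟩
    exact quotientFunc_ne_of_ne T hdist (Finset.ne_of_mem_erase hq) (sub_eq_zero.mp h0).symm
  · intro q _
    exact T.holo'.sub (mdiff_quotientFunc T q)

/-- PIECE LAG. -/
theorem exists_lagrange {T : ℍ → ℂ} (hT : IsMF Γ w₀ T)
    (hdist : ∀ γ ∈ 𝒮ℒ, γ ∉ Γ → T ∣[w₀] γ ≠ T) :
    ∃ (m : ℕ) (b : ℕ → ℍ → ℂ), (∀ i, i ≤ m → IsMF 𝒮ℒ (((m - i : ℕ) : ℤ) * w₀) (b i)) ∧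
      (∑ i ∈ Finset.range (m + 1), b i * T ^ i ≠ 0) ∧
      ∀ {k : ℤ} {f : ℍ → ℂ}, IsMF Γ k f → ∃ a : ℕ → ℍ → ℂ,
        (∀ i, i ≤ m → IsMF 𝒮ℒ (k + ((m - i : ℕ) : ℤ) * w₀) (a i)) ∧
        f * ∑ i ∈ Finset.range (m + 1), b i * T ^ i = ∑ i ∈ Finset.range (m + 1), a i * T ^ i := by
  obtain ⟨T, rfl⟩ := hT
  have hpos := card_pos (Γ := Γ)
  have hm : Fintype.card 𝒬 - 1 + 1 = Fintype.card 𝒬 := by omega
  refine ⟨Fintype.card 𝒬 - 1, bFun T, fun i hi => isMF_bFun T hi, ?_, ?_⟩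
  · rw [hm]
    exact bsum_ne_zero T hdist
  · rintro k f ⟨F, rfl⟩
    refine ⟨aFun F T, fun i hi => isMF_aFun F T hi, ?_⟩
    rw [hm]
    exact lagrange_fun F T

end Fermat.Agent.S23
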