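import Fermat.Agent.S23.Defs
import Mathlib.NumberTheory.ModularForms.LevelOne.DimensionFormula
import Mathlib.NumberTheory.ModularForms.LevelOne.GradedRing
import Mathlib.NumberTheory.ModularForms.EisensteinSeries.QExpansion

set_option autoImplicit false

namespace Fermat.Agent.S23

open UpperHalfPlane ModularForm ModularFormClass EisensteinSeries
open scoped MatrixGroups ModularForm Manifold

namespace LevelOneConj

/-- `PowerSeries.map` of a scalar multiple. -/
theorem map_smul_powerSeries (s : ℂ →+* ℂ) (a : ℂ) (p : PowerSeries ℂ) :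
    (a • p).map s = s a • p.map s := by
  ext n
  simp [PowerSeries.coeff_map]

/-- The `q`-expansion of a normalised Eisenstein series of level one has rational coefficients,
hence is fixed by every ring endomorphism of `ℂ`. -/
theorem map_qExpansion_E (s : ℂ →+* ℂ) {k : ℕ} (hk : 3 ≤ k) (hk2 : Even k) :
    (qExpansion 1 (E hk)).map s = qExpansion 1 (E hk) := by
  ext m
  rw [PowerSeries.coeff_map, E_qExpansion_coeff hk hk2]
  split_ifs with h
  · simp
  · simp only [map_mul, map_neg, map_div₀, map_natCast, map_ratCast, map_ofNat]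

/-- The `q`-expansion of the discriminant, in terms of those of `E₄` and `E₆`. -/
theorem qExpansion_discriminant_eq :
    (1728 : ℂ) • qExpansion 1 CuspForm.discriminant =
      qExpansion 1 E₄ ^ 3 - qExpansion 1 E₆ ^ 2 := by
  have hfun : (((1728 : ℂ) • CuspForm.discriminant : CuspForm 𝒮ℒ 12) : ℍ → ℂ) =
      ((ModularForm.mcast (by decide) (E₄.pow 3) - ModularForm.mcast (by decide) (E₆.pow 2) :
        ModularForm 𝒮ℒ 12) : ℍ → ℂ) := by
    funext z
    have h := discriminant_eq_E₄_cube_sub_E₆_sq z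
    simp only [FunLike.coe_smul, Pi.smul_apply, smul_eq_mul, FunLike.coe_sub,
      ModularForm.coe_mcast, ModularForm.coe_pow, Pi.sub_apply, Pi.pow_apply,
      CuspForm.coe_discriminant]
    rw [h]
    ring
  have h1 : qExpansion 1 (((1728 : ℂ) • CuspForm.discriminant : CuspForm 𝒮ℒ 12) : ℍ → ℂ) =
      (1728 : ℂ) • qExpansion 1 CuspForm.discriminant := by
    rw [FunLike.coe_smul]
    exact ModularForm.qExpansion_smul one_pos one_mem_strictPeriods_SL _ CuspForm.discriminant
  rw [← h1, hfun, FunLike.coe_sub,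
    ModularForm.qExpansion_sub one_pos one_mem_strictPeriods_SL, ModularForm.qExpansion_mcast,
    ModularForm.qExpansion_mcast, ModularForm.qExpansion_pow one_pos one_mem_strictPeriods_SL,
    ModularForm.qExpansion_pow one_pos one_mem_strictPeriods_SL]

/-- The `q`-expansion of the discriminant is fixed by every ring endomorphism of `ℂ`. -/
theorem map_qExpansion_discriminant (s : ℂ →+* ℂ) :
    (qExpansion 1 CuspForm.discriminant).map s = qExpansion 1 CuspForm.discriminant := by
  have h := congrArg (PowerSeries.map s) qExpansion_discriminant_eq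
  rw [map_smul_powerSeries, map_sub, map_pow, map_pow, map_qExpansion_E s _ ⟨2, rfl⟩,
    map_qExpansion_E s _ ⟨3, rfl⟩, ← qExpansion_discriminant_eq, map_ofNat] at h
  exact smul_right_injective _ (by norm_num : (1728 : ℂ) ≠ 0) h

/-- Helper: the zero form is a conjugate of the zero form. -/
theorem exists_conj_of_eq_zero (s : ℂ →+* ℂ) {k : ℤ} (c : ModularForm 𝒮ℒ k) (hc : c = 0) :
    ∃ c' : ModularForm 𝒮ℒ k, qExpansion 1 c' = (qExpansion 1 c).map s := by
  subst hc
  refine ⟨0, ?_⟩
  rw [FunLike.coe_zero, qExpansion_zero, map_zero]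

/-- **Level one forms are stable under coefficientwise ring endomorphisms** (bundled version). -/
theorem exists_modularForm_map_qExpansion_aux (s : ℂ →+* ℂ) (n : ℕ) :
    ∀ (k : ℤ), k.toNat = n → ∀ c : ModularForm 𝒮ℒ k,
      ∃ c' : ModularForm 𝒮ℒ k, qExpansion 1 c' = (qExpansion 1 c).map s := by
  induction n using Nat.strong_induction_on with | _ n ih => ?_
  intro k hn c
  rcases lt_or_ge k 0 with hneg | hnn
  · exact exists_conj_of_eq_zero s c
      (rank_zero_iff_forall_zero.mp (levelOne_neg_weight_rank_zero hneg) c)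
  rcases Int.even_or_odd k with hev | hodd
  swap
  · exact exists_conj_of_eq_zero s c (levelOne_odd_weight_eq_zero hodd c)
  lift k to ℕ using hnn
  have hev' : Even k := by exact_mod_cast hev
  rcases Nat.lt_or_ge k 3 with hk3 | hk3
  · interval_cases k
    · -- weight `0`: constants
      obtain ⟨a, ha⟩ := levelOne_weight_zero_const c
      have hc : (c : ℍ → ℂ) = a • ((1 : ModularForm 𝒮ℒ 0) : ℍ → ℂ) := by
        rw [ha]; funext z; simp
      refine ⟨s a • (1 : ModularForm 𝒮ℒ 0), ?_⟩
      rw [hc, FunLike.coe_smul, ModularForm.qExpansion_smul one_pos one_mem_strictPeriods_SL,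
        ModularForm.qExpansion_smul one_pos one_mem_strictPeriods_SL, ModularForm.qExpansion_one,
        map_smul_powerSeries, map_one]
    · exact absurd hev' (by decide)
    · exact exists_conj_of_eq_zero s c
        (rank_zero_iff_forall_zero.mp levelOne_weight_two_rank_zero c)
  · -- weight `k ≥ 4` even: subtract the Eisenstein series and divide by the discriminant
    set a₀ : ℂ := (qExpansion 1 c).coeff 0 with ha₀
    set g : ModularForm 𝒮ℒ k := c - a₀ • E hk3 with hg
    have hqg : qExpansion 1 g = qExpansion 1 c - a₀ • qExpansion 1 (E hk3) := by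
      rw [hg, FunLike.coe_sub, ModularForm.qExpansion_sub one_pos one_mem_strictPeriods_SL,
        FunLike.coe_smul, ModularForm.qExpansion_smul one_pos one_mem_strictPeriods_SL]
    have h0 : (qExpansion 1 g).coeff 0 = 0 := by
      rw [hqg, map_sub, PowerSeries.coeff_smul, E_qExpansion_coeff_zero hk3 hev', smul_eq_mul,
        mul_one, sub_self]
    obtain ⟨d', hd'⟩ := ih ((k : ℤ) - 12).toNat (by omega) ((k : ℤ) - 12) rfl
      (CuspForm.discriminantEquiv (toCuspForm g h0))
    have hfac := qExpansion_eq_qExpansion_discriminant_mul g h0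
    refine ⟨s a₀ • E hk3 + CuspForm.toModularFormₗ (CuspForm.ofMulDiscriminant d'), ?_⟩
    have hq2 : qExpansion 1 (CuspForm.toModularFormₗ (CuspForm.ofMulDiscriminant d') : ℍ → ℂ) =
        qExpansion 1 CuspForm.discriminant * qExpansion 1 d' := by
      rw [← ModularForm.qExpansion_mul_coe one_pos one_mem_strictPeriods_SL]
      congr 1
    have hc : qExpansion 1 c = a₀ • qExpansion 1 (E hk3) +
        qExpansion 1 discriminant *
          qExpansion 1 (CuspForm.discriminantEquiv (toCuspForm g h0)) := by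
      rw [← hfac, hqg]; ring
    rw [FunLike.coe_add, ModularForm.qExpansion_add one_pos one_mem_strictPeriods_SL,
      FunLike.coe_smul, ModularForm.qExpansion_smul one_pos one_mem_strictPeriods_SL, hq2, hd',
      hc, map_add, map_smul_powerSeries, map_mul, map_qExpansion_E s hk3 hev',
      ← CuspForm.coe_discriminant, map_qExpansion_discriminant]

/-- **Level one forms are stable under coefficientwise ring endomorphisms** (bundled version). -/
theorem exists_modularForm_map_qExpansion (s : ℂ →+* ℂ) (k : ℤ) (c : ModularForm 𝒮ℒ k) :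
    ∃ c' : ModularForm 𝒮ℒ k, qExpansion 1 c' = (qExpansion 1 c).map s :=
  exists_modularForm_map_qExpansion_aux s k.toNat k rfl c

/-- **Level one cusp forms are stable under coefficientwise ring endomorphisms**
(bundled version). -/
theorem exists_cuspForm_map_qExpansion (s : ℂ →+* ℂ) (k : ℤ) (c : CuspForm 𝒮ℒ k) :
    ∃ c' : CuspForm 𝒮ℒ k, qExpansion 1 c' = (qExpansion 1 c).map s := by
  obtain ⟨d, hd⟩ := exists_modularForm_map_qExpansion s k (CuspForm.toModularFormₗ c)
  have h0 : (qExpansion 1 d).coeff 0 = 0 := by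
    have h1 : (qExpansion 1 (CuspForm.toModularFormₗ c)).coeff 0 = 0 :=
      (isCuspForm_iff_coeffZero_eq_zero _).mp (CuspForm.isCuspForm_toModularFormₗ c)
    rw [hd, PowerSeries.coeff_map, h1, map_zero]
  exact ⟨toCuspForm d h0, hd⟩

end LevelOneConj

/-- **T23-L1 / T23-B1 (ring hom version).** Level one modular forms are stable under an
arbitrary ring endomorphism of `ℂ` acting on `q`-expansion coefficients. -/
theorem levelOne_conj (σ : ℂ →+* ℂ) {k : ℤ} {g : ℍ → ℂ} (hg : IsMF 𝒮ℒ k g) :
    ∃ g' : ℍ → ℂ, IsMF 𝒮ℒ k g' ∧ qExpansion 1 g' = (qExpansion 1 g).map σ := by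
  obtain ⟨F, rfl⟩ := hg
  obtain ⟨F', hF'⟩ := LevelOneConj.exists_modularForm_map_qExpansion σ k F
  exact ⟨F', ⟨F', rfl⟩, hF'⟩

/-- **T23-L1 / T23-B1 (ring hom version, cusp forms).** Level one cusp forms are stable under
an arbitrary ring endomorphism of `ℂ` acting on `q`-expansion coefficients. -/
theorem levelOne_cusp_conj (σ : ℂ →+* ℂ) {k : ℤ} {g : ℍ → ℂ} (hg : IsCF 𝒮ℒ k g) :
    ∃ g' : ℍ → ℂ, IsCF 𝒮ℒ k g' ∧ qExpansion 1 g' = (qExpansion 1 g).map σ := by
  obtain ⟨F, rfl⟩ := hg
  obtain ⟨F', hF'⟩ := LevelOneConj.exists_cuspForm_map_qExpansion σ k F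
  exact ⟨F', ⟨F', rfl⟩, hF'⟩

/-- **T23-B1.** Level one modular forms are stable under `Aut(ℂ)` acting on `q`-expansion
coefficients. (The conclusion is `IsConj σ c c'` unfolded.) -/
theorem levelOne_exists_isConj (σ : ℂ ≃+* ℂ) {k : ℤ} {c : ℍ → ℂ} (hc : IsMF 𝒮ℒ k c) :
    ∃ c' : ℍ → ℂ, IsMF 𝒮ℒ k c' ∧ qExpansion 1 c' = (qExpansion 1 c).map (σ : ℂ →+* ℂ) :=
  levelOne_conj (σ : ℂ →+* ℂ) hc

/-- **T23-B1 (cusp forms).** Level one cusp forms are stable under `Aut(ℂ)` acting on
`q`-expansion coefficients. (The conclusion is `IsConj σ c c'` unfolded.) -/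
theorem levelOne_cusp_exists_isConj (σ : ℂ ≃+* ℂ) {k : ℤ} {c : ℍ → ℂ} (hc : IsCF 𝒮ℒ k c) :
    ∃ c' : ℍ → ℂ, IsCF 𝒮ℒ k c' ∧ qExpansion 1 c' = (qExpansion 1 c).map (σ : ℂ →+* ℂ) :=
  levelOne_cusp_conj (σ : ℂ →+* ℂ) hc

/-- A level one modular form whose `q`-expansion has vanishing constant term is a cusp form. -/
theorem IsMF.isCF_of_coeff_zero {k : ℤ} {g : ℍ → ℂ} (hg : IsMF 𝒮ℒ k g)
    (h0 : (qExpansion 1 g).coeff 0 = 0) : IsCF 𝒮ℒ k g := by
  obtain ⟨F, rfl⟩ := hg
  exact ⟨toCuspForm F h0, rfl⟩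

/-- The constant term of the `q`-expansion of a level one cusp form vanishes. -/
theorem IsCF.coeff_zero {k : ℤ} {g : ℍ → ℂ} (hg : IsCF 𝒮ℒ k g) :
    (qExpansion 1 g).coeff 0 = 0 := by
  obtain ⟨F, rfl⟩ := hg
  exact (isCuspForm_iff_coeffZero_eq_zero (CuspForm.toModularFormₗ F)).mp
    (CuspForm.isCuspForm_toModularFormₗ F)

/-- A level one modular form whose `q`-expansion has vanishing constant term is zero at `i∞`. -/
theorem isZeroAtImInfty_of_coeff_zero {k : ℤ} {g : ℍ → ℂ} (hg : IsMF 𝒮ℒ k g)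
    (h0 : (qExpansion 1 g).coeff 0 = 0) : IsZeroAtImInfty g := by
  obtain ⟨F, rfl⟩ := hg.isCF_of_coeff_zero h0
  exact CuspFormClass.zero_at_infty F

end Fermat.Agent.S23
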