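import Mathlib.NumberTheory.ModularForms.QExpansion
import Mathlib.NumberTheory.ModularForms.CongruenceSubgroups
import Mathlib.NumberTheory.ModularForms.EisensteinSeries.QExpansion
import Fermat.Prelude.Def_ModularForm_HeckeOperator
import Fermat.Prelude.Thm_CongruenceSubgroup_one_mem_strictPeriods_Gamma0
import Fermat.Agent.S23.Defs

set_option autoImplicit false

open UpperHalfPlane ModularForm
open scoped MatrixGroups ModularForm Manifold

namespace Fermat.Agent.S23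

namespace FormT

open Matrix Matrix.SpecialLinearGroup ConjAct Pointwise

/-- `α γ = δ α` for `γ = [a, b; N c', d]`, `δ = [a, N b; c', d]`, `α = diag(N, 1)`. -/
theorem heckeDiag_mul_mem (N : ℕ) [NeZero N] (γ : SL(2, ℤ)) (hγ : γ ∈ CongruenceSubgroup.Gamma0 N) :
    ∃ δ : SL(2, ℤ), heckeDiagMatrix N * mapGL ℝ γ = mapGL ℝ δ * heckeDiagMatrix N := by
  have hN : N ≠ 0 := NeZero.ne N
  rw [CongruenceSubgroup.Gamma0_mem] at hγ
  obtain ⟨c', hc'⟩ : (N : ℤ) ∣ γ 1 0 := (ZMod.intCast_zmod_eq_zero_iff_dvd _ _).mp hγ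
  have hdet : γ 0 0 * γ 1 1 - γ 0 1 * γ 1 0 = 1 := by
    have := γ.det_coe
    rwa [Matrix.det_fin_two] at this
  refine ⟨⟨!![γ 0 0, N * γ 0 1; c', γ 1 1], ?_⟩, ?_⟩
  · rw [Matrix.det_fin_two_of]
    rw [hc'] at hdet
    linear_combination hdet
  · apply Matrix.GeneralLinearGroup.ext
    intro i j
    simp only [Matrix.GeneralLinearGroup.coe_mul, val_heckeDiagMatrix hN]
    fin_cases i <;> fin_cases j <;>
      simp [Matrix.mul_apply, Fin.sum_univ_two, mapGL, hc'] <;> ring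

theorem G0_le_conj (N : ℕ) [NeZero N] :
    G0 N ≤ toConjAct (heckeDiagMatrix N)⁻¹ • (𝒮ℒ : Subgroup (GL (Fin 2) ℝ)) := by
  rintro _ ⟨γ, hγ, rfl⟩
  obtain ⟨δ, hδ⟩ := heckeDiag_mul_mem N γ hγ
  rw [Subgroup.mem_pointwise_smul_iff_inv_smul_mem, ConjAct.smul_def]
  simp only [map_inv, inv_inv, ConjAct.ofConjAct_toConjAct]
  refine ⟨δ, ?_⟩
  rw [hδ, mul_assoc, mul_inv_cancel, mul_one]

/-- The slash of a level one form by `diag(N, 1)` is a form of level `Γ₀(N)`. -/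
theorem isMF_slash_heckeDiag (N : ℕ) [NeZero N] {k : ℤ} (f : ModularForm 𝒮ℒ k) :
    IsMF (G0 N) k ((f : ℍ → ℂ) ∣[k] heckeDiagMatrix N) := by
  let F' := ModularForm.translate f (heckeDiagMatrix N)
  have h := G0_le_conj N
  exact ⟨⟨⟨F', fun γ hγ => F'.slash_action_eq' γ (h hγ)⟩, F'.holo',
    fun hc => F'.bdd_at_cusps' (hc.mono h)⟩, rfl⟩

/-- The form `T(z) = E₄(N z)`. -/
noncomputable def T (N : ℕ) : ℍ → ℂ := fun z => E₄ (heckeDiagMatrix N • z)

theorem T_eq (N : ℕ) [NeZero N] :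
    T N = ((N : ℂ) ^ (3 : ℤ))⁻¹ • ((E₄ : ℍ → ℂ) ∣[(4 : ℤ)] heckeDiagMatrix N) := by
  have hN : N ≠ 0 := NeZero.ne N
  have hN' : (N : ℂ) ^ (3 : ℤ) ≠ 0 := zpow_ne_zero _ (by exact_mod_cast hN)
  funext τ
  rw [Pi.smul_apply, slash_heckeDiagMatrix_apply 4 hN, smul_eq_mul,
    show (4 : ℤ) - 1 = 3 by norm_num, ← mul_assoc, inv_mul_cancel₀ hN', one_mul]
  rfl

theorem isMF_T (N : ℕ) [NeZero N] : IsMF (G0 N) 4 (T N) := by
  obtain ⟨F', hF'⟩ := isMF_slash_heckeDiag N E₄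
  refine ⟨((N : ℂ) ^ (3 : ℤ))⁻¹ • F', ?_⟩
  rw [T_eq, ← hF']
  rfl

open Function in
/-- The `q`-expansion of `T = E₄(N z)` is obtained from that of `E₄` by `q ↦ q ^ N`. -/
theorem qExpansion_T_coeff (N : ℕ) [NeZero N] (n : ℕ) :
    (qExpansion 1 (T N)).coeff n =
      if N ∣ n then (qExpansion 1 (E₄ : ℍ → ℂ)).coeff (n / N) else 0 := by
  have hN : N ≠ 0 := NeZero.ne N
  obtain ⟨F', hF'⟩ := isMF_T N
  rw [← hF']
  symm
  refine ModularFormClass.qExpansion_coeff_unique (f := F')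
    (c := fun n => if N ∣ n then (qExpansion 1 (E₄ : ℍ → ℂ)).coeff (n / N) else 0) one_pos
    (CongruenceSubgroup.one_mem_strictPeriods_Gamma0 N) (fun τ => ?_) n
  rw [hF']
  have h1 := ModularForm.hasSum_qExpansion (f := E₄) one_pos one_mem_strictPeriods_SL
    (heckeDiagMatrix N • τ)
  have hq : Periodic.qParam 1 ((heckeDiagMatrix N • τ : ℍ) : ℂ) = Periodic.qParam 1 (τ : ℂ) ^ N := by
    rw [coe_heckeDiagMatrix_smul hN, Periodic.qParam, Periodic.qParam, ← Complex.exp_nat_mul]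
    congr 1
    ring
  have hinj : Injective (fun m : ℕ => N * m) := fun a b h => Nat.eq_of_mul_eq_mul_left
    (Nat.pos_of_ne_zero hN) h
  rw [← hinj.hasSum_iff]
  · convert h1 using 1
    · funext m
      simp only [Function.comp_apply, dvd_mul_right, if_true, Nat.mul_div_cancel_left _
        (Nat.pos_of_ne_zero hN), smul_eq_mul, hq, pow_mul]
    · rfl
  · intro x hx
    have : ¬ N ∣ x := fun ⟨m, hm⟩ => hx ⟨m, hm.symm⟩
    simp [this]

theorem qExpansion_T_rational (N : ℕ) [NeZero N] (n : ℕ) :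
    ∃ r : ℚ, (qExpansion 1 (T N)).coeff n = (r : ℂ) := by
  rw [qExpansion_T_coeff]
  split_ifs with h
  · rw [EisensteinSeries.E_qExpansion_coeff (by norm_num) ⟨2, rfl⟩]
    split_ifs
    · exact ⟨1, by simp⟩
    · refine ⟨-(2 * (4 : ℕ) / bernoulli 4) * (ArithmeticFunction.sigma (4 - 1) (n / N)), ?_⟩
      push_cast
      rfl
  · exact ⟨0, by simp⟩

/-! ### Behaviour at `i∞` -/

open Filter Topology in
theorem tendsto_E4 : Tendsto (E₄ : ℍ → ℂ) atImInfty (𝓝 1) := by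
  have hper := SlashInvariantFormClass.periodic_comp_ofComplex (f := E₄) one_mem_strictPeriods_SL
  have han : AnalyticAt ℂ (cuspFunction 1 (E₄ : ℍ → ℂ)) 0 :=
    ModularFormClass.analyticAt_cuspFunction_zero E₄ one_pos one_mem_strictPeriods_SL
  have h0 : cuspFunction 1 (E₄ : ℍ → ℂ) 0 = 1 := by
    have := EisensteinSeries.E_qExpansion_coeff_zero (k := 4) (by norm_num) ⟨2, rfl⟩
    simpa [qExpansion_coeff] using this
  have hcomp : (cuspFunction 1 (E₄ : ℍ → ℂ) ∘ fun τ : ℍ => Function.Periodic.qParam 1 (τ : ℂ))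
      = E₄ := by
    funext τ
    simpa using eq_cuspFunction τ one_ne_zero hper
  rw [← h0, ← hcomp]
  have := han.continuousAt.tendsto.comp (qParam_tendsto_atImInfty one_pos)
  rwa [hcomp] at this ⊢

/-- Slash by an upper triangular matrix with positive diagonal. -/
theorem slash_upperTriangular_apply (k : ℤ) {a b d : ℝ} (ha : 0 < a) (hd : 0 < d)
    (f : ℍ → ℂ) (τ : ℍ) :
    (f ∣[k] upperTriangularGL a b d (mul_pos ha hd).ne') τ =
      ((a * d : ℝ) : ℂ) ^ (k - 1) * (d : ℂ) ^ (-k) *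
        f (upperTriangularGL a b d (mul_pos ha hd).ne' • τ) := by
  have hdet : ((upperTriangularGL a b d (mul_pos ha hd).ne').det : ℝ) = a * d := by
    rw [Matrix.GeneralLinearGroup.val_det_apply, val_upperTriangularGL, Matrix.det_fin_two_of]
    ring
  have hpos : 0 < ((upperTriangularGL a b d (mul_pos ha hd).ne').det : ℝ) := by
    rw [hdet]; exact mul_pos ha hd
  have hσ : UpperHalfPlane.σ (upperTriangularGL a b d (mul_pos ha hd).ne') = .refl ℝ ℂ := by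
    rw [UpperHalfPlane.σ, if_pos hpos]
  have hden : UpperHalfPlane.denom (upperTriangularGL a b d (mul_pos ha hd).ne') τ = d := by
    simp [UpperHalfPlane.denom]
  rw [ModularForm.slash_apply, hσ, hdet, hden, abs_of_pos (mul_pos ha hd)]
  simp only [ContinuousAlgEquiv.refl_apply]
  ring

theorem im_upperTriangular_smul {a b d : ℝ} (ha : 0 < a) (hd : 0 < d) (τ : ℍ) :
    (upperTriangularGL a b d (mul_pos ha hd).ne' • τ).im = a / d * τ.im := by
  rw [UpperHalfPlane.im_smul_eq_div_normSq]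
  have hdet : ((upperTriangularGL a b d (mul_pos ha hd).ne').det : ℝ) = a * d := by
    rw [Matrix.GeneralLinearGroup.val_det_apply, val_upperTriangularGL, Matrix.det_fin_two_of]
    ring
  have hden : UpperHalfPlane.denom (upperTriangularGL a b d (mul_pos ha hd).ne') τ = d := by
    simp [UpperHalfPlane.denom]
  rw [hdet, hden, abs_of_pos (mul_pos ha hd), Complex.normSq_ofReal]
  field_simp

open Filter Topology in
theorem tendsto_upperTriangular_smul {a b d : ℝ} (ha : 0 < a) (hd : 0 < d) :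
    Tendsto (fun τ : ℍ => upperTriangularGL a b d (mul_pos ha hd).ne' • τ) atImInfty atImInfty := by
  rw [atImInfty, tendsto_comap_iff]
  have : (UpperHalfPlane.im ∘ fun τ : ℍ => upperTriangularGL a b d (mul_pos ha hd).ne' • τ) =
      fun τ : ℍ => a / d * τ.im := by
    funext τ
    exact im_upperTriangular_smul ha hd τ
  rw [this]
  exact (tendsto_comap (f := UpperHalfPlane.im) (x := atTop)).const_mul_atTop (div_pos ha hd)

open Filter Topology in
theorem tendsto_slash_upperTriangular (k : ℤ) {a b d : ℝ} (ha : 0 < a) (hd : 0 < d)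
    {f : ℍ → ℂ} {ℓ : ℂ} (hf : Tendsto f atImInfty (𝓝 ℓ)) :
    Tendsto (f ∣[k] upperTriangularGL a b d (mul_pos ha hd).ne') atImInfty
      (𝓝 (((a * d : ℝ) : ℂ) ^ (k - 1) * (d : ℂ) ^ (-k) * ℓ)) := by
  have h1 := (hf.comp (tendsto_upperTriangular_smul (b := b) ha hd)).const_mul
    (((a * d : ℝ) : ℂ) ^ (k - 1) * (d : ℂ) ^ (-k))
  refine h1.congr (fun τ => ?_)
  rw [slash_upperTriangular_apply k ha hd]
  rfl

/-! ### The coset decomposition `α γ = γ' β` -/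

/-- For `γ ∈ SL(2, ℤ)`: `diag(N, 1) * γ = γ' * [g, B; 0, D]` with `γ' ∈ SL(2, ℤ)`, `g * D = N`,
`g, D > 0`, and `D = 1` only if `N ∣ γ 1 0`. -/
theorem exists_decomp (N : ℕ) [NeZero N] (γ : SL(2, ℤ)) :
    ∃ (γ' : SL(2, ℤ)) (g D : ℕ) (B : ℤ) (hg : 0 < (g : ℝ)) (hD : 0 < (D : ℝ)),
      g * D = N ∧ (D = 1 → (N : ℤ) ∣ γ 1 0) ∧
      heckeDiagMatrix N * mapGL ℝ γ =
        mapGL ℝ γ' * upperTriangularGL (g : ℝ) (B : ℝ) (D : ℝ) (mul_pos hg hD).ne' := by
  have hN : N ≠ 0 := NeZero.ne N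
  set a := γ 0 0 with ha
  set b := γ 0 1 with hb
  set c := γ 1 0 with hc
  set d := γ 1 1 with hd
  have hdet : a * d - b * c = 1 := by
    have := γ.det_coe
    rwa [Matrix.det_fin_two] at this
  set g : ℕ := Int.gcd N c with hgdef
  have hgpos : 0 < g := Int.gcd_pos_of_ne_zero_left _ (by exact_mod_cast hN)
  obtain ⟨D', hD'⟩ : (g : ℤ) ∣ (N : ℤ) := Int.gcd_dvd_left _ _
  obtain ⟨v, hv⟩ : (g : ℤ) ∣ c := Int.gcd_dvd_right _ _
  have hD'pos : 0 < D' := by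
    have h1 : (0 : ℤ) < g * D' := by rw [← hD']; exact_mod_cast Nat.pos_of_ne_zero hN
    exact (mul_pos_iff_of_pos_left (by exact_mod_cast hgpos)).mp h1
  obtain ⟨D, rfl⟩ : ∃ D : ℕ, (D : ℤ) = D' := ⟨D'.toNat, Int.toNat_of_nonneg hD'pos.le⟩
  have hDpos : 0 < D := by exact_mod_cast hD'pos
  have hgD : g * D = N := by exact_mod_cast hD'.symm
  -- coprimality
  have hcop1 : IsCoprime (D : ℤ) v := by
    rw [Int.isCoprime_iff_gcd_eq_one]
    have h := Int.gcd_div_gcd_div_gcd (i := (N : ℤ)) (j := c) (by rw [← hgdef]; exact hgpos)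
    rw [← hgdef] at h
    have e1 : (N : ℤ) / (g : ℤ) = D := by
      rw [hD', Int.mul_ediv_cancel_left _ (by exact_mod_cast hgpos.ne')]
    have e2 : c / (g : ℤ) = v := by
      rw [hv, Int.mul_ediv_cancel_left _ (by exact_mod_cast hgpos.ne')]
    rwa [e1, e2] at h
  have hcop2 : IsCoprime a v := by
    have : IsCoprime a c := ⟨d, -b, by linear_combination hdet⟩
    rw [hv] at this
    exact this.of_mul_right_right
  obtain ⟨x, y, hxy⟩ : IsCoprime ((D : ℤ) * a) v := hcop1.mul_left hcop2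
  refine ⟨⟨!![(D : ℤ) * a, -y; v, x], ?_⟩, g, D, x * N * b + y * d,
    by exact_mod_cast hgpos, by exact_mod_cast hDpos, hgD, ?_, ?_⟩
  · rw [Matrix.det_fin_two_of]
    linear_combination hxy
  · intro hD1
    subst hD1
    rw [mul_one] at hgD
    rw [← hgD]
    exact ⟨v, hv⟩
  · have hND : (N : ℝ) = (g : ℝ) * (D : ℝ) := by exact_mod_cast hgD.symm
    have hdetR : (a : ℝ) * d - b * c = 1 := by exact_mod_cast hdet
    have hvR : (c : ℝ) = (g : ℝ) * v := by exact_mod_cast hv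
    have hxyR : (x : ℝ) * ((D : ℝ) * a) + y * v = 1 := by exact_mod_cast hxy
    apply Matrix.GeneralLinearGroup.ext
    intro i j
    simp only [Matrix.GeneralLinearGroup.coe_mul, val_heckeDiagMatrix hN, val_upperTriangularGL]
    fin_cases i <;> fin_cases j <;>
      simp [Matrix.mul_apply, Fin.sum_univ_two, mapGL, ← ha, ← hb, ← hc, ← hd]
    · rw [hND]; ring
    · rw [hND]
      linear_combination (-(g : ℝ) * D * b) * hxyR + (-(y : ℝ) * D) * hdetR +
        (-(y : ℝ) * D * b) * hvR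
    · rw [hvR]; ring
    · rw [hND]
      linear_combination (-(d : ℝ)) * hxyR + ((x : ℝ) * D) * hdetR + ((x : ℝ) * D * b) * hvR

/-! ### The stabiliser of `T` -/

open Filter Topology in
theorem tendsto_T (N : ℕ) [NeZero N] : Tendsto (T N) atImInfty (𝓝 1) := by
  have hN : N ≠ 0 := NeZero.ne N
  have hNpos : (0 : ℝ) < N := by exact_mod_cast Nat.pos_of_ne_zero hN
  have hα : heckeDiagMatrix N = upperTriangularGL (N : ℝ) 0 1 (mul_pos hNpos one_pos).ne' := by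
    simp [heckeDiagMatrix, hN]
  have := tendsto_E4.comp (tendsto_upperTriangular_smul (b := 0) hNpos one_pos)
  refine this.congr (fun τ => ?_)
  simp only [Function.comp_apply, T, hα]

open Filter Topology in
theorem T_slash_ne (N : ℕ) [NeZero N] (γ : GL (Fin 2) ℝ) (hγ : γ ∈ 𝒮ℒ) (hγ' : γ ∉ G0 N) :
    T N ∣[(4 : ℤ)] γ ≠ T N := by
  have hN : N ≠ 0 := NeZero.ne N
  have hNpos : (0 : ℝ) < N := by exact_mod_cast Nat.pos_of_ne_zero hN
  obtain ⟨γ₀, rfl⟩ := hγ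
  have hc : ¬ (N : ℤ) ∣ γ₀ 1 0 := by
    intro h
    apply hγ'
    exact ⟨γ₀, CongruenceSubgroup.Gamma0_mem.mpr
      ((ZMod.intCast_zmod_eq_zero_iff_dvd _ _).mpr h), rfl⟩
  obtain ⟨γ', g, D, B, hg, hD, hgD, hD1, hdec⟩ := exists_decomp N γ₀
  intro heq
  set β := upperTriangularGL (g : ℝ) (B : ℝ) (D : ℝ) (mul_pos hg hD).ne' with hβ
  have hσ : UpperHalfPlane.σ (mapGL ℝ γ₀) = .refl ℝ ℂ := by
    rw [UpperHalfPlane.σ, if_pos (by simp)]
  have h1 : T N ∣[(4 : ℤ)] mapGL ℝ γ₀ =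
      ((N : ℂ) ^ (3 : ℤ))⁻¹ • ((E₄ : ℍ → ℂ) ∣[(4 : ℤ)] β) := by
    rw [T_eq, ModularForm.smul_slash, hσ, ← SlashAction.slash_mul, hdec, SlashAction.slash_mul]
    congr 2
    exact SlashInvariantFormClass.slash_action_eq E₄ _ ⟨γ', rfl⟩
  have h2 : Tendsto (T N ∣[(4 : ℤ)] mapGL ℝ γ₀) atImInfty
      (𝓝 (((N : ℂ) ^ (3 : ℤ))⁻¹ *
        ((((g : ℝ) * (D : ℝ) : ℝ) : ℂ) ^ ((4 : ℤ) - 1) * ((D : ℝ) : ℂ) ^ (-(4 : ℤ)) * 1))) := by
    rw [h1]
    exact (tendsto_slash_upperTriangular 4 hg hD tendsto_E4).const_mul _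
  rw [heq] at h2
  have h3 := tendsto_nhds_unique h2 (tendsto_T N)
  have hND : ((g : ℝ) * (D : ℝ) : ℝ) = N := by exact_mod_cast hgD
  have hNC : (N : ℂ) ≠ 0 := by exact_mod_cast hN
  have hDC : (D : ℂ) ≠ 0 := by
    have : (D : ℝ) ≠ 0 := hD.ne'
    exact_mod_cast this
  rw [hND] at h3
  have h4 : ((D : ℂ) ^ 4) = 1 := by
    have e : ((N : ℂ) ^ (3 : ℤ))⁻¹ * ((((N : ℝ) : ℂ)) ^ ((4 : ℤ) - 1) *
        (((D : ℝ) : ℂ)) ^ (-(4 : ℤ)) * 1) = ((D : ℂ) ^ 4)⁻¹ := by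
      simp only [Complex.ofReal_natCast]
      rw [show (4 : ℤ) - 1 = 3 by norm_num, mul_one, ← mul_assoc,
        inv_mul_cancel₀ (zpow_ne_zero _ hNC), one_mul, _root_.zpow_neg]
      norm_cast
    rw [e] at h3
    exact inv_eq_one.mp h3
  have h5 : D ^ 4 = 1 := by exact_mod_cast h4
  have h6 : D = 1 := by
    rcases Nat.eq_zero_or_pos D with h | h
    · simp [h] at h5
    · exact (Nat.pow_eq_one.mp h5).resolve_right (by norm_num)
  exact hc (hD1 h6)

end FormT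

/-- Deliverable (tasks row 18): a form on `Γ₀(N)` with rational `q`-expansion whose stabiliser
in `SL(2, ℤ)` is exactly `Γ₀(N)`. -/
theorem exists_T (N : ℕ) [NeZero N] : ∃ (w₀ : ℤ) (T : ℍ → ℂ), IsMF (G0 N) w₀ T ∧
    (∀ n, ∃ r : ℚ, PowerSeries.coeff n (qExpansion 1 T) = (r : ℂ)) ∧
    ∀ γ ∈ 𝒮ℒ, γ ∉ G0 N → T ∣[w₀] γ ≠ T :=
  ⟨4, FormT.T N, FormT.isMF_T N, FormT.qExpansion_T_rational N, FormT.T_slash_ne N⟩

end Fermat.Agent.S23
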