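import Mathlib.NumberTheory.ModularForms.CongruenceSubgroups
import Mathlib.LinearAlgebra.Matrix.FixedDetMatrices
import Fermat.Prelude.Def_ModularForm_HeckeOperator

/-!
# Matrix lemmas for the separating form `E₄ ∣ diag(N,1)` (T23-B2)
-/

set_option autoImplicit false

open scoped MatrixGroups

namespace Fermat.Agent.S23

open Matrix ModularForm

/-- Entries of `mapGL ℝ γ`. -/
theorem mapGL_apply (γ : SL(2, ℤ)) (i j : Fin 2) :
    ((Matrix.SpecialLinearGroup.mapGL ℝ γ : GL (Fin 2) ℝ) : Matrix (Fin 2) (Fin 2) ℝ) i j =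
      ((γ i j : ℤ) : ℝ) := by
  simp [Matrix.SpecialLinearGroup.mapGL]

/-- `diag(N,1) γ = γ'' diag(N,1)` with `γ'' ∈ SL(2,ℤ)` when `γ ∈ Γ₀(N)`. -/
theorem exists_conj_of_mem_Gamma0 {N : ℕ} (hN : N ≠ 0) {γ : SL(2, ℤ)}
    (hγ : γ ∈ CongruenceSubgroup.Gamma0 N) :
    ∃ γ'' : SL(2, ℤ), heckeDiagMatrix N * Matrix.SpecialLinearGroup.mapGL ℝ γ =
      Matrix.SpecialLinearGroup.mapGL ℝ γ'' * heckeDiagMatrix N := by
  rw [CongruenceSubgroup.Gamma0_mem, ZMod.intCast_zmod_eq_zero_iff_dvd] at hγ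
  obtain ⟨c', hc'⟩ := hγ
  have hdet : γ 0 0 * γ 1 1 - γ 0 1 * γ 1 0 = 1 := by
    have := γ.det_coe
    rwa [Matrix.det_fin_two] at this
  have hdet2 : (!![γ 0 0, N * γ 0 1; c', γ 1 1] : Matrix (Fin 2) (Fin 2) ℤ).det = 1 := by
    rw [Matrix.det_fin_two_of]
    rw [hc'] at hdet
    linear_combination hdet
  refine ⟨⟨!![γ 0 0, N * γ 0 1; c', γ 1 1], hdet2⟩, ?_⟩
  have key : ∀ i j, ((Matrix.SpecialLinearGroup.mapGL ℝ
      (⟨!![γ 0 0, N * γ 0 1; c', γ 1 1], hdet2⟩ : SL(2, ℤ)) : GL (Fin 2) ℝ) :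
        Matrix (Fin 2) (Fin 2) ℝ) i j =
      (((!![γ 0 0, N * γ 0 1; c', γ 1 1] : Matrix (Fin 2) (Fin 2) ℤ) i j : ℤ) : ℝ) :=
    fun i j => mapGL_apply _ i j
  apply Matrix.GeneralLinearGroup.ext
  intro i j
  rw [Matrix.GeneralLinearGroup.coe_mul, Matrix.GeneralLinearGroup.coe_mul,
    val_heckeDiagMatrix hN, Matrix.mul_apply, Matrix.mul_apply, Fin.sum_univ_two,
    Fin.sum_univ_two]
  have hc'' : ((γ 1 0 : ℤ) : ℝ) = (N : ℝ) * (c' : ℝ) := by exact_mod_cast hc'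
  simp only [key, mapGL_apply]
  fin_cases i <;> fin_cases j <;> simp [hc''] <;> ring

/-- Factorisation `diag(N,1) γ = γ' [[a,b],[0,d]]`. -/
theorem exists_upperTriangular_factor {N : ℕ} (hN : N ≠ 0) (γ : SL(2, ℤ)) :
    ∃ (γ' : SL(2, ℤ)) (a b d : ℤ) (had : (a : ℝ) * (d : ℝ) ≠ 0), 0 < a ∧ 0 < d ∧ a * d = N ∧
      heckeDiagMatrix N * Matrix.SpecialLinearGroup.mapGL ℝ γ =
        Matrix.SpecialLinearGroup.mapGL ℝ γ' * upperTriangularGL a b d had ∧
      (d = 1 → γ ∈ CongruenceSubgroup.Gamma0 N) := by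
  have hdet : γ 0 0 * γ 1 1 - γ 0 1 * γ 1 0 = 1 := by
    have := γ.det_coe
    rwa [Matrix.det_fin_two] at this
  set A : ℤ := γ 0 0 with hA
  set B : ℤ := γ 0 1 with hB
  set C : ℤ := γ 1 0 with hC
  set D : ℤ := γ 1 1 with hD
  have hNZ : (N : ℤ) ≠ 0 := by exact_mod_cast hN
  -- `e = gcd (N A) C`
  have hne : ¬ ((N : ℤ) * A = 0 ∧ C = 0) := by
    rintro ⟨h1, h2⟩
    have hA0 : A = 0 := by
      rcases mul_eq_zero.mp h1 with h | h
      · exact absurd h hNZ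
      · exact h
    rw [hA0, h2] at hdet
    simp at hdet
  have hepos : 0 < Int.gcd ((N : ℤ) * A) C := Int.gcd_pos_iff.mpr (by tauto)
  obtain ⟨e, he⟩ : ∃ e : ℤ, e = (Int.gcd ((N : ℤ) * A) C : ℤ) := ⟨_, rfl⟩
  have hepos' : 0 < e := by rw [he]; exact_mod_cast hepos
  obtain ⟨u, hu⟩ : e ∣ (N : ℤ) * A := he ▸ Int.gcd_dvd_left _ _
  obtain ⟨v, hv⟩ : e ∣ C := he ▸ Int.gcd_dvd_right _ _
  have hcop : IsCoprime u v := by
    have h5 : Int.gcd ((N : ℤ) * A) C = e.natAbs := by rw [he, Int.natAbs_natCast]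
    have h2 : Int.gcd ((N : ℤ) * A) C = e.natAbs * Int.gcd u v := by
      rw [hu, hv, Int.gcd_mul_left]
    have h6 : 0 < e.natAbs := Int.natAbs_pos.mpr hepos'.ne'
    have h1 : Int.gcd u v = 1 := by
      rw [h5] at h2
      nth_rewrite 1 [← mul_one e.natAbs] at h2
      exact (Nat.eq_of_mul_eq_mul_left h6 h2).symm
    exact Int.isCoprime_iff_gcd_eq_one.mpr h1
  obtain ⟨γ', h00, h10⟩ := hcop.exists_SL2_col 0
  set x : ℤ := γ' 0 1 with hx
  set y : ℤ := γ' 1 1 with hy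
  have hdet' : u * y - x * v = 1 := by
    have := γ'.det_coe
    rw [Matrix.det_fin_two, h00, h10] at this
    linear_combination this
  -- the entries of the upper triangular factor
  have hed : e * (u * D - v * (N : ℤ) * B) = N := by
    have : e * (u * D - v * (N : ℤ) * B) = (e * u) * D - (e * v) * (N : ℤ) * B := by ring
    rw [this, ← hu, ← hv]
    linear_combination (N : ℤ) * hdet
  have hdpos : 0 < u * D - v * (N : ℤ) * B := by
    have hNpos : (0 : ℤ) < N := by exact_mod_cast Nat.pos_of_ne_zero hN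
    rw [← hed] at hNpos
    exact (mul_pos_iff_of_pos_left hepos').mp hNpos
  have had : ((e : ℤ) : ℝ) * ((u * D - v * (N : ℤ) * B : ℤ) : ℝ) ≠ 0 := by
    have : ((e * (u * D - v * (N : ℤ) * B) : ℤ) : ℝ) ≠ 0 := by
      rw [hed]; exact_mod_cast hN
    exact_mod_cast this
  refine ⟨γ', e, y * (N : ℤ) * B - x * D, u * D - v * (N : ℤ) * B, had, hepos', hdpos, hed, ?_, ?_⟩
  · apply Matrix.GeneralLinearGroup.ext
    intro i j
    rw [Matrix.GeneralLinearGroup.coe_mul, Matrix.GeneralLinearGroup.coe_mul,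
      val_heckeDiagMatrix hN, val_upperTriangularGL, Matrix.mul_apply, Matrix.mul_apply,
      Fin.sum_univ_two, Fin.sum_univ_two]
    simp only [mapGL_apply]
    have e1 : ((N : ℤ) : ℝ) * (A : ℝ) = (e : ℝ) * (u : ℝ) := by exact_mod_cast hu
    have e2 : (C : ℝ) = (e : ℝ) * (v : ℝ) := by exact_mod_cast hv
    have e3 : (u : ℝ) * (y : ℝ) - (x : ℝ) * (v : ℝ) = 1 := by exact_mod_cast hdet'
    have e00 : ((γ' 0 0 : ℤ) : ℝ) = (u : ℝ) := by exact_mod_cast h00
    have e10 : ((γ' 1 0 : ℤ) : ℝ) = (v : ℝ) := by exact_mod_cast h10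
    fin_cases i <;> fin_cases j
    · simp only [Fin.zero_eta, Fin.isValue, Matrix.of_apply, Matrix.cons_val', Matrix.cons_val_zero,
        Matrix.cons_val_fin_one, Matrix.cons_val_one]
      rw [e00]
      linear_combination e1
    · simp only [Fin.zero_eta, Fin.isValue, Fin.mk_one, Matrix.of_apply, Matrix.cons_val',
        Matrix.cons_val_zero, Matrix.cons_val_fin_one, Matrix.cons_val_one]
      rw [e00]
      push_cast
      linear_combination (-(N : ℝ) * (B : ℝ)) * e3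
    · simp only [Fin.mk_one, Fin.isValue, Fin.zero_eta, Matrix.of_apply, Matrix.cons_val',
        Matrix.cons_val_zero, Matrix.cons_val_fin_one, Matrix.cons_val_one]
      rw [e10]
      linear_combination e2
    · simp only [Fin.mk_one, Fin.isValue, Matrix.of_apply, Matrix.cons_val', Matrix.cons_val_zero,
        Matrix.cons_val_fin_one, Matrix.cons_val_one]
      rw [e10]
      push_cast
      linear_combination (-(D : ℝ)) * e3
  · intro hd1
    rw [hd1, mul_one] at hed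
    rw [CongruenceSubgroup.Gamma0_mem, ZMod.intCast_zmod_eq_zero_iff_dvd]
    exact ⟨v, by rw [← hed]; exact hv⟩

end Fermat.Agent.S23
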