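import Mathlib.NumberTheory.ModularForms.EisensteinSeries.QExpansion
import Fermat.Prelude.Thm_CongruenceSubgroup_one_mem_strictPeriods_Gamma0
import Fermat.Agent.S23.Defs
import Fermat.Agent.S23.SeparatingMatrix

/-!
# A separating form for `Γ₀(N)` inside `SL(2, ℤ)`

The function `g = E₄ ∣[4] diag(N, 1)`, i.e. `g τ = N ^ 3 * E₄ (N τ)`, is a modular form of weight
`4` and level `Γ₀(N)` with rational `q`-expansion, and `g ∣[4] γ ≠ g` for every
`γ ∈ SL(2, ℤ)` outside `Γ₀(N)`.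
-/

set_option autoImplicit false

open UpperHalfPlane ModularForm
open scoped MatrixGroups ModularForm Manifold

namespace Fermat.Agent.S23

open Matrix.SpecialLinearGroup CongruenceSubgroup Filter Topology
open scoped Pointwise

namespace Separating

/-! ### Modularity -/

theorem G0_le_conj_heckeDiag (N : ℕ) [NeZero N] :
    G0 N ≤ ConjAct.toConjAct (heckeDiagMatrix N)⁻¹ • (𝒮ℒ : Subgroup (GL (Fin 2) ℝ)) := by
  rintro _ ⟨γ, hγ, rfl⟩
  obtain ⟨γ'', h⟩ := exists_conj_of_mem_Gamma0 (NeZero.ne N) hγ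
  rw [Subgroup.mem_pointwise_smul_iff_inv_smul_mem, ← map_inv, inv_inv, ConjAct.toConjAct_smul, h]
  exact ⟨γ'', by simp⟩

/-- The separating form `E₄ ∣[4] diag(N, 1)`, i.e. `τ ↦ N ^ 3 * E₄ (N τ)`, as a modular form
of level `Γ₀(N)`. -/
noncomputable def sepForm (N : ℕ) [NeZero N] : ModularForm (G0 N) 4 :=
  let F := ModularForm.translate E₄ (heckeDiagMatrix N)
  ⟨⟨F, fun γ hγ => F.slash_action_eq' γ (G0_le_conj_heckeDiag N hγ)⟩, F.holo',
    fun hc => F.bdd_at_cusps' (hc.mono (G0_le_conj_heckeDiag N))⟩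

theorem coe_sepForm (N : ℕ) [NeZero N] :
    (sepForm N : ℍ → ℂ) = ⇑E₄ ∣[(4 : ℤ)] heckeDiagMatrix N := rfl

theorem sepForm_apply (N : ℕ) [NeZero N] (τ : ℍ) :
    sepForm N τ = (N : ℂ) ^ 3 * E₄ (heckeDiagMatrix N • τ) := by
  rw [coe_sepForm, slash_heckeDiagMatrix_apply 4 (NeZero.ne N)]
  norm_num

/-! ### Rational `q`-expansion -/

theorem qParam_heckeDiag_smul (N : ℕ) [NeZero N] (τ : ℍ) :
    Function.Periodic.qParam 1 ((heckeDiagMatrix N • τ : ℍ) : ℂ) = Function.Periodic.qParam 1 (τ : ℂ) ^ N := by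
  rw [coe_heckeDiagMatrix_smul (NeZero.ne N), Function.Periodic.qParam, Function.Periodic.qParam,
    ← Complex.exp_nat_mul]
  congr 1
  push_cast
  ring

theorem sepForm_qExpansion_coeff (N : ℕ) [NeZero N] (n : ℕ) :
    (qExpansion 1 (sepForm N)).coeff n =
      if N ∣ n then (N : ℂ) ^ 3 * (qExpansion 1 E₄).coeff (n / N) else 0 := by
  symm
  refine ModularFormClass.qExpansion_coeff_unique
    (c := fun n => if N ∣ n then (N : ℂ) ^ 3 * (qExpansion 1 E₄).coeff (n / N) else 0)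
    one_pos (CongruenceSubgroup.one_mem_strictPeriods_Gamma0 N) (f := sepForm N) ?_ n
  intro τ
  have h1 := ModularForm.hasSum_qExpansion E₄ one_pos one_mem_strictPeriods_SL
    (heckeDiagMatrix N • τ)
  rw [qParam_heckeDiag_smul] at h1
  have h2 := h1.mul_left ((N : ℂ) ^ 3)
  rw [sepForm_apply]
  have hN : 0 < N := Nat.pos_of_ne_zero (NeZero.ne N)
  have hinj : Function.Injective (fun m : ℕ => N * m) := fun a b h =>
    Nat.eq_of_mul_eq_mul_left hN h
  rw [← hinj.hasSum_iff]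
  · have hfun : ((fun m : ℕ => (if N ∣ m then (N : ℂ) ^ 3 * (qExpansion 1 E₄).coeff (m / N)
        else 0) • Function.Periodic.qParam 1 (τ : ℂ) ^ m) ∘ fun m : ℕ => N * m) =
        fun i => (N : ℂ) ^ 3 * ((qExpansion 1 E₄).coeff i * (Function.Periodic.qParam 1 (τ : ℂ) ^ N) ^ i) := by
      funext m
      simp only [Function.comp_apply, dvd_mul_right, if_true, Nat.mul_div_cancel_left m hN,
        smul_eq_mul, pow_mul]
      ring
    rw [hfun]
    exact h2
  · intro x hx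
    have : ¬ N ∣ x := fun ⟨m, hm⟩ => hx ⟨m, hm.symm⟩
    simp [this]

theorem sepForm_qExpansion_rational (N : ℕ) [NeZero N] (n : ℕ) :
    ∃ r : ℚ, (qExpansion 1 (sepForm N)).coeff n = (r : ℂ) := by
  rw [sepForm_qExpansion_coeff]
  split_ifs with h
  · have hE := EisensteinSeries.E_qExpansion_coeff (k := 4) (by norm_num) ⟨2, rfl⟩ (n / N)
    split_ifs at hE with h0
    · exact ⟨(N : ℚ) ^ 3, by rw [hE]; push_cast; ring⟩
    · refine ⟨(N : ℚ) ^ 3 * (-(2 * 4 / bernoulli 4) * (ArithmeticFunction.sigma 3 (n / N) : ℚ)), ?_⟩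
      rw [hE]
      push_cast
      ring
  · exact ⟨0, by simp⟩

/-! ### Behaviour at `i∞` -/

theorem tendsto_E4_atImInfty : Tendsto (fun τ : ℍ => E₄ τ) atImInfty (𝓝 1) := by
  have han : AnalyticAt ℂ (cuspFunction 1 E₄) 0 :=
    ModularFormClass.analyticAt_cuspFunction_zero E₄ one_pos one_mem_strictPeriods_SL
  have hval : cuspFunction 1 E₄ 0 = 1 := by
    have h0 := EisensteinSeries.E_qExpansion_coeff_zero (k := 4) (by norm_num) ⟨2, rfl⟩
    rw [qExpansion_coeff] at h0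
    simpa using h0
  have hcomp : (fun τ : ℍ => E₄ τ) = (cuspFunction 1 E₄) ∘ (fun τ : ℍ => Function.Periodic.qParam 1 (τ : ℂ)) := by
    funext τ
    exact (SlashInvariantFormClass.eq_cuspFunction E₄ τ one_mem_strictPeriods_SL one_ne_zero).symm
  rw [hcomp, ← hval]
  exact han.continuousAt.tendsto.comp (qParam_tendsto_atImInfty one_pos)

/-- Slash by a positive-determinant upper-triangular matrix, at the level of values. -/
theorem slash_upperTriangular_apply (f : ℍ → ℂ) (k : ℤ) (a b d : ℝ) (ha : 0 < a) (hd : 0 < d)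
    (had : a * d ≠ 0) (τ : ℍ) :
    (f ∣[k] upperTriangularGL a b d had) τ =
      f (upperTriangularGL a b d had • τ) * ((a * d : ℝ) : ℂ) ^ (k - 1) * ((d : ℝ) : ℂ) ^ (-k) := by
  have hdet : (upperTriangularGL a b d had).det.val = a * d := by
    rw [Matrix.GeneralLinearGroup.val_det_apply, val_upperTriangularGL, Matrix.det_fin_two_of]
    ring
  have hpos : 0 < (upperTriangularGL a b d had).det.val := by
    rw [hdet]; positivity
  rw [ModularForm.slash_apply, UpperHalfPlane.σ, if_pos hpos, hdet, abs_of_pos (by positivity)]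
  simp [UpperHalfPlane.denom, val_upperTriangularGL]

theorem tendsto_E4_slash_upperTriangular (a b d : ℝ) (ha : 0 < a) (hd : 0 < d)
    (had : a * d ≠ 0) :
    Tendsto (fun τ : ℍ => (⇑E₄ ∣[(4 : ℤ)] upperTriangularGL a b d had) τ) atImInfty
      (𝓝 (((a * d : ℝ) : ℂ) ^ (3 : ℤ) * ((d : ℝ) : ℂ) ^ (-4 : ℤ))) := by
  have h10 : (upperTriangularGL a b d had) 1 0 = 0 := by
    simp [val_upperTriangularGL]
  have h1 := tendsto_E4_atImInfty.comp (tendsto_smul_atImInfty h10)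
  have h2 := (h1.mul_const (((a * d : ℝ) : ℂ) ^ (3 : ℤ))).mul_const (((d : ℝ) : ℂ) ^ (-4 : ℤ))
  rw [one_mul] at h2
  refine h2.congr fun τ => ?_
  rw [slash_upperTriangular_apply _ _ a b d ha hd had]
  simp only [Function.comp_apply]
  norm_num

theorem tendsto_sepForm_atImInfty (N : ℕ) [NeZero N] :
    Tendsto (fun τ : ℍ => sepForm N τ) atImInfty (𝓝 ((N : ℂ) ^ 3)) := by
  have h10 : (heckeDiagMatrix N) 1 0 = 0 := by
    simp [val_heckeDiagMatrix (NeZero.ne N)]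
  have h1 := (tendsto_E4_atImInfty.comp (tendsto_smul_atImInfty h10)).const_mul ((N : ℂ) ^ 3)
  rw [mul_one] at h1
  refine h1.congr fun τ => ?_
  rw [sepForm_apply]
  rfl

/-! ### Separation -/

theorem sepForm_slash_eq (N : ℕ) [NeZero N] (γ γ' : SL(2, ℤ)) (β : GL (Fin 2) ℝ)
    (h : heckeDiagMatrix N * mapGL ℝ γ = mapGL ℝ γ' * β) :
    (sepForm N : ℍ → ℂ) ∣[(4 : ℤ)] γ = ⇑E₄ ∣[(4 : ℤ)] β := by
  rw [coe_sepForm, SL_slash, ← SlashAction.slash_mul]
  change ⇑E₄ ∣[(4 : ℤ)] (heckeDiagMatrix N * mapGL ℝ γ) = _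
  rw [h, SlashAction.slash_mul]
  congr 1
  exact SlashInvariantForm.slash_action_eqn E₄ _ ⟨γ', rfl⟩

theorem sepForm_slash_ne (N : ℕ) [NeZero N] (γ : SL(2, ℤ)) (hγ : γ ∉ Gamma0 N) :
    (sepForm N : ℍ → ℂ) ∣[(4 : ℤ)] γ ≠ sepForm N := by
  intro heq
  obtain ⟨γ', a, b, d, had, ha, hd, hadN, hfac, himp⟩ :=
    exists_upperTriangular_factor (NeZero.ne N) γ
  have haR : (0 : ℝ) < (a : ℝ) := by exact_mod_cast ha
  have hdR : (0 : ℝ) < (d : ℝ) := by exact_mod_cast hd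
  have h1 := tendsto_E4_slash_upperTriangular (a : ℝ) (b : ℝ) (d : ℝ) haR hdR had
  rw [← sepForm_slash_eq N γ γ' _ hfac, heq] at h1
  have h2 := tendsto_nhds_unique h1 (tendsto_sepForm_atImInfty N)
  -- `N ^ 3 * d ^ (-4) = N ^ 3`, hence `d ^ 4 = 1`, hence `d = 1`.
  have hadN' : ((a : ℝ) * (d : ℝ)) = (N : ℝ) := by exact_mod_cast hadN
  have hNC : (N : ℂ) ≠ 0 := by exact_mod_cast NeZero.ne N
  have hdC : ((d : ℝ) : ℂ) ≠ 0 := by
    exact_mod_cast hd.ne'
  rw [hadN'] at h2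
  have h3 : ((d : ℝ) : ℂ) ^ 4 = 1 := by
    have h4 : ((N : ℝ) : ℂ) ^ (3 : ℤ) = (N : ℂ) ^ 3 := by norm_cast
    rw [h4, zpow_neg] at h2
    have h5 : (((d : ℝ) : ℂ) ^ (4 : ℤ))⁻¹ = 1 := by
      have := mul_left_cancel₀ (pow_ne_zero 3 hNC) (h2.trans (mul_one _).symm)
      exact this
    rw [inv_eq_one] at h5
    exact_mod_cast h5
  have h6 : (d : ℝ) ^ 4 = 1 := by exact_mod_cast h3
  have h7 : d ^ 4 = 1 := by exact_mod_cast h6
  have h8 : d = 1 := by
    rcases (pow_eq_one_iff_of_nonneg hd.le (by norm_num)).mp h7 with h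
    exact h
  exact hγ (himp h8)

/-- The separating statement with the stabiliser condition phrased inside `GL(2, ℝ)`. -/
theorem exists_T (N : ℕ) [NeZero N] : ∃ (w₀ : ℤ) (T : ℍ → ℂ), IsMF (G0 N) w₀ T ∧
    (∀ n, ∃ r : ℚ, PowerSeries.coeff n (qExpansion 1 T) = (r : ℂ)) ∧
    ∀ γ ∈ (𝒮ℒ : Subgroup (GL (Fin 2) ℝ)), γ ∉ G0 N → T ∣[w₀] γ ≠ T := by
  refine ⟨4, sepForm N, ⟨sepForm N, rfl⟩, sepForm_qExpansion_rational N, ?_⟩
  rintro _ ⟨γ, rfl⟩ hγ
  exact sepForm_slash_ne N γ fun h => hγ ⟨γ, h, rfl⟩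

end Separating

/-- **Separating form.** There is a modular form for `Γ₀(N)` with rational `q`-expansion which
is not fixed by any element of `SL(2, ℤ)` outside `Γ₀(N)`. -/
theorem exists_separating_form (N : ℕ) [NeZero N] : ∃ (w : ℤ) (g : ℍ → ℂ), IsMF (G0 N) w g ∧
    (∀ n, ∃ r : ℚ, (qExpansion 1 g).coeff n = (r : ℂ)) ∧
    (∀ γ : SL(2, ℤ), γ ∉ CongruenceSubgroup.Gamma0 N → g ∣[w] γ ≠ g) :=
  ⟨4, Separating.sepForm N, ⟨Separating.sepForm N, rfl⟩,
    Separating.sepForm_qExpansion_rational N, Separating.sepForm_slash_ne N⟩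

end Fermat.Agent.S23
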