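import Mathlib
import Fermat.Agent.S23.Defs
import Fermat.Agent.S49.Basic
import Fermat.Prelude.Thm_ModularForm_sturm_bound_Gamma0
import Fermat.Prelude.Thm_CuspForm_intLattice_fg

set_option autoImplicit false

open UpperHalfPlane ModularForm
open scoped MatrixGroups ModularForm Manifold

namespace Fermat.Agent.S23

open ModularFormClass CongruenceSubgroup

/-- The `q`-expansion coefficients of a cusp form on `Γ₀(N)`, as a `ℂ`-linear map. -/
noncomputable def qCoeffLin (N : ℕ) (k : ℤ) : CuspForm (Gamma0 N) k →ₗ[ℂ] (ℕ → ℂ) where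
  toFun f n := qCoeff ⇑f n
  map_add' f g := funext fun n => Fermat.Agent.S49.qCoeff_add f g n
  map_smul' c f := funext fun n => by
    simp only [RingHom.id_apply, Pi.smul_apply, smul_eq_mul]
    exact Fermat.Agent.S49.qCoeff_smul c f n

@[simp]
theorem qCoeffLin_apply (N : ℕ) (k : ℤ) (f : CuspForm (Gamma0 N) k) (n : ℕ) :
    qCoeffLin N k f n = qCoeff ⇑f n := rfl

theorem qCoeffLin_injective (N : ℕ) (k : ℤ) : Function.Injective (qCoeffLin N k) := by
  refine (injective_iff_map_eq_zero _).mpr fun f hf => ?_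
  exact Fermat.Agent.S49.eq_zero_of_qCoeff_eq_zero f fun n => congrFun hf n

/-- The Sturm bound `⌊k * index / 12⌋` for `Γ₀(N)` in weight `k`. -/
noncomputable def sturmBound (N : ℕ) (k : ℤ) : ℕ := (k * (Gamma0 N).index).toNat / 12

/-- Truncation of the `q`-expansion at the Sturm bound, as a `ℂ`-linear map. -/
noncomputable def qCoeffTrunc (N : ℕ) (k : ℤ) :
    CuspForm (Gamma0 N) k →ₗ[ℂ] (Fin (sturmBound N k + 1) → ℂ) where
  toFun f i := qCoeff ⇑f i
  map_add' f g := funext fun i => Fermat.Agent.S49.qCoeff_add f g i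
  map_smul' c f := funext fun i => by
    simp only [RingHom.id_apply, Pi.smul_apply, smul_eq_mul]
    exact Fermat.Agent.S49.qCoeff_smul c f i

@[simp]
theorem qCoeffTrunc_apply (N : ℕ) (k : ℤ) (f : CuspForm (Gamma0 N) k)
    (i : Fin (sturmBound N k + 1)) : qCoeffTrunc N k f i = qCoeff ⇑f i := rfl

theorem qCoeffTrunc_injective (N : ℕ) [NeZero N] (k : ℤ) :
    Function.Injective (qCoeffTrunc N k) := by
  intro f g hfg
  apply P2MW.S_CuspForm_intLattice_fg.W3WsD.trunc_injective N k
  funext i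
  exact congrFun hfg i

/-- A cusp form on `Γ₀(N)` whose `q`-coefficients vanish up to the Sturm bound is zero. -/
theorem eq_zero_of_qCoeff_eq_zero_of_le (N : ℕ) [NeZero N] (k : ℤ)
    (f : CuspForm (Gamma0 N) k) (h : ∀ n, n ≤ sturmBound N k → qCoeff ⇑f n = 0) : f = 0 := by
  apply qCoeffTrunc_injective N k
  funext i
  rw [map_zero]
  exact h i (Nat.lt_succ_iff.mp i.2)

theorem finiteDimensional_cuspForm (N : ℕ) [NeZero N] (k : ℤ) :
    FiniteDimensional ℂ (CuspForm (CongruenceSubgroup.Gamma0 N) k) :=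
  FiniteDimensional.of_injective (qCoeffTrunc N k) (qCoeffTrunc_injective N k)

theorem finrank_cuspForm_le (N : ℕ) [NeZero N] (k : ℤ) :
    Module.finrank ℂ (CuspForm (CongruenceSubgroup.Gamma0 N) k) ≤ sturmBound N k + 1 := by
  have h := LinearMap.finrank_le_finrank_of_injective (qCoeffTrunc_injective N k)
  simpa using h

end Fermat.Agent.S23
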