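import Fermat.Agent.S23.Defs
import Fermat.Agent.S49.Basic

set_option autoImplicit false

namespace Fermat.Agent.S23

namespace HeckeCoeff

open ModularFormClass CongruenceSubgroup UpperHalfPlane Fermat.Agent.S49

variable {N : ℕ} [NeZero N]

/-- The space of weight two cusp forms of level `Gamma0 N`. -/
abbrev V (N : ℕ) := CuspForm (Gamma0 N) 2

/-- The Hecke algebra away from no primes. -/
noncomputable abbrev TT (N : ℕ) [NeZero N] : Subalgebra ℤ (Module.End ℂ (V N)) :=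
  CuspForm.heckeAlgebra N 2 (∅ : Set ℕ)

/-- `Claim n`: some Hecke operator shifts the `q`-coefficients at indices prime to `n` by `n`. -/
def Claim (N : ℕ) [NeZero N] (n : ℕ) : Prop :=
  ∃ t ∈ TT N, ∀ f : V N, ∀ m : ℕ, m.Coprime n → qCoeff ⇑(t f) m = qCoeff ⇑f (m * n)

omit [NeZero N] in
theorem qCoeff_sub (f g : V N) (n : ℕ) :
    qCoeff ⇑(f - g) n = qCoeff ⇑f n - qCoeff ⇑g n := by
  have h : f - g = f + (-1 : ℤ) • g := by simp [sub_eq_add_neg]
  rw [h, qCoeff_add, qCoeff_zsmul]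
  push_cast
  ring

theorem claim_one : Claim N 1 :=
  ⟨1, Subalgebra.one_mem _, fun f m _ => by simp⟩

theorem claim_mul {a b : ℕ} (hab : a.Coprime b) (ha : Claim N a) (hb : Claim N b) :
    Claim N (a * b) := by
  obtain ⟨ta, hta, ha⟩ := ha
  obtain ⟨tb, htb, hb⟩ := hb
  refine ⟨ta * tb, Subalgebra.mul_mem _ hta htb, fun f m hm => ?_⟩
  have hma : m.Coprime a := Nat.Coprime.coprime_mul_right_right hm
  have hmb : m.Coprime b := Nat.Coprime.coprime_mul_left_right hm
  rw [Module.End.mul_apply, ha (tb f) m hma, hb f (m * a) (Nat.Coprime.mul_left hmb hab),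
    mul_assoc]

/-- Powers of `U_p` for `p ∣ N`. -/
theorem claim_prime_pow_of_dvd {p : ℕ} (hp : p.Prime) (hpN : p ∣ N) (r : ℕ) :
    Claim N (p ^ r) := by
  refine ⟨(CuspForm.heckeULin 2 hpN) ^ r,
    Subalgebra.pow_mem _ (CuspForm.heckeULin_mem_heckeAlgebra hp hpN (by simp)) r,
    fun f m _ => ?_⟩
  clear ‹m.Coprime (p ^ r)›
  induction r generalizing f with
  | zero => simp
  | succ r ih =>
    rw [pow_succ, Module.End.mul_apply, ih, qCoeff_heckeULin hp hpN, pow_succ, mul_assoc]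

/-- The operators `T_{p^r}` for `p ∤ N`, defined by the usual recursion. -/
noncomputable def tpow {p : ℕ} (hp : p.Prime) (hpN : ¬ p ∣ N) : ℕ → Module.End ℂ (V N)
  | 0 => 1
  | 1 => CuspForm.heckeTLin 2 hp hpN
  | (r + 2) => tpow hp hpN (r + 1) * CuspForm.heckeTLin 2 hp hpN - (p : ℤ) • tpow hp hpN r

theorem tpow_mem {p : ℕ} (hp : p.Prime) (hpN : ¬ p ∣ N) : ∀ r, tpow hp hpN r ∈ TT N
  | 0 => Subalgebra.one_mem _
  | 1 => CuspForm.heckeTLin_mem_heckeAlgebra hp hpN (by simp)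
  | (r + 2) => by
    rw [tpow]
    exact Subalgebra.sub_mem _
      (Subalgebra.mul_mem _ (tpow_mem hp hpN (r + 1))
        (CuspForm.heckeTLin_mem_heckeAlgebra hp hpN (by simp)))
      (Subalgebra.zsmul_mem _ (tpow_mem hp hpN r) _)

omit [NeZero N] in
theorem qCoeff_tpow {p : ℕ} (hp : p.Prime) (hpN : ¬ p ∣ N) :
    ∀ (r : ℕ) (f : V N) (m : ℕ), m.Coprime p →
      qCoeff ⇑(tpow hp hpN r f) m = qCoeff ⇑f (m * p ^ r)
  | 0, f, m, _ => by simp [tpow]
  | 1, f, m, hm => by
    have hpm : ¬ p ∣ m := fun h => hp.one_lt.ne' (Nat.Coprime.eq_one_of_dvd hm.symm h)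
    rw [tpow, qCoeff_heckeTLin hp hpN, if_neg hpm, add_zero, pow_one]
  | (r + 2), f, m, hm => by
    have hdiv : p ∣ m * p ^ (r + 1) := Dvd.intro_left _ (by rw [pow_succ, mul_assoc])
    have hquot : m * p ^ (r + 1) / p = m * p ^ r := by
      rw [pow_succ, ← mul_assoc]
      exact Nat.mul_div_cancel _ hp.pos
    rw [tpow, LinearMap.sub_apply, qCoeff_sub, Module.End.mul_apply,
      qCoeff_tpow hp hpN (r + 1) _ m hm, LinearMap.smul_apply, qCoeff_zsmul,
      qCoeff_tpow hp hpN r f m hm, qCoeff_heckeTLin hp hpN, if_pos hdiv, hquot]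
    have : m * p ^ (r + 1) * p = m * p ^ (r + 2) := by ring
    rw [this]
    push_cast
    ring

theorem claim_prime_pow_of_not_dvd {p : ℕ} (hp : p.Prime) (hpN : ¬ p ∣ N) {r : ℕ}
    (hr : 0 < r) : Claim N (p ^ r) :=
  ⟨tpow hp hpN r, tpow_mem hp hpN r, fun f m hm =>
    qCoeff_tpow hp hpN r f m ((Nat.coprime_pow_right_iff hr m p).1 hm)⟩

theorem claim_of_pos : ∀ n : ℕ, 0 < n → Claim N n := by
  intro n
  induction n using Nat.recOnPosPrimePosCoprime with
  | prime_pow p r hp hr =>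
    intro _
    by_cases hpN : p ∣ N
    · exact claim_prime_pow_of_dvd hp hpN r
    · exact claim_prime_pow_of_not_dvd hp hpN hr
  | zero => intro h; exact absurd h (lt_irrefl 0)
  | one => intro _; exact claim_one
  | coprime a b ha hb hab iha ihb =>
    intro _
    exact claim_mul hab (iha (by omega)) (ihb (by omega))

/-- The `n`-th `q`-coefficient as a linear functional. -/
noncomputable def qCoeffDual (N : ℕ) (n : ℕ) : Module.Dual ℂ (V N) where
  toFun f := qCoeff ⇑f n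
  map_add' f g := qCoeff_add f g n
  map_smul' c f := by simpa using qCoeff_smul c f n

omit [NeZero N] in
@[simp] theorem qCoeffDual_apply (n : ℕ) (f : V N) : qCoeffDual N n f = qCoeff ⇑f n := rfl

/-- The pairing `t ↦ (f ↦ a_1 (t f))` from the Hecke algebra to the dual space. -/
noncomputable def heckePairing (N : ℕ) [NeZero N] : TT N →ₗ[ℤ] Module.Dual ℂ (V N) where
  toFun t := (qCoeffDual N 1).comp t.1
  map_add' s t := by
    ext f
    change qCoeff ⇑((s.1 + t.1) f) 1 = qCoeff ⇑(s.1 f) 1 + qCoeff ⇑(t.1 f) 1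
    rw [LinearMap.add_apply, qCoeff_add]
  map_smul' c t := by
    ext f
    change qCoeff ⇑((c • t.1) f) 1 = c • qCoeff ⇑(t.1 f) 1
    rw [LinearMap.smul_apply, qCoeff_zsmul, zsmul_eq_mul]

@[simp] theorem heckePairing_apply (t : TT N) (f : V N) :
    heckePairing N t f = qCoeff ⇑(t.1 f) 1 := rfl

end HeckeCoeff

open HeckeCoeff in
/-- Every `q`-coefficient functional `a_n` (`n ≥ 1`) is `a_1 ∘ t` for a Hecke operator `t`. -/
theorem exists_hecke_qCoeff {N : ℕ} [NeZero N] (n : ℕ) (hn : 1 ≤ n) :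
    ∃ t ∈ CuspForm.heckeAlgebra N 2 (∅ : Set ℕ),
      ∀ f : CuspForm (CongruenceSubgroup.Gamma0 N) 2,
        ModularFormClass.qCoeff f n = ModularFormClass.qCoeff (t f) 1 := by
  obtain ⟨t, ht, h⟩ := claim_of_pos (N := N) n hn
  refine ⟨t, ht, fun f => ?_⟩
  rw [h f 1 (Nat.coprime_one_left n), one_mul]

end Fermat.Agent.S23
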