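import Mathlib
import Fermat.Agent.S23.Defs
import Fermat.Agent.S49.Basic
import Fermat.Agent.S23.HeckeCoeff
import Fermat.Prelude.Def_CuspForm_HeckeAlgebra
import Fermat.Prelude.Def_CuspForm_IntegralStructure

set_option autoImplicit false

open UpperHalfPlane ModularForm
open scoped MatrixGroups ModularForm Manifold

namespace Fermat.Agent.S23

open ModularFormClass CongruenceSubgroup

namespace FinalAux

/-- Finitely many rational complex numbers have a common denominator. -/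
theorem exists_common_denominator (S : Finset ℂ) (hS : ∀ s ∈ S, ∃ r : ℚ, s = (r : ℂ)) :
    ∃ D : ℤ, D ≠ 0 ∧ ∀ s ∈ S, ∃ m : ℤ, (D : ℂ) * s = (m : ℂ) := by
  classical
  induction S using Finset.induction_on with
  | empty => exact ⟨1, one_ne_zero, fun s hs => absurd hs (Finset.notMem_empty s)⟩
  | insert a S _ ih =>
    obtain ⟨D', hD', hm'⟩ := ih fun s hs => hS s (Finset.mem_insert_of_mem hs)
    obtain ⟨r, hr⟩ := hS a (Finset.mem_insert_self a S)
    refine ⟨(r.den : ℤ) * D', mul_ne_zero (by exact_mod_cast r.den_ne_zero) hD', fun s hs => ?_⟩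
    rcases Finset.mem_insert.mp hs with rfl | hs
    · refine ⟨D' * r.num, ?_⟩
      have h1 : ((r.den : ℂ)) * (r : ℂ) = (r.num : ℂ) := by
        have h2 : ((r.den : ℚ)) * r = (r.num : ℚ) := by
          rw [mul_comm]; exact Rat.mul_den_eq_num r
        exact_mod_cast h2
      rw [hr]
      push_cast
      rw [mul_right_comm, h1]
      ring
    · obtain ⟨m, hm⟩ := hm' s hs
      refine ⟨(r.den : ℤ) * m, ?_⟩
      push_cast
      rw [mul_assoc, hm]

/-- A finitely generated `ℤ`-submodule of `ℂ` consisting of rational numbers has a common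
denominator. -/
theorem exists_common_denominator_of_fg (Λ : Submodule ℤ ℂ) (hfg : Λ.FG)
    (hrat : ∀ x ∈ Λ, ∃ r : ℚ, x = (r : ℂ)) :
    ∃ D : ℤ, D ≠ 0 ∧ ∀ x ∈ Λ, ∃ m : ℤ, (D : ℂ) * x = (m : ℂ) := by
  obtain ⟨S, hS⟩ := hfg
  have hSΛ : ∀ s ∈ S, s ∈ Λ := fun s hs => hS ▸ Submodule.subset_span hs
  obtain ⟨D, hD, hm⟩ := exists_common_denominator S fun s hs => hrat s (hSΛ s hs)
  refine ⟨D, hD, fun x hx => ?_⟩
  rw [← hS] at hx
  induction hx using Submodule.span_induction with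
  | mem s hs => exact hm s hs
  | zero => exact ⟨0, by simp⟩
  | add x y _ _ hx hy =>
    obtain ⟨a, ha⟩ := hx
    obtain ⟨b, hb⟩ := hy
    exact ⟨a + b, by rw [mul_add, ha, hb]; push_cast; ring⟩
  | smul c x _ hx =>
    obtain ⟨a, ha⟩ := hx
    refine ⟨c * a, ?_⟩
    rw [zsmul_eq_mul, mul_left_comm, ha]
    push_cast
    ring

end FinalAux

variable {N : ℕ}

/-- The `ℤ`-linear functional `t ↦ a₁(t f)` on the Hecke algebra. -/
noncomputable def heckeCoeffOne (N : ℕ) [NeZero N] (f : CuspForm (Gamma0 N) 2) :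
    CuspForm.heckeAlgebra N 2 (∅ : Set ℕ) →ₗ[ℤ] ℂ where
  toFun t := qCoeff ⇑((t : Module.End ℂ (CuspForm (Gamma0 N) 2)) f) 1
  map_add' s t := by
    show qCoeff ⇑(((s + t : CuspForm.heckeAlgebra N 2 (∅ : Set ℕ)) :
      Module.End ℂ (CuspForm (Gamma0 N) 2)) f) 1 = _
    rw [Subalgebra.coe_add, LinearMap.add_apply, Fermat.Agent.S49.qCoeff_add]
  map_smul' c t := by
    show qCoeff ⇑(((c • t : CuspForm.heckeAlgebra N 2 (∅ : Set ℕ)) :
      Module.End ℂ (CuspForm (Gamma0 N) 2)) f) 1 = _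
    rw [Subalgebra.coe_smul, LinearMap.smul_apply, Fermat.Agent.S49.qCoeff_zsmul]
    simp

@[simp]
theorem heckeCoeffOne_apply [NeZero N] (f : CuspForm (Gamma0 N) 2)
    (t : CuspForm.heckeAlgebra N 2 (∅ : Set ℕ)) :
    heckeCoeffOne N f t = qCoeff ⇑((t : Module.End ℂ (CuspForm (Gamma0 N) 2)) f) 1 := rfl

/-- If the Hecke algebra is a finite `ℤ`-module and every coefficient functional `aₙ` (`n ≥ 1`)
is of the form `a₁ ∘ t` with `t` in the Hecke algebra, then a cusp form with rational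
`q`-expansion has bounded denominators. -/
theorem exists_denominator [NeZero N]
    (hfin : Module.Finite ℤ (CuspForm.heckeAlgebra N 2 (∅ : Set ℕ)))
    (hcoeff : ∀ n : ℕ, 1 ≤ n → ∃ t ∈ CuspForm.heckeAlgebra N 2 (∅ : Set ℕ),
      ∀ g : CuspForm (Gamma0 N) 2, qCoeff ⇑g n = qCoeff ⇑(t g) 1)
    (f : CuspForm (Gamma0 N) 2) (hf : ∀ n, ∃ r : ℚ, qCoeff ⇑f n = (r : ℂ)) :
    ∃ D : ℤ, D ≠ 0 ∧ ∀ n, ∃ m : ℤ, (D : ℂ) * qCoeff ⇑f n = (m : ℂ) := by
  set Λ : Submodule ℤ ℂ := Submodule.span ℤ (Set.range fun n => qCoeff ⇑f n) with hΛ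
  have hle : Λ ≤ LinearMap.range (heckeCoeffOne N f) := by
    rw [hΛ, Submodule.span_le]
    rintro _ ⟨n, rfl⟩
    show qCoeff ⇑f n ∈ LinearMap.range (heckeCoeffOne N f)
    rcases Nat.eq_zero_or_pos n with rfl | hn
    · rw [Fermat.Agent.S49.qCoeff_cusp_zero]
      exact Submodule.zero_mem _
    · obtain ⟨t, ht, htf⟩ := hcoeff n hn
      exact ⟨⟨t, ht⟩, (htf f).symm⟩
  have hrfg : (LinearMap.range (heckeCoeffOne N f)).FG := by
    rw [LinearMap.range_eq_map]
    exact (Module.Finite.fg_top).map _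
  have hfg : Λ.FG := hrfg.of_le hle
  have hrat : ∀ x ∈ Λ, ∃ r : ℚ, x = (r : ℂ) := by
    intro x hx
    rw [hΛ] at hx
    induction hx using Submodule.span_induction with
    | mem s hs =>
      obtain ⟨n, rfl⟩ := hs
      exact hf n
    | zero => exact ⟨0, by simp⟩
    | add x y _ _ hx hy =>
      obtain ⟨a, ha⟩ := hx
      obtain ⟨b, hb⟩ := hy
      exact ⟨a + b, by rw [ha, hb]; push_cast; ring⟩
    | smul c x _ hx =>
      obtain ⟨a, ha⟩ := hx
      exact ⟨c * a, by rw [zsmul_eq_mul, ha]; push_cast; ring⟩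
  obtain ⟨D, hD, hm⟩ := FinalAux.exists_common_denominator_of_fg Λ hfg hrat
  exact ⟨D, hD, fun n => hm _ (Submodule.subset_span ⟨n, rfl⟩)⟩

/-- Bounded denominators: a cusp form with rational `q`-expansion lies in the `ℂ`-span of the
integral lattice. -/
theorem mem_span_intLattice_of_rational [NeZero N]
    (hfin : Module.Finite ℤ (CuspForm.heckeAlgebra N 2 (∅ : Set ℕ)))
    (hcoeff : ∀ n : ℕ, 1 ≤ n → ∃ t ∈ CuspForm.heckeAlgebra N 2 (∅ : Set ℕ),
      ∀ g : CuspForm (Gamma0 N) 2, qCoeff ⇑g n = qCoeff ⇑(t g) 1)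
    (f : CuspForm (Gamma0 N) 2) (hf : ∀ n, ∃ r : ℚ, qCoeff ⇑f n = (r : ℂ)) :
    f ∈ Submodule.span ℂ ((CuspForm.intLattice N 2 :
      Submodule ℤ (CuspForm (Gamma0 N) 2)) : Set (CuspForm (Gamma0 N) 2)) := by
  obtain ⟨D, hD, hm⟩ := exists_denominator hfin hcoeff f hf
  have hDf : (D • f) ∈ CuspForm.intLattice N 2 := by
    refine Submodule.subset_span fun n => ?_
    obtain ⟨m, hm⟩ := hm n
    exact ⟨m, by rw [Fermat.Agent.S49.qCoeff_zsmul, hm]⟩
  have hDC : (D : ℂ) ≠ 0 := by exact_mod_cast hD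
  have hfeq : f = (D : ℂ)⁻¹ • (D • f) := by
    rw [← Int.cast_smul_eq_zsmul ℂ D f, smul_smul, inv_mul_cancel₀ hDC, one_smul]
  rw [hfeq]
  exact Submodule.smul_mem _ _ (Submodule.subset_span hDf)

/-- FINAL (with the coefficient functionals as an explicit hypothesis): finiteness of the Hecke
algebra plus a rational structure gives an integral structure. -/
theorem final_of_coeff (N : ℕ) [NeZero N]
    (hfin : Module.Finite ℤ (CuspForm.heckeAlgebra N 2 (∅ : Set ℕ)))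
    (hcoeff : ∀ n : ℕ, 1 ≤ n → ∃ t ∈ CuspForm.heckeAlgebra N 2 (∅ : Set ℕ),
      ∀ g : CuspForm (CongruenceSubgroup.Gamma0 N) 2, qCoeff ⇑g n = qCoeff ⇑(t g) 1)
    (hrat : Submodule.span ℂ {f : CuspForm (CongruenceSubgroup.Gamma0 N) 2 |
      ∀ n, ∃ r : ℚ, ModularFormClass.qCoeff f n = (r : ℂ)} = ⊤) :
    CuspForm.HasIntegralStructure N 2 := by
  unfold CuspForm.HasIntegralStructure
  rw [eq_top_iff, ← hrat, Submodule.span_le]
  intro f hf
  exact mem_span_intLattice_of_rational hfin hcoeff f hf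

/-- Every coefficient functional `aₙ` (`n ≥ 1`) is `a₁ ∘ τ` for some `τ` in the Hecke algebra
(restatement of `exists_hecke_qCoeff` in the orientation of the posted blueprint). -/
theorem exists_hecke_coeff (N : ℕ) [NeZero N] (n : ℕ) (hn : 1 ≤ n) :
    ∃ τ ∈ CuspForm.heckeAlgebra N 2 (∅ : Set ℕ),
      ∀ g : CuspForm (CongruenceSubgroup.Gamma0 N) 2,
        ModularFormClass.qCoeff (τ g) 1 = ModularFormClass.qCoeff g n := by
  obtain ⟨t, ht, h⟩ := exists_hecke_qCoeff (N := N) n hn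
  exact ⟨t, ht, fun g => (h g).symm⟩

/-- FINAL: finiteness of the Hecke algebra over `ℤ` plus a rational structure on `S₂(Γ₀(N))`
gives an integral structure. -/
theorem final (N : ℕ) [NeZero N]
    (hfin : Module.Finite ℤ (CuspForm.heckeAlgebra N 2 (∅ : Set ℕ)))
    (hrat : Submodule.span ℂ {f : CuspForm (CongruenceSubgroup.Gamma0 N) 2 |
      ∀ n, ∃ r : ℚ, ModularFormClass.qCoeff f n = (r : ℂ)} = ⊤) :
    CuspForm.HasIntegralStructure N 2 :=
  final_of_coeff N hfin (fun n hn => exists_hecke_qCoeff (N := N) n hn) hrat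

end Fermat.Agent.S23
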