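import Mathlib
import Fermat.Agent.S23.AutC

set_option autoImplicit false

namespace Fermat.Agent.S23

open Module

namespace Descent

variable {ι : Type*}

/-- The evaluation functional at `i` on a subspace of functions. -/
def evalOn (W : Submodule ℂ (ι → ℂ)) (i : ι) : Module.Dual ℂ W :=
  (LinearMap.proj i).comp W.subtype

@[simp] theorem evalOn_apply (W : Submodule ℂ (ι → ℂ)) (i : ι) (w : W) :
    evalOn W i w = (w : ι → ℂ) i := rfl

theorem span_range_evalOn_eq_top (W : Submodule ℂ (ι → ℂ)) [FiniteDimensional ℂ W] :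
    Submodule.span ℂ (Set.range (evalOn W)) = ⊤ := by
  have h : (Submodule.span ℂ (Set.range (evalOn W))).dualCoannihilator = ⊥ := by
    rw [eq_bot_iff]
    intro w hw
    rw [Submodule.mem_dualCoannihilator] at hw
    rw [Submodule.mem_bot]
    apply Subtype.ext
    funext i
    exact hw (evalOn W i) (Submodule.subset_span ⟨i, rfl⟩)
  rw [← Subspace.dualCoannihilator_dualAnnihilator_eq
    (W := Submodule.span ℂ (Set.range (evalOn W))), h, Submodule.dualAnnihilator_bot]

/-- Descent: a finite-dimensional space of complex-valued functions which is stable under all ring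
automorphisms of `ℂ` is spanned by its rational-valued members. Here the fact that every
non-rational complex number is moved by some automorphism is a hypothesis. -/
theorem le_span_rational_of_stable_of_fix
    (hfix : ∀ x : ℂ, x ∉ Set.range ((↑) : ℚ → ℂ) → ∃ σ : ℂ ≃+* ℂ, σ x ≠ x)
    (W : Submodule ℂ (ι → ℂ)) [FiniteDimensional ℂ W]
    (hW : ∀ σ : ℂ ≃+* ℂ, ∀ w ∈ W, (fun i => σ (w i)) ∈ W) :
    W ≤ Submodule.span ℂ {w | w ∈ W ∧ ∀ i, ∃ r : ℚ, w i = (r : ℂ)} := by
  classical
  -- a basis of the dual consisting of evaluations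
  have hspan : ⊤ ≤ Submodule.span ℂ (Set.range (evalOn W)) := (span_range_evalOn_eq_top W).ge
  obtain ⟨κ, _, e, he⟩ : ∃ (κ : Type _) (_ : Fintype κ) (e : Basis κ ℂ (Module.Dual ℂ W)),
      ∀ l, ∃ i, evalOn W i = e l := by
    let e₀ := Basis.ofSpan hspan
    have : Finite _ := Module.Finite.finite_basis e₀
    exact ⟨_, Fintype.ofFinite _, e₀, fun l => Basis.ofSpan_subset hspan ⟨l, rfl⟩⟩
  choose idx hidx using he
  -- dual basis in `W`
  let w : κ → W := fun j => (Module.evalEquiv ℂ W).symm (e.dualBasis j)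
  have hw : ∀ j l, ((w j : W) : ι → ℂ) (idx l) = if l = j then 1 else 0 := by
    intro j l
    have h1 : e l (w j) = (e.dualBasis j) (e l) := by
      have := Module.apply_evalEquiv_symm_apply (R := ℂ) (M := W) (e l) (e.dualBasis j)
      exact this
    rw [← evalOn_apply, hidx l, h1, Basis.dualBasis_apply_self]
  -- points of `W` are determined by their values at the `idx l`
  have hdet : ∀ x y : W, (∀ l, (x : ι → ℂ) (idx l) = (y : ι → ℂ) (idx l)) → x = y := by
    intro x y hxy
    have h0 : ∀ φ : Module.Dual ℂ W, φ x = φ y := by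
      intro φ
      have hφ : φ ∈ Submodule.span ℂ (Set.range e) := by rw [e.span_eq]; trivial
      induction hφ using Submodule.span_induction with
      | mem ψ hψ =>
        obtain ⟨l, rfl⟩ := hψ
        rw [← hidx l]
        exact hxy l
      | zero => simp
      | add a b _ _ ha hb => simp [ha, hb]
      | smul c a _ ha => simp [ha]
    apply Subtype.ext
    funext i
    exact h0 (evalOn W i)
  -- each `w j` is fixed by all automorphisms
  have hwfix : ∀ (σ : ℂ ≃+* ℂ) j i, σ (((w j : W) : ι → ℂ) i) = ((w j : W) : ι → ℂ) i := by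
    intro σ j i
    have hmem := hW σ (w j) (w j).2
    have := hdet ⟨_, hmem⟩ (w j) (fun l => by
      show σ (((w j : W) : ι → ℂ) (idx l)) = ((w j : W) : ι → ℂ) (idx l)
      rw [hw]
      split_ifs <;> simp)
    exact congrFun (congrArg Subtype.val this) i
  have hwrat : ∀ j i, ∃ r : ℚ, ((w j : W) : ι → ℂ) i = (r : ℂ) := by
    intro j i
    by_contra hcon
    have hx : ((w j : W) : ι → ℂ) i ∉ Set.range ((↑) : ℚ → ℂ) := by
      rintro ⟨r, hr⟩
      exact hcon ⟨r, hr.symm⟩
    obtain ⟨σ, hσ⟩ := hfix _ hx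
    exact hσ (hwfix σ j i)
  -- the `w j` span `W`
  intro x hx
  have hx' : (⟨x, hx⟩ : W) = ∑ l, (x (idx l)) • w l := by
    apply hdet
    intro l
    simp only [Submodule.coe_sum, Submodule.coe_smul, Finset.sum_apply, Pi.smul_apply, hw,
      smul_eq_mul, mul_ite, mul_one, mul_zero, Finset.sum_ite_eq, Finset.mem_univ, if_true]
  have hx'' : x = ∑ l, (x (idx l)) • ((w l : W) : ι → ℂ) := by
    have := congrArg Subtype.val hx'
    simpa using this
  rw [hx'']
  exact Submodule.sum_mem _ fun l _ =>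
    Submodule.smul_mem _ _ (Submodule.subset_span ⟨(w l).2, hwrat l⟩)

/-- Power series version of the descent statement (stability under all ring endomorphisms). -/
theorem descent_of_fix
    (hfix : ∀ x : ℂ, x ∉ Set.range ((↑) : ℚ → ℂ) → ∃ σ : ℂ ≃+* ℂ, σ x ≠ x)
    (W : Submodule ℂ (PowerSeries ℂ)) [FiniteDimensional ℂ W]
    (hW : ∀ σ : ℂ →+* ℂ, ∀ p ∈ W, p.map σ ∈ W) :
    W ≤ Submodule.span ℂ {p | p ∈ W ∧ ∀ n, ∃ r : ℚ, PowerSeries.coeff n p = (r : ℂ)} := by
  let W' : Submodule ℂ ((Unit →₀ ℕ) → ℂ) := W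
  have hfd : FiniteDimensional ℂ W' := ‹FiniteDimensional ℂ W›
  have hW' : ∀ σ : ℂ ≃+* ℂ, ∀ w ∈ W', (fun i => σ (w i)) ∈ W' := by
    intro σ w hw
    exact hW (σ : ℂ →+* ℂ) w hw
  have key := le_span_rational_of_stable_of_fix hfix W' hW'
  intro p hp
  have hp' := key hp
  refine Submodule.span_mono ?_ hp'
  rintro w ⟨hw, hrat⟩
  refine ⟨hw, fun n => ?_⟩
  exact hrat (Finsupp.single () n)

end Descent

/-- Descent (task T23-C2): a finite-dimensional space of complex-valued functions which is stable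
under all ring automorphisms of `ℂ` is spanned by its rational-valued members. -/
theorem le_span_rational_of_stable {ι : Type*} (W : Submodule ℂ (ι → ℂ)) [FiniteDimensional ℂ W]
    (hW : ∀ σ : ℂ ≃+* ℂ, ∀ w ∈ W, (fun i => σ (w i)) ∈ W) :
    W ≤ Submodule.span ℂ {w | w ∈ W ∧ ∀ i, ∃ r : ℚ, w i = (r : ℂ)} :=
  Descent.le_span_rational_of_stable_of_fix exists_ringEquiv_apply_ne W hW

/-- Ring-endomorphism form of `exists_ringEquiv_apply_ne` (task 14). -/
theorem exists_ringHom_ne (x : ℂ) (hx : ∀ r : ℚ, x ≠ r) : ∃ σ : ℂ →+* ℂ, σ x ≠ x := by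
  obtain ⟨σ, hσ⟩ := exists_ringEquiv_apply_ne x (by rintro ⟨r, hr⟩; exact hx r hr.symm)
  exact ⟨(σ : ℂ →+* ℂ), hσ⟩

/-- Descent for finite-dimensional subspaces of `ℂ⟦q⟧` stable under coefficientwise ring
endomorphisms (task 14). -/
theorem descent (W : Submodule ℂ (PowerSeries ℂ)) [FiniteDimensional ℂ W]
    (hW : ∀ σ : ℂ →+* ℂ, ∀ p ∈ W, p.map σ ∈ W) :
    W ≤ Submodule.span ℂ {p | p ∈ W ∧ ∀ n, ∃ r : ℚ, PowerSeries.coeff n p = (r : ℂ)} :=
  Descent.descent_of_fix exists_ringEquiv_apply_ne W hW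

end Fermat.Agent.S23
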