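import Fermat.Agent.S23.FinDim
import Fermat.Agent.S23.Descent
import Fermat.Agent.S23.AutC

set_option autoImplicit false

open UpperHalfPlane ModularForm ModularFormClass CongruenceSubgroup
open scoped MatrixGroups ModularForm Manifold

namespace Fermat.Agent.S23

/-- If the space of cusp forms is stable under all automorphisms of `ℂ` acting on
`q`-expansion coefficients, then it is spanned by the forms with rational coefficients. -/
theorem rational_span_of_conj (N : ℕ) [NeZero N] (k : ℤ)
    (hconj : ∀ (σ : ℂ ≃+* ℂ) (f : CuspForm (Gamma0 N) k),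
      ∃ g : CuspForm (Gamma0 N) k, ∀ n, qCoeff g n = σ (qCoeff f n)) :
    Submodule.span ℂ {f : CuspForm (Gamma0 N) k | ∀ n, ∃ r : ℚ, qCoeff f n = (r : ℂ)} = ⊤ := by
  have := finiteDimensional_cuspForm N k
  set Q := qCoeffLin N k with hQ
  set W : Submodule ℂ (ℕ → ℂ) := LinearMap.range Q with hW
  have : FiniteDimensional ℂ W := by
    rw [hW]; infer_instance
  have hstab : ∀ σ : ℂ ≃+* ℂ, ∀ w ∈ W, (fun i => σ (w i)) ∈ W := by
    rintro σ w ⟨f, rfl⟩
    obtain ⟨g, hg⟩ := hconj σ f
    exact ⟨g, funext fun n => hg n⟩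
  have hdesc := Descent.le_span_rational_of_stable_of_fix exists_ringEquiv_apply_ne W hstab
  rw [eq_top_iff]
  intro f _
  have hf : Q f ∈ W := ⟨f, rfl⟩
  have h1 := hdesc hf
  -- the rational points of `W` are the image of the rational forms
  have himg : {w | w ∈ W ∧ ∀ i, ∃ r : ℚ, w i = (r : ℂ)} ⊆
      Q '' {f : CuspForm (Gamma0 N) k | ∀ n, ∃ r : ℚ, qCoeff f n = (r : ℂ)} := by
    rintro w ⟨⟨g, rfl⟩, hw⟩
    exact ⟨g, fun n => hw n, rfl⟩
  have h2 := Submodule.span_mono himg h1
  rw [Submodule.span_image] at h2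
  obtain ⟨f', hf', hff'⟩ := h2
  have : f' = f := qCoeffLin_injective N k hff'
  rw [← this]
  exact hf'

end Fermat.Agent.S23
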