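import Fermat.Agent.S23.Assembly
import Fermat.Agent.S23.RationalSpan
import Fermat.Agent.S23.LevelOneConj
import Fermat.Agent.S23.Analytic
import Fermat.Agent.S23.Lagrange
import Fermat.Agent.S23.Final
import Fermat.Agent.S23.FormT

set_option autoImplicit false

open UpperHalfPlane ModularForm ModularFormClass CongruenceSubgroup
open scoped MatrixGroups ModularForm Manifold

namespace Fermat.Agent.S23

/-- The interface statement L1 holds (helper26's `levelOne_conj`). -/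
theorem l1Statement (σ : ℂ →+* ℂ) : L1Statement σ := fun hg => levelOne_conj σ hg

/-- The interface statement AN holds for `G0 N` (helper7's `exists_div_of_integral`). -/
theorem anStatement (N : ℕ) [NeZero N] : ANStatement N :=
  fun h𝒩 h𝒟 h0 c hc0 hc hrel => exists_div_of_integral h𝒩 h𝒟 h0 c hc0 hc hrel

/-- **MAIN**, relative to a separating form `T`: the space of cusp forms on `Γ₀(N)` is stable under
any ring endomorphism of `ℂ` acting on `q`-expansion coefficients. -/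
theorem cuspForm_conj_of_T {N : ℕ} [NeZero N] {k : ℤ} (σ : ℂ →+* ℂ)
    {w₀ : ℤ} {T : ℍ → ℂ} (hT : IsMF (G0 N) w₀ T)
    (hTrat : ∀ n, ∃ r : ℚ, PowerSeries.coeff n (qExpansion 1 T) = (r : ℂ))
    (hdist : ∀ γ ∈ 𝒮ℒ, γ ∉ G0 N → T ∣[w₀] γ ≠ T)
    {f : ℍ → ℂ} (hf : IsCF (G0 N) k f) :
    ∃ g : ℍ → ℂ, IsCF (G0 N) k g ∧ qExpansion 1 g = (qExpansion 1 f).map σ := by
  obtain ⟨m, b, hb, hb0, hlag⟩ := exists_lagrange (Γ := G0 N) hT hdist
  obtain ⟨a, ha, hfa⟩ := hlag hf.isMF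
  obtain ⟨μ, c, hc0, hc, hrel, hcz⟩ := exists_monic_relation (Γ := G0 N) hf.isMF
  exact cuspForm_conj_of σ (l1Statement σ) (anStatement N) hf hT hTrat hb hb0 ha hfa hc0 hc hrel
    (hcz hf)

/-- Separation hypothesis in the `SL(2, ℤ)`-shape implies the `𝒮ℒ`-shape. -/
theorem hdist_of_SL {N : ℕ} {w₀ : ℤ} {T : ℍ → ℂ}
    (hsep : ∀ γ : SL(2, ℤ), γ ∉ CongruenceSubgroup.Gamma0 N → T ∣[w₀] γ ≠ T) :
    ∀ γ ∈ 𝒮ℒ, γ ∉ G0 N → T ∣[w₀] γ ≠ T := by
  rintro _ ⟨γ, rfl⟩ hγ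
  have hγ' : γ ∉ CongruenceSubgroup.Gamma0 N := fun h => hγ (Subgroup.mem_map_of_mem _ h)
  exact hsep γ hγ'

/-- Bundled form of MAIN (coefficient version), relative to a separating form. -/
theorem cuspForm_conj_qCoeff_of_T {N : ℕ} [NeZero N] {k : ℤ}
    {w₀ : ℤ} {T : ℍ → ℂ} (hT : IsMF (G0 N) w₀ T)
    (hTrat : ∀ n, ∃ r : ℚ, PowerSeries.coeff n (qExpansion 1 T) = (r : ℂ))
    (hdist : ∀ γ ∈ 𝒮ℒ, γ ∉ G0 N → T ∣[w₀] γ ≠ T)
    (σ : ℂ ≃+* ℂ) (f : CuspForm (Gamma0 N) k) :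
    ∃ g : CuspForm (Gamma0 N) k, ∀ n, qCoeff g n = σ (qCoeff f n) := by
  obtain ⟨g, ⟨G, rfl⟩, hg⟩ := cuspForm_conj_of_T (σ : ℂ →+* ℂ) hT hTrat hdist
    (f := (f : ℍ → ℂ)) ⟨f, rfl⟩
  refine ⟨G, fun n => ?_⟩
  have := congrArg (PowerSeries.coeff n) hg
  simpa [qCoeff] using this

/-- **RS**, relative to a separating form: the cusp forms with rational `q`-expansion span. -/
theorem rational_span_of_T {N : ℕ} [NeZero N] (k : ℤ)
    {w₀ : ℤ} {T : ℍ → ℂ} (hT : IsMF (G0 N) w₀ T)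
    (hTrat : ∀ n, ∃ r : ℚ, PowerSeries.coeff n (qExpansion 1 T) = (r : ℂ))
    (hdist : ∀ γ ∈ 𝒮ℒ, γ ∉ G0 N → T ∣[w₀] γ ≠ T) :
    Submodule.span ℂ {f : CuspForm (Gamma0 N) k | ∀ n, ∃ r : ℚ, qCoeff f n = (r : ℂ)} = ⊤ :=
  rational_span_of_conj N k (cuspForm_conj_qCoeff_of_T hT hTrat hdist)

/-- **S23 relative to a separating form and S22.** -/
theorem hasIntegralStructure_of_T (N : ℕ) [NeZero N]
    (hfin : Module.Finite ℤ (CuspForm.heckeAlgebra N 2 (∅ : Set ℕ)))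
    {w₀ : ℤ} {T : ℍ → ℂ} (hT : IsMF (G0 N) w₀ T)
    (hTrat : ∀ n, ∃ r : ℚ, PowerSeries.coeff n (qExpansion 1 T) = (r : ℂ))
    (hdist : ∀ γ ∈ 𝒮ℒ, γ ∉ G0 N → T ∣[w₀] γ ≠ T) :
    CuspForm.HasIntegralStructure N 2 :=
  final N hfin (rational_span_of_T 2 hT hTrat hdist)

/-- **MAIN**: cusp forms on `Γ₀(N)` are stable under ring endomorphisms of `ℂ` acting on
`q`-expansion coefficients. -/
theorem cuspForm_conj_unbundled {N : ℕ} [NeZero N] {k : ℤ} (σ : ℂ →+* ℂ)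
    {f : ℍ → ℂ} (hf : IsCF (G0 N) k f) :
    ∃ g : ℍ → ℂ, IsCF (G0 N) k g ∧ qExpansion 1 g = (qExpansion 1 f).map σ := by
  obtain ⟨w₀, T, hT, hTrat, hdist⟩ := exists_T N
  exact cuspForm_conj_of_T σ hT hTrat hdist hf

/-- **RS**: the cusp forms on `Γ₀(N)` with rational `q`-expansion span the whole space. -/
theorem rational_span_cuspForm (N : ℕ) [NeZero N] (k : ℤ) :
    Submodule.span ℂ {f : CuspForm (Gamma0 N) k | ∀ n, ∃ r : ℚ, qCoeff f n = (r : ℂ)} = ⊤ := by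
  obtain ⟨w₀, T, hT, hTrat, hdist⟩ := exists_T N
  exact rational_span_of_T k hT hTrat hdist

/-- **S23 relative to S22.** -/
theorem hasIntegralStructure_of_finite (N : ℕ) [NeZero N]
    (hfin : Module.Finite ℤ (CuspForm.heckeAlgebra N 2 (∅ : Set ℕ))) :
    CuspForm.HasIntegralStructure N 2 :=
  final N hfin (rational_span_cuspForm N 2)

end Fermat.Agent.S23
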