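import Mathlib.RingTheory.Polynomial.Vieta
import Fermat.Agent.S23.Basic

set_option autoImplicit false
set_option linter.unusedSectionVars false

open UpperHalfPlane ModularForm SlashInvariantForm
open scoped MatrixGroups ModularForm Manifold

namespace Fermat.Agent.S23

/-- sum over `j`-subsets is invariant under a permutation of the index type. -/
lemma sum_powersetCard_perm {ι M : Type*} [Fintype ι] [AddCommMonoid M]
    (e : Equiv.Perm ι) (j : ℕ) (g : Finset ι → M) :
    ∑ S ∈ Finset.powersetCard j (Finset.univ : Finset ι), g (S.map e.toEmbedding) =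
      ∑ S ∈ Finset.powersetCard j (Finset.univ : Finset ι), g S := by
  have h1 : (Finset.powersetCard j (Finset.univ : Finset ι)).map
      (Finset.mapEmbedding e.toEmbedding).toEmbedding =
      Finset.powersetCard j (Finset.univ : Finset ι) := by
    rw [← Finset.powersetCard_map, Finset.map_univ_equiv]
  conv_rhs => rw [← h1]
  rw [Finset.sum_map]
  rfl

variable {Γ : Subgroup (GL (Fin 2) ℝ)} [Γ.IsArithmetic] {k : ℤ}

local notation "𝒬" => 𝒮ℒ ⧸ (Γ.subgroupOf 𝒮ℒ)

noncomputable local instance : Fintype 𝒬 := Fintype.ofFinite 𝒬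

/-- The `j`-th elementary symmetric function of the `𝒮ℒ`-conjugates of `F`. -/
noncomputable def esymmFun (F : ModularForm Γ k) (j : ℕ) : ℍ → ℂ :=
  ∑ S ∈ Finset.powersetCard j (Finset.univ : Finset 𝒬), ∏ q ∈ S, quotientFunc F q

lemma mdiff_quotientFunc (F : ModularForm Γ k) (q : 𝒬) : MDiff (quotientFunc F q) := by
  induction q using Quotient.inductionOn with
  | h r => exact (ModularForm.translate F r.val⁻¹).holo'

lemma isBoundedAtImInfty_quotientFunc_slash (F : ModularForm Γ k) (q : 𝒬) (γ : SL(2, ℤ)) :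
    IsBoundedAtImInfty (quotientFunc F q ∣[k] γ) := by
  induction q using Quotient.inductionOn with
  | h r =>
    obtain ⟨r, ⟨r₀, rfl⟩⟩ := r
    have : quotientFunc F (⟦⟨Matrix.SpecialLinearGroup.mapGL ℝ r₀, ⟨r₀, rfl⟩⟩⟧ : 𝒬) =
        (F : ℍ → ℂ) ∣[k] (r₀⁻¹ : SL(2, ℤ)) := by
      rw [quotientFunc_mk, ModularForm.SL_slash]
      show _ = (F : ℍ → ℂ) ∣[k] (Matrix.SpecialLinearGroup.mapGL ℝ r₀⁻¹)
      rw [map_inv]
    rw [this, ← SlashAction.slash_mul]
    exact ModularFormClass.bdd_at_infty_slash F _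


lemma esymmFun_slash (F : ModularForm Γ k) (j : ℕ) {h : GL (Fin 2) ℝ} (hh : h ∈ 𝒮ℒ) :
    esymmFun F j ∣[(j : ℤ) * k] h = esymmFun F j := by
  unfold esymmFun
  rw [SlashAction.sum_slash]
  have key : ∀ S ∈ Finset.powersetCard j (Finset.univ : Finset 𝒬),
      (∏ q ∈ S, quotientFunc F q) ∣[(j : ℤ) * k] h =
        ∏ q ∈ S.map (MulAction.toPerm (⟨h, hh⟩⁻¹ : 𝒮ℒ) : Equiv.Perm 𝒬).toEmbedding, quotientFunc F q := by
    intro S hS
    have hcard : S.card = j := (Finset.mem_powersetCard.mp hS).2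
    rw [show (j : ℤ) * k = k * (S.card : ℤ) by rw [hcard]; ring, ModularForm.prod_slash,
      Subgroup.HasDetPlusMinusOne.abs_det hh, one_zpow, one_smul, Finset.prod_map]
    refine Finset.prod_congr rfl fun q _ => ?_
    rw [quotientFunc_smul F hh]
    rfl
  rw [Finset.sum_congr rfl key]
  exact sum_powersetCard_perm _ j (fun S => ∏ q ∈ S, quotientFunc F q)


lemma mdiff_esymmFun (F : ModularForm Γ k) (j : ℕ) : MDiff (esymmFun F j) := by
  unfold esymmFun
  exact MDifferentiable.sum fun S _ => MDifferentiable.prod fun q _ => mdiff_quotientFunc F q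

lemma isBoundedAtImInfty_esymmFun (F : ModularForm Γ k) (j : ℕ) :
    IsBoundedAtImInfty (esymmFun F j) := by
  unfold esymmFun
  refine (Filter.boundedFilterSubalgebra ℂ atImInfty).sum_mem fun S _ => ?_
  refine Filter.BoundedAtFilter.prod S fun q _ => ?_
  have := isBoundedAtImInfty_quotientFunc_slash F q 1
  simpa [IsBoundedAtImInfty] using this

/-- The elementary symmetric functions of the conjugates, as level one modular forms. -/
noncomputable def esymmMF (F : ModularForm Γ k) (j : ℕ) : ModularForm 𝒮ℒ ((j : ℤ) * k) where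
  toFun := esymmFun F j
  slash_action_eq' h hh := esymmFun_slash F j hh
  holo' := mdiff_esymmFun F j
  bdd_at_cusps' {c} hc := by
    rw [OnePoint.isBoundedAt_iff_forall_SL2Z hc]
    intro γ _
    rw [ModularForm.SL_slash, esymmFun_slash F j (⟨γ, rfl⟩ : (γ : GL (Fin 2) ℝ) ∈ 𝒮ℒ)]
    exact isBoundedAtImInfty_esymmFun F j

lemma isMF_esymmFun (F : ModularForm Γ k) (j : ℕ) : IsMF 𝒮ℒ ((j : ℤ) * k) (esymmFun F j) :=
  ⟨esymmMF F j, rfl⟩


lemma quotientFunc_one (F : ModularForm Γ k) : quotientFunc F ((1 : 𝒮ℒ) : 𝒬) = F := by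
  show quotientFunc F ⟦(1 : 𝒮ℒ)⟧ = F
  rw [quotientFunc_mk]
  simp

lemma esymmFun_apply (F : ModularForm Γ k) (j : ℕ) (z : ℍ) :
    esymmFun F j z =
      ((Finset.univ : Finset 𝒬).val.map fun q => quotientFunc F q z).esymm j := by
  rw [Finset.esymm_map_val]
  simp [esymmFun, Finset.sum_apply, Finset.prod_apply]

/-- The monic relation satisfied by `F` over the level one ring. -/
lemma sum_esymmFun_mul_pow (F : ModularForm Γ k) :
    ∑ j ∈ Finset.range (Fintype.card 𝒬 + 1),
      ((-1 : ℂ) ^ j • esymmFun F j) * (F : ℍ → ℂ) ^ (Fintype.card 𝒬 - j) = 0 := by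
  funext z
  set s : Multiset ℂ := (Finset.univ : Finset 𝒬).val.map fun q => quotientFunc F q z with hs
  have hcard : s.card = Fintype.card 𝒬 := by simp [hs]
  have hmem : F z ∈ s := by
    rw [hs, Multiset.mem_map]
    exact ⟨((1 : 𝒮ℒ) : 𝒬), Finset.mem_univ _, by rw [quotientFunc_one]⟩
  have h := congrArg (Polynomial.eval (F z)) (Multiset.prod_X_sub_X_eq_sum_esymm s)
  have h0 : Polynomial.eval (F z) (s.map fun t => Polynomial.X - Polynomial.C t).prod = 0 := by
    rw [Polynomial.eval_multiset_prod]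
    refine Multiset.prod_eq_zero ?_
    rw [Multiset.mem_map]
    refine ⟨Polynomial.X - Polynomial.C (F z), Multiset.mem_map.mpr ⟨F z, hmem, rfl⟩, by simp⟩
  rw [h0, Polynomial.eval_finsetSum, hcard] at h
  rw [Finset.sum_apply, Pi.zero_apply, h]
  refine Finset.sum_congr rfl fun j _ => ?_
  simp [esymmFun_apply, hs, mul_assoc]


lemma isZeroAtImInfty_quotientFunc (F : CuspForm Γ k) (q : 𝒬) :
    IsZeroAtImInfty (quotientFunc F q) := by
  induction q using Quotient.inductionOn with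
  | h r =>
    obtain ⟨r, ⟨r₀, rfl⟩⟩ := r
    have : quotientFunc F (⟦⟨Matrix.SpecialLinearGroup.mapGL ℝ r₀, ⟨r₀, rfl⟩⟩⟧ : 𝒬) =
        (F : ℍ → ℂ) ∣[k] (r₀⁻¹ : SL(2, ℤ)) := by
      rw [quotientFunc_mk, ModularForm.SL_slash]
      show _ = (F : ℍ → ℂ) ∣[k] (Matrix.SpecialLinearGroup.mapGL ℝ r₀⁻¹)
      rw [map_inv]
    rw [this]
    exact CuspFormClass.zero_at_infty_slash F _

lemma isZeroAtImInfty_esymmFun (F : ModularForm Γ k) (hF : IsCF Γ k F) {j : ℕ} (hj : 1 ≤ j) :
    IsZeroAtImInfty (esymmFun F j) := by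
  classical
  obtain ⟨F', hF'⟩ := hF
  have hq : ∀ q : 𝒬, quotientFunc F q = quotientFunc F' q := by
    intro q
    induction q using Quotient.inductionOn with
    | h r => rw [quotientFunc_mk, quotientFunc_mk, hF']
  unfold esymmFun
  refine (Filter.zeroAtFilterSubmodule ℂ atImInfty).sum_mem fun S hS => ?_
  have hcard : S.card = j := (Finset.mem_powersetCard.mp hS).2
  obtain ⟨q₀, hq₀⟩ : S.Nonempty := Finset.card_pos.mp (by omega)
  rw [← Finset.mul_prod_erase S _ hq₀]
  show Filter.ZeroAtFilter atImInfty _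
  refine Filter.ZeroAtFilter.mul_boundedAtFilter ?_ ?_
  · rw [hq]
    exact isZeroAtImInfty_quotientFunc F' q₀
  · refine Filter.BoundedAtFilter.prod _ fun q _ => ?_
    have := isBoundedAtImInfty_quotientFunc_slash F q 1
    simpa [IsBoundedAtImInfty] using this

/-- PIECE SYM: the monic relation over the level one ring. -/
theorem exists_monic_relation {f : ℍ → ℂ} (hf : IsMF Γ k f) :
    ∃ (μ : ℕ) (c : ℕ → ℍ → ℂ), c 0 = 1 ∧ (∀ j : ℕ, IsMF 𝒮ℒ ((j : ℤ) * k) (c j)) ∧
      ∑ j ∈ Finset.range (μ + 1), c j * f ^ (μ - j) = 0 ∧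
      (IsCF Γ k f → ∀ j, 1 ≤ j → IsZeroAtImInfty (c j)) := by
  obtain ⟨F, rfl⟩ := hf
  refine ⟨Fintype.card 𝒬, fun j => (-1 : ℂ) ^ j • esymmFun F j, ?_, fun j => ?_,
    sum_esymmFun_mul_pow F, fun hcf j hj => ?_⟩
  · funext z
    simp [esymmFun]
  · exact (isMF_esymmFun F j).smul _
  · exact (Filter.zeroAtFilterSubmodule ℂ atImInfty).smul_mem _ (isZeroAtImInfty_esymmFun F hcf hj)

end Fermat.Agent.S23
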