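import Mathlib.LinearAlgebra.Lagrange
import Mathlib.RingTheory.Polynomial.Vieta

set_option autoImplicit false

namespace Fermat.Agent.S23.KeyAlg

open Polynomial Finset

variable {R : Type*} [CommRing R] [Nontrivial R] {ι : Type*} [Fintype ι] [DecidableEq ι]

set_option linter.unusedSectionVars false

/-- Coefficients of the nodal polynomial `∏ q, (X - x q)`. -/
noncomputable def pc (x : ι → R) (j : ℕ) : R := (Lagrange.nodal univ x).coeff j

/-- The twisted power sums `∑ q, y q * x q ^ i`. -/
def tws (x y : ι → R) (i : ℕ) : R := ∑ q, y q * x q ^ i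

theorem eval_derivative_nodal [Nonempty ι] (x : ι → R) (a : R) :
    (derivative (Lagrange.nodal univ x)).eval a
      = ∑ m ∈ range (Fintype.card ι), ((m + 1 : ℕ) : R) * pc x (m + 1) * a ^ m := by
  have hdeg : (derivative (Lagrange.nodal univ x)).natDegree < Fintype.card ι := by
    have := natDegree_derivative_lt (p := Lagrange.nodal univ x) (by
      rw [Lagrange.natDegree_nodal]; simp)
    rw [Lagrange.natDegree_nodal] at this
    simpa using this
  rw [eval_eq_sum_range' hdeg]
  refine sum_congr rfl fun m _ => ?_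
  rw [coeff_derivative, pc]
  push_cast
  ring

theorem divByMonic_nodal (x : ι → R) (q : ι) :
    Lagrange.nodal univ x /ₘ (X - C (x q)) = Lagrange.nodal (univ.erase q) x := by
  rw [Lagrange.nodal_eq_mul_nodal_erase (mem_univ q)]
  exact mul_divByMonic_cancel_left _ (monic_X_sub_C _)

theorem eval_divByMonic_nodal (x : ι → R) (q : ι) (a : R) :
    (Lagrange.nodal univ x /ₘ (X - C (x q))).eval a
      = ∑ m ∈ range (Fintype.card ι),
          (∑ i ∈ range (Fintype.card ι - m), pc x (m + 1 + i) * x q ^ i) * a ^ m := by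
  have hdeg : (Lagrange.nodal univ x /ₘ (X - C (x q))).natDegree < Fintype.card ι := by
    rw [divByMonic_nodal, Lagrange.natDegree_nodal, card_erase_of_mem (mem_univ q), card_univ]
    exact Nat.sub_lt (Fintype.card_pos_iff.mpr ⟨q⟩) one_pos
  rw [eval_eq_sum_range' hdeg]
  refine sum_congr rfl fun m hm => ?_
  congr 1
  rw [coeff_divByMonic_X_sub_C, Lagrange.natDegree_nodal, card_univ]
  have hIcc : Icc (m + 1) (Fintype.card ι) = Ico (m + 1) (Fintype.card ι + 1) := by
    ext j; simp only [mem_Icc, mem_Ico]; omega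
  rw [hIcc, sum_Ico_eq_sum_range]
  have : Fintype.card ι + 1 - (m + 1) = Fintype.card ι - m := by omega
  rw [this]
  refine sum_congr rfl fun i _ => ?_
  rw [pc, Nat.add_sub_cancel_left]
  ring

/-- The interpolation identity `y₀ * P'(x₀) = ∑ m, (∑ i, p_(m+1+i) * t_i) * x₀ ^ m`. -/
theorem interpolation_identity [Nonempty ι] (x y : ι → R) (i₀ : ι) :
    y i₀ * ∑ m ∈ range (Fintype.card ι), ((m + 1 : ℕ) : R) * pc x (m + 1) * x i₀ ^ m
      = ∑ m ∈ range (Fintype.card ι),
          (∑ i ∈ range (Fintype.card ι - m), pc x (m + 1 + i) * tws x y i) * x i₀ ^ m := by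
  rw [← eval_derivative_nodal, Lagrange.eval_nodal_derivative_eval_node_eq (mem_univ i₀)]
  have key : ∀ q, y q * (Lagrange.nodal (univ.erase q) x).eval (x i₀)
      = ∑ m ∈ range (Fintype.card ι),
          (∑ i ∈ range (Fintype.card ι - m), pc x (m + 1 + i) * (y q * x q ^ i)) * x i₀ ^ m := by
    intro q
    rw [← divByMonic_nodal, eval_divByMonic_nodal, mul_sum]
    refine sum_congr rfl fun m _ => ?_
    rw [← mul_assoc, mul_sum]
    congr 1
    refine sum_congr rfl fun i _ => ?_
    ring
  have hsum : ∑ q, y q * (Lagrange.nodal (univ.erase q) x).eval (x i₀)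
      = y i₀ * (Lagrange.nodal (univ.erase i₀) x).eval (x i₀) := by
    rw [sum_eq_single i₀]
    · intro q _ hq
      rw [Lagrange.eval_nodal_at_node (mem_erase.mpr ⟨Ne.symm hq, mem_univ _⟩), mul_zero]
    · intro h; exact absurd (mem_univ _) h
  rw [← hsum]
  simp_rw [key]
  rw [sum_comm]
  refine sum_congr rfl fun m _ => ?_
  rw [← sum_mul]
  congr 1
  rw [sum_comm]
  refine sum_congr rfl fun i _ => ?_
  rw [tws, mul_sum]

/-- The value `P'(x₀)` as a product. -/
theorem derivative_sum_eq_prod [Nonempty ι] (x : ι → R) (i₀ : ι) :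
    ∑ m ∈ range (Fintype.card ι), ((m + 1 : ℕ) : R) * pc x (m + 1) * x i₀ ^ m
      = ∏ q ∈ univ.erase i₀, (x i₀ - x q) := by
  rw [← eval_derivative_nodal, Lagrange.eval_nodal_derivative_eval_node_eq (mem_univ i₀),
    Lagrange.eval_nodal]

theorem pc_eq_esymm (x : ι → R) {j : ℕ} (hj : j ≤ Fintype.card ι) :
    pc x j = (-1) ^ (Fintype.card ι - j) * (univ.val.map x).esymm (Fintype.card ι - j) := by
  have h := Multiset.prod_X_sub_C_coeff (univ.val.map x) (k := j) (by simpa using hj)
  rw [Multiset.card_map, card_val, card_univ] at h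
  rw [← h, pc, Lagrange.nodal_eq, Multiset.map_map]
  rfl

/-- The characteristic polynomial relation for `y i₀`. -/
theorem charpoly_identity (y : ι → R) (i₀ : ι) :
    y i₀ ^ Fintype.card ι + ∑ i ∈ Icc 1 (Fintype.card ι),
      ((-1) ^ i * (univ.val.map y).esymm i) * y i₀ ^ (Fintype.card ι - i) = 0 := by
  have h0 : (Lagrange.nodal univ y).eval (y i₀) = 0 := Lagrange.eval_nodal_at_node (mem_univ i₀)
  have h1 : Lagrange.nodal univ y = ((univ.val.map y).map fun t => X - C t).prod := by
    rw [Lagrange.nodal_eq, Multiset.map_map]; rfl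
  rw [h1, Multiset.prod_X_sub_X_eq_sum_esymm, Multiset.card_map, card_val, card_univ,
    eval_finsetSum] at h0
  rw [range_eq_Ico, sum_eq_sum_Ico_succ_bot (Nat.succ_pos _)] at h0
  have hIco : Ico (0 + 1) (Fintype.card ι + 1) = Icc 1 (Fintype.card ι) := by
    ext j; simp only [mem_Icc, mem_Ico]; omega
  rw [hIco] at h0
  simp only [eval_mul, eval_pow, eval_neg, eval_one, eval_C, eval_X] at h0
  rw [← h0]
  congr 1
  · simp [Multiset.esymm, Multiset.powersetCard_zero_left]
  · refine sum_congr rfl fun i _ => ?_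
    ring

end Fermat.Agent.S23.KeyAlg
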