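import Fermat.Agent.S23.Sym
import Fermat.Agent.S23.KeyAlgebra

set_option autoImplicit false

namespace Fermat.Agent.S23

open UpperHalfPlane ModularForm Finset
open scoped MatrixGroups ModularForm Manifold

open KeyId KeyAlg

namespace KeyId

variable {N : ℕ} [NeZero N]

set_option linter.unusedSectionVars false

scoped instance instNonemptyQ : Nonempty (Q N) := ⟨⟦1⟧⟩

/-- The coefficient `j` of `∏ q, (X - g_q)` as a function on the upper half plane. -/
noncomputable def pcf {w : ℤ} (g : ModularForm (G0 N) w) (j : ℕ) : ℍ → ℂ :=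
  fun τ => pc (fun q : Q N => cj g q τ) j

theorem pcf_eq {w : ℤ} (g : ModularForm (G0 N) w) {j : ℕ} (hj : j ≤ Fintype.card (Q N)) :
    pcf g j = ((-1 : ℂ) ^ (Fintype.card (Q N) - j)) • es g (Fintype.card (Q N) - j) := by
  ext τ
  simp only [pcf, Pi.smul_apply, smul_eq_mul, es]
  exact pc_eq_esymm _ hj

theorem isMF_pcf {w : ℤ} (g : ModularForm (G0 N) w) {j : ℕ} (hj : j ≤ Fintype.card (Q N)) :
    IsMF 𝒮ℒ (w * ((Fintype.card (Q N) : ℤ) - j)) (pcf g j) := by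
  rw [pcf_eq g hj]
  refine isMF_smul _ (isMF_cast ?_ (isMF_es g _))
  rw [Nat.cast_sub hj]

theorem tw_apply {k w : ℤ} (f : CuspForm (G0 N) k) (g : ModularForm (G0 N) w) (i : ℕ) (τ : ℍ) :
    tw f g i τ = tws (fun q : Q N => cj g q τ) (fun q : Q N => cjc f q τ) i := by
  simp [tw, tws, Finset.sum_apply]

/-- A coset different from the trivial one moves a separating form. -/
theorem cj_ne_of_ne {w : ℤ} (g : ModularForm (G0 N) w)
    (hsep : ∀ γ : SL(2, ℤ), γ ∉ CongruenceSubgroup.Gamma0 N → (g : ℍ → ℂ) ∣[w] γ ≠ g)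
    {q : Q N} (hq : q ≠ ⟦1⟧) : cj g q ≠ g := by
  induction q using Quotient.inductionOn with
  | h r =>
    obtain ⟨γ, hγ⟩ := r.2
    intro heq
    apply hq
    have hcj : cj g (⟦r⟧ : Q N) = (g : ℍ → ℂ) ∣[w] γ⁻¹ := by
      rw [cj_mk, SL_slash, ← hγ, ← map_inv]
      rfl
    have hmem : γ⁻¹ ∈ CongruenceSubgroup.Gamma0 N := by
      by_contra hcon
      exact hsep γ⁻¹ hcon (hcj ▸ heq)
    have hmem' : γ ∈ CongruenceSubgroup.Gamma0 N := by simpa using inv_mem hmem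
    have hr : r ∈ (G0 N).subgroupOf 𝒮ℒ := by
      rw [Subgroup.mem_subgroupOf, ← hγ]
      exact Subgroup.mem_map_of_mem _ hmem'
    refine (QuotientGroup.eq (s := (G0 N).subgroupOf 𝒮ℒ)).mpr ?_
    simpa using inv_mem hr

end KeyId

theorem key_identities {N : ℕ} [NeZero N] {k w : ℤ} {f g : ℍ → ℂ} (hf : IsCF (G0 N) k f)
    (hg : IsMF (G0 N) w g)
    (hsep : ∀ γ : SL(2, ℤ), γ ∉ CongruenceSubgroup.Gamma0 N → g ∣[w] γ ≠ g) :
    ∃ μ : ℕ, 0 < μ ∧ ∃ (d r c : ℕ → ℍ → ℂ),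
      (∀ m < μ, IsMF 𝒮ℒ (w * ((μ : ℤ) - 1 - m)) (d m)) ∧
      (∀ m < μ, IsMF 𝒮ℒ (k + w * ((μ : ℤ) - 1 - m)) (r m)) ∧
      (∀ i, 1 ≤ i → i ≤ μ → IsCF 𝒮ℒ (k * i) (c i)) ∧
      (∀ τ, f τ * ∑ m ∈ Finset.range μ, d m τ * g τ ^ m
        = ∑ m ∈ Finset.range μ, r m τ * g τ ^ m) ∧
      (∃ τ, ∑ m ∈ Finset.range μ, d m τ * g τ ^ m ≠ 0) ∧
      (∀ τ, f τ ^ μ + ∑ i ∈ Finset.Icc 1 μ, c i τ * f τ ^ (μ - i) = 0) := by
  obtain ⟨f', rfl⟩ := hf
  obtain ⟨g', rfl⟩ := hg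
  have hF : (f' : ℍ → ℂ) = (ModularFormClass.modularForm f' : ModularForm (G0 N) k) := rfl
  set F' : ModularForm (G0 N) k := ModularFormClass.modularForm f' with hF'
  refine ⟨Fintype.card (Q N), Fintype.card_pos,
    fun m => (((m + 1 : ℕ) : ℂ)) • pcf g' (m + 1),
    fun m => ∑ i ∈ range (Fintype.card (Q N) - m), pcf g' (m + 1 + i) * tw f' g' i,
    fun i => ((-1 : ℂ) ^ i) • es F' i, ?_, ?_, ?_, ?_, ?_, ?_⟩
  · intro m hm
    refine isMF_smul _ (isMF_cast ?_ (isMF_pcf g' (j := m + 1) hm))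
    push_cast; ring
  · intro m hm
    refine isMF_sum _ fun i hi => ?_
    have hi' : i < Fintype.card (Q N) - m := mem_range.mp hi
    have hle : m + 1 + i ≤ Fintype.card (Q N) := by omega
    refine isMF_mul (isMF_pcf g' hle) (isCF_isMF (isCF_tw f' g' i)) ?_
    push_cast; ring
  · intro i hi _
    exact isCF_smul _ (isCF_es f' F' hF hi)
  · intro τ
    have h := interpolation_identity (fun q : Q N => cj g' q τ) (fun q : Q N => cjc f' q τ) ⟦1⟧
    simp only [cj_one, cjc_one] at h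
    simp only [Pi.smul_apply, smul_eq_mul, pcf, Finset.sum_apply, Pi.mul_apply, tw_apply]
    exact h
  · by_contra hcon
    push Not at hcon
    have hprod : ∏ q ∈ (univ : Finset (Q N)).erase ⟦1⟧, ((g' : ℍ → ℂ) - cj g' q) = 0 := by
      ext τ
      have h := derivative_sum_eq_prod (fun q : Q N => cj g' q τ) ⟦1⟧
      simp only [cj_one] at h
      rw [Finset.prod_apply, Pi.zero_apply]
      simp only [Pi.sub_apply]
      rw [← h, ← hcon τ]
      simp only [Pi.smul_apply, smul_eq_mul, pcf]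
    rw [UpperHalfPlane.prod_eq_zero_iff (f := fun q : Q N => (g' : ℍ → ℂ) - cj g' q)
      (fun q _ => (ModularFormClass.holo g').sub (mdiff_cj g' q))] at hprod
    obtain ⟨q, hq, hq0⟩ := hprod
    exact cj_ne_of_ne g' hsep (ne_of_mem_erase hq) (sub_eq_zero.mp hq0).symm
  · intro τ
    have h := charpoly_identity (fun q : Q N => cjc f' q τ) ⟦1⟧
    simp only [cjc_one] at h
    simp only [Pi.smul_apply, smul_eq_mul, es]
    simp_rw [← cjc_eq_cj f' F' hF]
    exact h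

end Fermat.Agent.S23
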