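import Mathlib.LinearAlgebra.Lagrange
import Mathlib.Algebra.Polynomial.Div

set_option autoImplicit false
set_option linter.unusedSectionVars false

/-!
# Polynomial interpolation identities (pure algebra, no modular forms)

For a finite family `x : ι → R` in a commutative ring put `P = ∏ q, (X - C (x q))` (`nodalPoly x`)
and, for `y : ι → R`, `R_y = ∑ q, C (y q) * ∏ q' ≠ q, (X - C (x q'))` (`interpPoly x y`).
Then
* `R_y (x q₀) = y q₀ * P'(x q₀)`,
* the `n`-th coefficient of `R_y` is `∑ j ∈ Icc (n+1) (card ι), P.coeff j * ∑ q, y q * x q ^ (j-(n+1))`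
  (synthetic division), i.e. it is a combination of the coefficients of `P` and of the
  "traces" `∑ q, y q * x q ^ i`,
* `P' = R_1`.
-/

namespace Fermat.Agent.S23.PolyInterp

open Polynomial Finset

variable {R : Type*} [CommRing R] {ι : Type*} [Fintype ι] [DecidableEq ι]

/-- `∏ q, (X - C (x q))` -/
noncomputable def nodalPoly (x : ι → R) : R[X] := Lagrange.nodal univ x

/-- `∑ q, C (y q) * ∏ q' ≠ q, (X - C (x q'))` -/
noncomputable def interpPoly (x y : ι → R) : R[X] :=
  ∑ q, C (y q) * Lagrange.nodal (univ.erase q) x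

theorem nodalPoly_eq (x : ι → R) : nodalPoly x = ∏ q, (X - C (x q)) := rfl

theorem interpPoly_eq (x y : ι → R) :
    interpPoly x y = ∑ q, C (y q) * ∏ q' ∈ univ.erase q, (X - C (x q')) := rfl

theorem nodalPoly_monic (x : ι → R) : (nodalPoly x).Monic := Lagrange.nodal_monic

theorem natDegree_nodalPoly [Nontrivial R] (x : ι → R) :
    (nodalPoly x).natDegree = Fintype.card ι := by
  rw [nodalPoly, Lagrange.natDegree_nodal, card_univ]

theorem natDegree_nodalPoly_le (x : ι → R) : (nodalPoly x).natDegree ≤ Fintype.card ι := by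
  nontriviality R
  exact (natDegree_nodalPoly x).le

theorem coeff_nodalPoly_card (x : ι → R) : (nodalPoly x).coeff (Fintype.card ι) = 1 := by
  nontriviality R
  have := nodalPoly_monic x
  rwa [Monic, leadingCoeff, natDegree_nodalPoly] at this

theorem coeff_nodalPoly_of_lt (x : ι → R) {j : ℕ} (hj : Fintype.card ι < j) :
    (nodalPoly x).coeff j = 0 :=
  coeff_eq_zero_of_natDegree_lt (lt_of_le_of_lt (natDegree_nodalPoly_le x) hj)

theorem eval_nodalPoly (x : ι → R) (q : ι) : (nodalPoly x).eval (x q) = 0 :=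
  Lagrange.eval_nodal_at_node (mem_univ q)

theorem derivative_nodalPoly (x : ι → R) : derivative (nodalPoly x) = interpPoly x 1 := by
  rw [nodalPoly, Lagrange.derivative_nodal, interpPoly]
  simp

theorem eval_derivative_nodalPoly (x : ι → R) (q₀ : ι) :
    (derivative (nodalPoly x)).eval (x q₀) = ∏ q ∈ univ.erase q₀, (x q₀ - x q) := by
  rw [nodalPoly, Lagrange.eval_nodal_derivative_eval_node_eq (mem_univ q₀), Lagrange.eval_nodal]

/-- value of the interpolation numerator at a node -/
theorem eval_interpPoly (x y : ι → R) (q₀ : ι) :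
    (interpPoly x y).eval (x q₀) = y q₀ * (derivative (nodalPoly x)).eval (x q₀) := by
  rw [interpPoly, eval_finsetSum, ← add_sum_erase _ _ (mem_univ q₀)]
  have h0 : ∑ q ∈ univ.erase q₀, eval (x q₀) (C (y q) * Lagrange.nodal (univ.erase q) x) = 0 := by
    refine sum_eq_zero fun q hq => ?_
    rw [eval_mul, Lagrange.eval_nodal_at_node
      (mem_erase.mpr ⟨(mem_erase.mp hq).1.symm, mem_univ q₀⟩), mul_zero]
  rw [h0, add_zero, eval_mul, eval_C, nodalPoly,
    Lagrange.eval_nodal_derivative_eval_node_eq (mem_univ q₀)]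

theorem nodal_erase_eq_divByMonic (x : ι → R) (q : ι) :
    Lagrange.nodal (univ.erase q) x = nodalPoly x /ₘ (X - C (x q)) := by
  rw [nodalPoly, Lagrange.nodal_eq_mul_nodal_erase (mem_univ q),
    mul_divByMonic_cancel_left _ (monic_X_sub_C (x q))]

/-- synthetic division: coefficients of `∏ q' ≠ q, (X - C (x q'))` -/
theorem coeff_nodal_erase (x : ι → R) (q : ι) (n : ℕ) :
    (Lagrange.nodal (univ.erase q) x).coeff n =
      ∑ j ∈ Icc (n + 1) (Fintype.card ι), (nodalPoly x).coeff j * x q ^ (j - (n + 1)) := by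
  nontriviality R
  rw [nodal_erase_eq_divByMonic, coeff_divByMonic_X_sub_C, natDegree_nodalPoly]
  exact sum_congr rfl fun j _ => mul_comm _ _

/-- coefficients of the interpolation numerator in terms of the coefficients of the nodal
polynomial and the "traces" `∑ q, y q * x q ^ i` -/
theorem coeff_interpPoly (x y : ι → R) (n : ℕ) :
    (interpPoly x y).coeff n =
      ∑ j ∈ Icc (n + 1) (Fintype.card ι),
        (nodalPoly x).coeff j * ∑ q, y q * x q ^ (j - (n + 1)) := by
  rw [interpPoly, finsetSum_coeff]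
  simp_rw [coeff_C_mul, coeff_nodal_erase, mul_sum]
  rw [sum_comm]
  refine sum_congr rfl fun j _ => sum_congr rfl fun q _ => ?_
  ring

theorem natDegree_interpPoly_lt (x y : ι → R) {n : ℕ} (hn : Fintype.card ι ≤ n) :
    (interpPoly x y).coeff n = 0 := by
  rw [coeff_interpPoly, Icc_eq_empty (by omega), sum_empty]

/-- evaluation of a polynomial whose coefficients vanish from `m` on -/
theorem eval_eq_sum_range_of_coeff_eq_zero (p : R[X]) (m : ℕ) (hp : ∀ n, m ≤ n → p.coeff n = 0)
    (a : R) : p.eval a = ∑ n ∈ range m, p.coeff n * a ^ n := by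
  rw [eval_eq_sum_range]
  rcases le_or_gt (p.natDegree + 1) m with h | h
  · refine sum_subset (fun i hi => mem_range.mpr (lt_of_lt_of_le (mem_range.mp hi) h))
      fun i _ hi => ?_
    rw [coeff_eq_zero_of_natDegree_lt (by simpa using hi), zero_mul]
  · symm
    refine sum_subset (fun i hi => mem_range.mpr (lt_trans (mem_range.mp hi) h)) fun i _ hi => ?_
    rw [hp i (by simpa using hi), zero_mul]

/-- The interpolation identity in unbundled form: with
`A y m := ∑ j ∈ Icc (m+1) (card ι), P.coeff j * ∑ q, y q * x q ^ (j-(m+1))` one has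
`y q₀ * ∑ m < card ι, A 1 m * x q₀ ^ m = ∑ m < card ι, A y m * x q₀ ^ m`, and the common factor
`∑ m < card ι, A 1 m * x q₀ ^ m` is `P'(x q₀) = ∏ q ≠ q₀, (x q₀ - x q)`. -/
theorem interp_identity (x y : ι → R) (q₀ : ι) :
    y q₀ * ∑ m ∈ range (Fintype.card ι),
        (∑ j ∈ Icc (m + 1) (Fintype.card ι),
          (nodalPoly x).coeff j * ∑ q, x q ^ (j - (m + 1))) * x q₀ ^ m =
      ∑ m ∈ range (Fintype.card ι),
        (∑ j ∈ Icc (m + 1) (Fintype.card ι),
          (nodalPoly x).coeff j * ∑ q, y q * x q ^ (j - (m + 1))) * x q₀ ^ m := by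
  have h1 := eval_interpPoly x y q₀
  rw [derivative_nodalPoly,
    eval_eq_sum_range_of_coeff_eq_zero _ _ (fun n hn => natDegree_interpPoly_lt x y hn),
    eval_eq_sum_range_of_coeff_eq_zero _ _ (fun n hn => natDegree_interpPoly_lt x 1 hn)] at h1
  simp_rw [coeff_interpPoly, Pi.one_apply, one_mul] at h1
  exact h1.symm

theorem interp_denominator (x : ι → R) (q₀ : ι) :
    ∑ m ∈ range (Fintype.card ι),
        (∑ j ∈ Icc (m + 1) (Fintype.card ι),
          (nodalPoly x).coeff j * ∑ q, x q ^ (j - (m + 1))) * x q₀ ^ m =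
      ∏ q ∈ univ.erase q₀, (x q₀ - x q) := by
  have h1 := eval_derivative_nodalPoly x q₀
  rw [derivative_nodalPoly,
    eval_eq_sum_range_of_coeff_eq_zero _ _ (fun n hn => natDegree_interpPoly_lt x 1 hn)] at h1
  simp_rw [coeff_interpPoly, Pi.one_apply, one_mul] at h1
  exact h1

end Fermat.Agent.S23.PolyInterp
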