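import Mathlib
import Fermat.Agent.S23.Defs
import Fermat.Agent.S49.Basic
import Fermat.Agent.S23.FinDim
import Fermat.Agent.S23.Descent

set_option autoImplicit false

open UpperHalfPlane ModularForm
open scoped MatrixGroups ModularForm Manifold

namespace Fermat.Agent.S23

open ModularFormClass CongruenceSubgroup

namespace RatSpan

variable {N : ℕ} {k : ℤ}

/-- The `q`-expansion of a cusp form on `Γ₀(N)` as a `ℂ`-linear map into `ℂ⟦q⟧`. -/
noncomputable def qExpLin (N : ℕ) (k : ℤ) : CuspForm (Gamma0 N) k →ₗ[ℂ] PowerSeries ℂ where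
  toFun f := qExpansion 1 ⇑f
  map_add' f g := by
    rw [FunLike.coe_add]
    exact ModularForm.qExpansion_add one_pos (Fermat.Agent.S49.hΓ N) f g
  map_smul' c f := by
    have h1 : ⇑(c • f) = c • ⇑f := by
      ext z
      simp
    rw [h1, RingHom.id_apply]
    exact ModularForm.qExpansion_smul one_pos (Fermat.Agent.S49.hΓ N) c f

@[simp]
theorem qExpLin_apply (f : CuspForm (Gamma0 N) k) : qExpLin N k f = qExpansion 1 ⇑f := rfl

theorem coeff_qExpLin (f : CuspForm (Gamma0 N) k) (n : ℕ) :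
    PowerSeries.coeff n (qExpLin N k f) = qCoeff ⇑f n := rfl

theorem qExpLin_injective (N : ℕ) (k : ℤ) : Function.Injective (qExpLin N k) := by
  refine (injective_iff_map_eq_zero _).mpr fun f hf => ?_
  refine Fermat.Agent.S49.eq_zero_of_qCoeff_eq_zero f fun n => ?_
  rw [← coeff_qExpLin, hf, map_zero]

/-- RS (general form): if the space of cusp forms of weight `k` on `Γ₀(N)` is stable under the
coefficientwise action of ring endomorphisms of `ℂ` on `q`-expansions, then it is spanned by the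
forms with rational `q`-expansion. -/
theorem rational_span_of_conj (N : ℕ) [NeZero N] (k : ℤ)
    (hconj : ∀ (σ : ℂ →+* ℂ) (f : CuspForm (G0 N) k),
      ∃ g : CuspForm (G0 N) k, qExpansion 1 g = (qExpansion 1 f).map σ) :
    Submodule.span ℂ {f : CuspForm (CongruenceSubgroup.Gamma0 N) k |
      ∀ n, ∃ r : ℚ, ModularFormClass.qCoeff f n = (r : ℂ)} = ⊤ := by
  have hfd : FiniteDimensional ℂ (CuspForm (Gamma0 N) k) := finiteDimensional_cuspForm N k
  set S : Set (CuspForm (Gamma0 N) k) :=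
    {f | ∀ n, ∃ r : ℚ, ModularFormClass.qCoeff f n = (r : ℂ)} with hS
  set W : Submodule ℂ (PowerSeries ℂ) := LinearMap.range (qExpLin N k) with hWdef
  have hWfd : FiniteDimensional ℂ W := by
    rw [hWdef]
    infer_instance
  have hW : ∀ σ : ℂ →+* ℂ, ∀ p ∈ W, p.map σ ∈ W := by
    rintro σ _ ⟨f, rfl⟩
    obtain ⟨g, hg⟩ := hconj σ f
    exact ⟨g, hg⟩
  have key := descent W hW
  have himg : {p | p ∈ W ∧ ∀ n, ∃ r : ℚ, PowerSeries.coeff n p = (r : ℂ)} ⊆ qExpLin N k '' S := by
    rintro _ ⟨⟨f, rfl⟩, hrat⟩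
    exact ⟨f, fun n => hrat n, rfl⟩
  rw [eq_top_iff]
  intro f _
  have hf : qExpLin N k f ∈ Submodule.span ℂ (qExpLin N k '' S) :=
    Submodule.span_mono himg (key ⟨f, rfl⟩)
  rw [← Submodule.map_span] at hf
  obtain ⟨g, hg, hgf⟩ := hf
  rwa [← qExpLin_injective N k hgf]

/-- RS in the exact shape consumed by `final` (weight `2`). -/
theorem rational_span_two_of_conj (N : ℕ) [NeZero N]
    (hconj : ∀ (σ : ℂ →+* ℂ) (f : CuspForm (G0 N) 2),
      ∃ g : CuspForm (G0 N) 2, qExpansion 1 g = (qExpansion 1 f).map σ) :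
    Submodule.span ℂ {f : CuspForm (CongruenceSubgroup.Gamma0 N) 2 |
      ∀ n, ∃ r : ℚ, ModularFormClass.qCoeff f n = (r : ℂ)} = ⊤ :=
  rational_span_of_conj N 2 hconj

end RatSpan

end Fermat.Agent.S23
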