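import Fermat.Agent.S23.Analytic

set_option autoImplicit false

open UpperHalfPlane ModularForm
open scoped MatrixGroups ModularForm Manifold

namespace Fermat.Agent.S23

namespace Recon

theorem isMF_of_eq {Γ : Subgroup (GL (Fin 2) ℝ)} {k k' : ℤ} {g : ℍ → ℂ} (h : k = k')
    (hg : IsMF Γ k g) : IsMF Γ k' g := h ▸ hg

theorem isMF_zero (Γ : Subgroup (GL (Fin 2) ℝ)) (k : ℤ) : IsMF Γ k 0 := ⟨0, rfl⟩

theorem isMF_one : IsMF 𝒮ℒ 0 1 := ⟨1, rfl⟩

theorem isMF_of_isCF {Γ : Subgroup (GL (Fin 2) ℝ)} {k : ℤ} {g : ℍ → ℂ}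
    (hg : IsCF Γ k g) : IsMF Γ k g := by
  obtain ⟨F, rfl⟩ := hg
  exact ⟨ModularFormClass.modularForm F, rfl⟩

end Recon

set_option linter.unusedVariables false in
open Recon in
/-- **Reconstruction** (T23 task B4): a monic relation with level-one cusp coefficients makes the
quotient `E / D` a cusp form. -/
theorem exists_cuspForm_of_monic_relation {N : ℕ} [NeZero N] {k a : ℤ} {μ : ℕ} (hμ : 0 < μ)
    {c : ℕ → ℍ → ℂ} (hc : ∀ i, 1 ≤ i → i ≤ μ → IsCF 𝒮ℒ (k * i) (c i))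
    {D E : ℍ → ℂ} (hD : IsMF (G0 N) a D) (hE : IsMF (G0 N) (k + a) E) (hD0 : ∃ τ, D τ ≠ 0)
    (hrel : ∀ τ, E τ ^ μ + ∑ i ∈ Finset.Icc 1 μ, c i τ * E τ ^ (μ - i) * D τ ^ i = 0) :
    ∃ f' : ℍ → ℂ, IsCF (G0 N) k f' ∧ ∀ τ, f' τ * D τ = E τ := by
  classical
  let c' : ℕ → ℍ → ℂ := fun j => if j = 0 then 1 else if j ≤ μ then c j else 0
  have hc'0 : c' 0 = 1 := by simp [c']
  have hc'succ : ∀ j, j + 1 ≤ μ → c' (j + 1) = c (j + 1) := fun j hj => by simp [c', hj]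
  have hc'MF : ∀ j : ℕ, IsMF 𝒮ℒ ((j : ℤ) * k) (c' j) := by
    intro j
    by_cases hj0 : j = 0
    · subst hj0
      rw [hc'0]
      exact isMF_of_eq (by simp) isMF_one
    · by_cases hjμ : j ≤ μ
      · have : c' j = c j := by simp [c', hj0, hjμ]
        rw [this]
        exact isMF_of_eq (mul_comm _ _) (isMF_of_isCF (hc j (Nat.pos_of_ne_zero hj0) hjμ))
      · have : c' j = 0 := by simp [c', hj0, hjμ]
        rw [this]
        exact isMF_zero _ _
  have hc'zero : ∀ j, 1 ≤ j → IsZeroAtImInfty (c' j) := by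
    intro j hj
    have hj0 : j ≠ 0 := by omega
    by_cases hjμ : j ≤ μ
    · have : c' j = c j := by simp [c', hj0, hjμ]
      rw [this]
      obtain ⟨F, hF⟩ := hc j hj hjμ
      exact hF ▸ CuspFormClass.zero_at_infty F
    · have : c' j = 0 := by simp [c', hj0, hjμ]
      rw [this]
      exact tendsto_const_nhds
  have hD0' : D ≠ 0 := by
    obtain ⟨τ, hτ⟩ := hD0
    exact fun h => hτ (by simp [h])
  have hrel' : ∑ j ∈ Finset.range (μ + 1), c' j * E ^ (μ - j) * D ^ j = 0 := by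
    ext τ
    have h := hrel τ
    simp only [Finset.sum_apply, Pi.mul_apply, Pi.pow_apply, Pi.zero_apply]
    rw [Finset.sum_range_succ', hc'0]
    simp only [Pi.one_apply, one_mul, Nat.sub_zero, pow_zero, mul_one]
    rw [add_comm, ← h]
    congr 1
    rw [← Finset.Ico_add_one_right_eq_Icc, Finset.sum_Ico_eq_sum_range]
    simp only [Nat.add_sub_cancel]
    refine Finset.sum_congr rfl fun j hj => ?_
    have hj' : j + 1 ≤ μ := Nat.succ_le_of_lt (Finset.mem_range.mp hj)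
    rw [hc'succ j hj', add_comm 1 j]
  obtain ⟨G, -, hGD, hcusp⟩ := exists_div_of_integral hE hD hD0' c' hc'0 hc'MF hrel'
  exact ⟨G, hcusp hc'zero, fun τ => congrFun hGD τ⟩

end Fermat.Agent.S23
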