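import Mathlib.NumberTheory.ModularForms.NormTrace
import Mathlib.NumberTheory.ModularForms.CuspFormSubmodule
import Mathlib.RingTheory.MvPolynomial.Symmetric.NewtonIdentities
import Mathlib.RingTheory.Polynomial.Vieta
import Fermat.Agent.S23.Defs

set_option autoImplicit false

namespace Fermat.Agent.S23.KeyId

open UpperHalfPlane ModularForm SlashInvariantForm
open scoped MatrixGroups ModularForm Manifold

open Fermat.Agent.S23

section closure

variable {Γ : Subgroup (GL (Fin 2) ℝ)}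

theorem isMF_cast {a b : ℤ} {F : ℍ → ℂ} (h : a = b) (hF : IsMF Γ a F) : IsMF Γ b F := h ▸ hF

theorem isCF_cast {a b : ℤ} {F : ℍ → ℂ} (h : a = b) (hF : IsCF Γ a F) : IsCF Γ b F := h ▸ hF

theorem isMF_mul [Γ.HasDetPlusMinusOne] {a b c : ℤ} {F G : ℍ → ℂ} (hF : IsMF Γ a F)
    (hG : IsMF Γ b G) (h : a + b = c) : IsMF Γ c (F * G) := by
  obtain ⟨F', rfl⟩ := hF
  obtain ⟨G', rfl⟩ := hG
  exact ⟨ModularForm.mcast h (F'.mul G'), rfl⟩

theorem isCF_mul_isMF [Γ.HasDetPlusMinusOne] {a b c : ℤ} {F G : ℍ → ℂ} (hF : IsCF Γ a F)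
    (hG : IsMF Γ b G) (h : a + b = c) : IsCF Γ c (F * G) := by
  obtain ⟨F', rfl⟩ := hF
  obtain ⟨G', rfl⟩ := hG
  exact ⟨CuspForm.mcast h (F'.mulModularForm G'), rfl⟩

theorem isMF_mul_isCF [Γ.HasDetPlusMinusOne] {a b c : ℤ} {F G : ℍ → ℂ} (hF : IsMF Γ a F)
    (hG : IsCF Γ b G) (h : a + b = c) : IsCF Γ c (F * G) := by
  rw [mul_comm]
  exact isCF_mul_isMF hG hF (by omega)

theorem isCF_isMF {a : ℤ} {F : ℍ → ℂ} (hF : IsCF Γ a F) : IsMF Γ a F := by
  obtain ⟨F', rfl⟩ := hF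
  exact ⟨ModularFormClass.modularForm F', rfl⟩

theorem isMF_smul [Γ.HasDetOne] {a : ℤ} {F : ℍ → ℂ} (c : ℂ) (hF : IsMF Γ a F) :
    IsMF Γ a (c • F) := by
  obtain ⟨F', rfl⟩ := hF
  exact ⟨c • F', rfl⟩

theorem isCF_smul [Γ.HasDetOne] {a : ℤ} {F : ℍ → ℂ} (c : ℂ) (hF : IsCF Γ a F) :
    IsCF Γ a (c • F) := by
  obtain ⟨F', rfl⟩ := hF
  exact ⟨c • F', rfl⟩

theorem isMF_zero {a : ℤ} : IsMF Γ a 0 := ⟨0, rfl⟩

theorem isCF_zero {a : ℤ} : IsCF Γ a 0 := ⟨0, rfl⟩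

theorem isMF_add {a : ℤ} {F G : ℍ → ℂ} (hF : IsMF Γ a F) (hG : IsMF Γ a G) :
    IsMF Γ a (F + G) := by
  obtain ⟨F', rfl⟩ := hF
  obtain ⟨G', rfl⟩ := hG
  exact ⟨F' + G', rfl⟩

theorem isCF_add {a : ℤ} {F G : ℍ → ℂ} (hF : IsCF Γ a F) (hG : IsCF Γ a G) :
    IsCF Γ a (F + G) := by
  obtain ⟨F', rfl⟩ := hF
  obtain ⟨G', rfl⟩ := hG
  exact ⟨F' + G', rfl⟩

theorem isMF_sum {ι : Type*} {a : ℤ} (s : Finset ι) {F : ι → ℍ → ℂ}
    (hF : ∀ i ∈ s, IsMF Γ a (F i)) : IsMF Γ a (∑ i ∈ s, F i) := by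
  classical
  induction s using Finset.induction_on with
  | empty => simpa using isMF_zero
  | insert i t hi IH =>
    rw [Finset.sum_insert hi]
    exact isMF_add (hF i (Finset.mem_insert_self _ _))
      (IH fun j hj => hF j (Finset.mem_insert_of_mem hj))

theorem isCF_sum {ι : Type*} {a : ℤ} (s : Finset ι) {F : ι → ℍ → ℂ}
    (hF : ∀ i ∈ s, IsCF Γ a (F i)) : IsCF Γ a (∑ i ∈ s, F i) := by
  classical
  induction s using Finset.induction_on with
  | empty => simpa using isCF_zero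
  | insert i t hi IH =>
    rw [Finset.sum_insert hi]
    exact isCF_add (hF i (Finset.mem_insert_self _ _))
      (IH fun j hj => hF j (Finset.mem_insert_of_mem hj))

theorem isMF_const [Γ.HasDetOne] (c : ℂ) : IsMF Γ 0 (fun _ => c) :=
  ⟨ModularForm.const c, rfl⟩

end closure

end Fermat.Agent.S23.KeyId

namespace Fermat.Agent.S23.KeyId

open UpperHalfPlane ModularForm SlashInvariantForm Finset
open scoped MatrixGroups ModularForm Manifold

open Fermat.Agent.S23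

set_option linter.unusedSectionVars false

variable {N : ℕ} [NeZero N]

/-- The coset space of `Gamma0 N` in `SL(2, ℤ)` (inside `GL (Fin 2) ℝ`). -/
abbrev Q (N : ℕ) := ↥(𝒮ℒ) ⧸ (G0 N).subgroupOf 𝒮ℒ

noncomputable scoped instance instFintypeQ : Fintype (Q N) := Fintype.ofFinite _

noncomputable scoped instance instDecEqQ : DecidableEq (Q N) := Classical.decEq _

/-- The conjugates of a modular form of level `Gamma0 N` under `SL(2, ℤ)`. -/
noncomputable def cj {a : ℤ} (F : ModularForm (G0 N) a) (q : Q N) : ℍ → ℂ :=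
  quotientFunc (𝒢 := G0 N) (ℋ := 𝒮ℒ) F q

/-- The conjugates of a cusp form of level `Gamma0 N` under `SL(2, ℤ)`. -/
noncomputable def cjc {a : ℤ} (f : CuspForm (G0 N) a) (q : Q N) : ℍ → ℂ :=
  quotientFunc (𝒢 := G0 N) (ℋ := 𝒮ℒ) f q

theorem cj_mk {a : ℤ} (F : ModularForm (G0 N) a) (h : ↥(𝒮ℒ)) :
    cj F (⟦h⟧ : Q N) = (F : ℍ → ℂ) ∣[a] h.val⁻¹ := rfl

theorem cjc_mk {a : ℤ} (f : CuspForm (G0 N) a) (h : ↥(𝒮ℒ)) :
    cjc f (⟦h⟧ : Q N) = (f : ℍ → ℂ) ∣[a] h.val⁻¹ := rfl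

theorem abs_det_inv (h : ↥(𝒮ℒ)) : |(h.val⁻¹).det.val| = 1 := by
  have := Subgroup.HasDetPlusMinusOne.abs_det (Γ := 𝒮ℒ) (inv_mem h.2)
  simpa using this

theorem cj_one {a : ℤ} (F : ModularForm (G0 N) a) : cj F (⟦1⟧ : Q N) = F := by
  rw [cj_mk]; simp

theorem cjc_one {a : ℤ} (f : CuspForm (G0 N) a) : cjc f (⟦1⟧ : Q N) = f := by
  rw [cjc_mk]; simp

theorem cjc_eq_cj {a : ℤ} (f : CuspForm (G0 N) a) (F : ModularForm (G0 N) a)
    (h : (f : ℍ → ℂ) = F) (q : Q N) : cjc f q = cj F q := by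
  induction q using Quotient.inductionOn with
  | h r => rw [cj_mk, cjc_mk, h]

theorem cj_mul {a b : ℤ} (F : ModularForm (G0 N) a) (G : ModularForm (G0 N) b) (q : Q N) :
    cj (F.mul G) q = cj F q * cj G q := by
  induction q using Quotient.inductionOn with
  | h r =>
    rw [cj_mk, cj_mk, cj_mk, ModularForm.coe_mul, mul_slash, abs_det_inv, one_smul]

theorem cjc_mulModularForm {a b : ℤ} (f : CuspForm (G0 N) a) (G : ModularForm (G0 N) b)
    (q : Q N) : cjc (f.mulModularForm G) q = cjc f q * cj G q := by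
  induction q using Quotient.inductionOn with
  | h r =>
    rw [cjc_mk, cjc_mk, cj_mk, CuspForm.coe_mulModularForm, mul_slash, abs_det_inv, one_smul]

theorem cj_pow {a : ℤ} (F : ModularForm (G0 N) a) (n : ℕ) (q : Q N) :
    cj (F.pow n) q = cj F q ^ n := by
  induction q using Quotient.inductionOn with
  | h r =>
    rw [cj_mk, cj_mk, ModularForm.coe_pow]
    have := ModularForm.prod_slash (k := a) (g := r.val⁻¹) (f := fun _ : ℕ => (F : ℍ → ℂ))
      (s := Finset.range n)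
    simp only [Finset.prod_const, Finset.card_range] at this
    rw [mul_comm] at this
    rw [this, abs_det_inv, one_zpow, one_smul]

theorem mdiff_cj {a : ℤ} (F : ModularForm (G0 N) a) (q : Q N) : MDiff (cj F q) := by
  induction q using Quotient.inductionOn with
  | h r =>
    rw [cj_mk]
    exact (ModularForm.translate F r.val⁻¹).holo'

/-- Power sums of the conjugates. -/
noncomputable def ps {a : ℤ} (F : ModularForm (G0 N) a) (j : ℕ) : ℍ → ℂ :=
  ∑ q : Q N, cj F q ^ j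

theorem ps_eq_trace {a : ℤ} (F : ModularForm (G0 N) a) (j : ℕ) :
    ps F j = ⇑(ModularForm.trace 𝒮ℒ (F.pow j)) := by
  rw [ModularForm.coe_trace, ps]
  refine Finset.sum_congr rfl fun q _ => ?_
  rw [← cj_pow]; rfl

theorem isMF_ps {a : ℤ} (F : ModularForm (G0 N) a) (j : ℕ) : IsMF 𝒮ℒ (j * a) (ps F j) :=
  ⟨_, (ps_eq_trace F j).symm⟩

/-- Twisted power sums `∑ f_q * g_q ^ i` of the conjugates. -/
noncomputable def tw {k w : ℤ} (f : CuspForm (G0 N) k) (g : ModularForm (G0 N) w) (i : ℕ) :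
    ℍ → ℂ :=
  ∑ q : Q N, cjc f q * cj g q ^ i

theorem tw_eq_trace {k w : ℤ} (f : CuspForm (G0 N) k) (g : ModularForm (G0 N) w) (i : ℕ) :
    tw f g i = ⇑(CuspForm.trace 𝒮ℒ (f.mulModularForm (g.pow i))) := by
  rw [CuspForm.coe_trace, tw]
  refine Finset.sum_congr rfl fun q _ => ?_
  rw [← cj_pow, ← cjc_mulModularForm]; rfl

theorem isCF_tw {k w : ℤ} (f : CuspForm (G0 N) k) (g : ModularForm (G0 N) w) (i : ℕ) :
    IsCF 𝒮ℒ (k + i * w) (tw f g i) :=
  ⟨_, (tw_eq_trace f g i).symm⟩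

theorem ps_succ_eq_tw {a : ℤ} (f : CuspForm (G0 N) a) (F : ModularForm (G0 N) a)
    (h : (f : ℍ → ℂ) = F) (j : ℕ) : ps F (j + 1) = tw f F j := by
  rw [ps, tw]
  refine Finset.sum_congr rfl fun q _ => ?_
  rw [cjc_eq_cj f F h, pow_succ, mul_comm]

theorem isCF_ps {a : ℤ} (f : CuspForm (G0 N) a) (F : ModularForm (G0 N) a)
    (h : (f : ℍ → ℂ) = F) {j : ℕ} (hj : 1 ≤ j) : IsCF 𝒮ℒ (j * a) (ps F j) := by
  obtain ⟨j, rfl⟩ : ∃ i, j = i + 1 := ⟨j - 1, by omega⟩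
  rw [ps_succ_eq_tw f F h]
  exact isCF_cast (by push_cast; ring) (isCF_tw f F j)

theorem newton_pointwise {σ : Type*} [Fintype σ] [DecidableEq σ] (x : σ → ℂ) (k : ℕ) :
    (k : ℂ) * (univ.val.map x).esymm k
      = (-1) ^ (k + 1) * ∑ a ∈ antidiagonal k with a.1 < k,
          (-1) ^ a.1 * (univ.val.map x).esymm a.1 * ∑ q, x q ^ a.2 := by
  have h := congrArg (MvPolynomial.aeval x) (MvPolynomial.mul_esymm_eq_sum σ ℂ k)
  simp only [map_mul, map_natCast, map_pow, map_neg, map_one, map_sum,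
    MvPolynomial.aeval_esymm_eq_multiset_esymm, MvPolynomial.psum, MvPolynomial.aeval_X] at h
  exact h

/-- Elementary symmetric functions of the conjugates. -/
noncomputable def es {a : ℤ} (F : ModularForm (G0 N) a) (i : ℕ) : ℍ → ℂ :=
  fun τ => (univ.val.map (fun q : Q N => cj F q τ)).esymm i

theorem es_zero {a : ℤ} (F : ModularForm (G0 N) a) : es F 0 = fun _ => (1 : ℂ) := by
  ext τ; simp [es, Multiset.esymm, Multiset.powersetCard_zero_left]

theorem es_newton {a : ℤ} (F : ModularForm (G0 N) a) {k : ℕ} (hk : 0 < k) :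
    es F k = ((k : ℂ)⁻¹ * (-1) ^ (k + 1)) •
      ∑ p ∈ antidiagonal k with p.1 < k, ((-1 : ℂ) ^ p.1) • (es F p.1 * ps F p.2) := by
  ext τ
  have hk' : (k : ℂ) ≠ 0 := Nat.cast_ne_zero.mpr hk.ne'
  have := newton_pointwise (fun q : Q N => cj F q τ) k
  simp only [Pi.smul_apply, Finset.sum_apply, Pi.mul_apply, smul_eq_mul, es, ps, Pi.pow_apply]
  rw [mul_assoc, eq_inv_mul_iff_mul_eq₀ hk', this]
  congr 1
  refine Finset.sum_congr rfl fun p _ => ?_
  ring

theorem isMF_es {a : ℤ} (F : ModularForm (G0 N) a) (i : ℕ) : IsMF 𝒮ℒ (a * i) (es F i) := by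
  induction i using Nat.strong_induction_on with
  | _ k IH =>
    rcases Nat.eq_zero_or_pos k with rfl | hk
    · rw [es_zero]
      exact isMF_cast (by simp) (isMF_const 1)
    · rw [es_newton F hk]
      refine isMF_smul _ (isMF_sum _ fun p hp => isMF_smul _ ?_)
      have hp1 : p.1 < k := (mem_filter.mp hp).2
      have hp2 : p.1 + p.2 = k := mem_antidiagonal.mp (mem_filter.mp hp).1
      refine isMF_mul (IH p.1 hp1) (isMF_ps F p.2) ?_
      rw [← hp2]; push_cast; ring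

theorem isCF_es {a : ℤ} (f : CuspForm (G0 N) a) (F : ModularForm (G0 N) a)
    (h : (f : ℍ → ℂ) = F) {i : ℕ} (hi : 1 ≤ i) : IsCF 𝒮ℒ (a * i) (es F i) := by
  rw [es_newton F hi]
  refine isCF_smul _ (isCF_sum _ fun p hp => isCF_smul _ ?_)
  have hp1 : p.1 < i := (mem_filter.mp hp).2
  have hp2 : p.1 + p.2 = i := mem_antidiagonal.mp (mem_filter.mp hp).1
  refine isMF_mul_isCF (isMF_es F p.1) (isCF_ps f F h (by omega)) ?_
  rw [← hp2]; push_cast; ring

end Fermat.Agent.S23.KeyId
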